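import Mathlib
import Fermat.Agent.Lib.BadRed.Nodal.Deuring2.Main
import Fermat.Agent.E.Desc.Kp.Eval

/-!
# Cluster E' (Mazur's descent), DESC-Kp: the CORE count for ANN and FIX, part B  (helper31)

Blueprint: `NOTES/blueprint-E-DESC-Kp.md`, section 4, ANN (1)-(4) and FIX.

`N : NodalSeed K F k Fk₁ Fk₂ ι`, `k` infinite, `r = N.rmap` the reduction of places
(`r P = none`: `P` is of type (N)).  For an effective divisor `E` supported on places of type (N)
at ONE node `i`: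

* `kp_core` (`Core.lean`) : there are `M` and `ψ ∈ 𝔏(M D₀ - E)`, a unit for both valuations,
  such that the divisor of `ψ` on the places of type (N) is `E`, or `E + P**` for one place `P**`
  of type (N).   (`ANN`: `E = Z` a `Γ`-orbit;  `FIX`: `E = 12 P*`.)

(`IsNodeOf`, COUNT, EVAL: `Eval.lean`, helper68.)
This file: the spaces `kpB N i M α β = B(α, β)`
(`mem_kpB`, `kpB_anti`, `kp_nodalRR_sub_eq`), elements of exact order at a node
(`kp_exists_exact`, `kp_exists_fst`, `kp_exists_snd`) and the dimension bound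
`kp_finrank_kpB_le : dim B(α, β) + α + β ≤ dim L_C + 1`.
-/

set_option autoImplicit false
set_option linter.style.haveILetI false
set_option linter.unusedSectionVars false
set_option linter.unusedVariables false

noncomputable section

open AlgebraicCurve Fermat.Agent.RR Fermat.Agent.Deuring Fermat.Agent.BadRed

namespace Fermat.Agent.EKp

variable {K F k Fk₁ Fk₂ : Type*} [Field K] [Field F] [Algebra K F]
  [Field k] [Field Fk₁] [Algebra k Fk₁] [Field Fk₂] [Algebra k Fk₂] {ι : Type*} [Fintype ι]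

/-! ### Riemann–Roch spaces `L(R - α Q)` -/

section RR

variable {F₁ : Type*} [Field F₁] [Algebra k F₁]

theorem kp_mem_rr_sub_single {R : Divisor k F₁} {Q : Place k F₁} {n : ℕ} {f : F₁} :
    f ∈ riemannRochSpace (R - Finsupp.single Q (n : ℤ)) ↔
      f ∈ riemannRochSpace R ∧ (f = 0 ∨ -(R Q) + n ≤ Q.ord f) := by
  classical
  rw [mem_riemannRochSpace_iff, mem_riemannRochSpace_iff]
  constructor
  · intro h
    refine ⟨fun v => ?_, ?_⟩
    · rcases h v with h0 | h1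
      · exact Or.inl h0
      · right
        rw [Finsupp.sub_apply, Finsupp.single_apply] at h1
        split_ifs at h1 <;> omega
    · rcases h Q with h0 | h1
      · exact Or.inl h0
      · right
        rw [Finsupp.sub_apply, Finsupp.single_eq_same] at h1
        omega
  · rintro ⟨h1, h2⟩ v
    rcases eq_or_ne f 0 with h0 | h0
    · exact Or.inl h0
    right
    have hv := (h1 v).resolve_left h0
    rw [Finsupp.sub_apply, Finsupp.single_apply]
    split_ifs with hQv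
    · subst hQv
      have := h2.resolve_left h0
      omega
    · omega

/-- interpolation at the nodes `j ≠ i` with EXACT order `α` at the node `i`. -/
theorem kp_exists_exact [Infinite k] (h₁ : IsRRField k F₁) (s : ι → Place k F₁)
    (hs : Function.Injective s) (R : Divisor k F₁) (hR : ∀ j, R (s j) = 0) (i : ι) (α : ℕ)
    (hdeg : 2 * (genusFF k F₁ : ℤ) - 2 < Divisor.degree R - α - Fintype.card ι) (c : ι → k) :
    ∃ a ∈ riemannRochSpace (R - Finsupp.single (s i) (α : ℤ)), a ≠ 0 ∧ (s i).ord a = α ∧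
      ∀ j, j ≠ i → ValAt (s j) a (c j) := by
  classical
  have hcard : Fintype.card {j : ι // j ≠ i} < Fintype.card ι :=
    Fintype.card_subtype_lt (p := fun j => j ≠ i) (x := i) (fun h => h rfl)
  have hR' : ∀ j : {j : ι // j ≠ i}, (R - Finsupp.single (s i) (α : ℤ)) (s j.1) = 0 := by
    intro j
    rw [Finsupp.sub_apply, hR, Finsupp.single_apply, if_neg (fun h => j.2 (hs h).symm), sub_zero]
  have hd : Divisor.degree (R - Finsupp.single (s i) (α : ℤ)) = Divisor.degree R - α := by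
    rw [map_sub, degree_single_one h₁]
  obtain ⟨a, ha, ha0, hac, haQ⟩ := exists_interpolation_exact h₁ (fun j : {j : ι // j ≠ i} => s j.1)
    (fun x y hxy => Subtype.ext (hs hxy)) (R - Finsupp.single (s i) (α : ℤ)) hR' {s i}
    (fun Q hQ j => by
      rw [Finset.mem_singleton] at hQ
      rw [hQ]
      exact fun h => j.2 (hs h).symm)
    (by rw [hd]; omega) (fun j => c j.1)
  refine ⟨a, ha, ha0, ?_, fun j hj => hac ⟨j, hj⟩⟩
  have := haQ (s i) (Finset.mem_singleton_self _)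
  rw [this, Finsupp.sub_apply, hR, Finsupp.single_eq_same]
  ring

end RR

/-! ### the spaces `B(α, β)` -/

section B

variable (N : NodalSeed K F k Fk₁ Fk₂ ι) (i : ι) (M : ℕ)

/-- `B(α, β)`: the pairs of `L_C(M R₁, M R₂)` vanishing to the order `α` (resp. `β`) on the first
(resp. second) branch of the node `i`. -/
def kpB (α β : ℕ) : Submodule k (Fk₁ × Fk₂) :=
  nodalRR N.s₁ N.s₂ (M • N.R₁ - Finsupp.single (N.s₁ i) (α : ℤ))
    (M • N.R₂ - Finsupp.single (N.s₂ i) (β : ℤ))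

theorem mem_kpB {α β : ℕ} {z : Fk₁ × Fk₂} :
    z ∈ kpB N i M α β ↔ z ∈ nodalRR N.s₁ N.s₂ (M • N.R₁) (M • N.R₂) ∧
      (z.1 = 0 ∨ (α : ℤ) ≤ (N.s₁ i).ord z.1) ∧ (z.2 = 0 ∨ (β : ℤ) ≤ (N.s₂ i).ord z.2) := by
  unfold kpB
  rw [mem_nodalRR, mem_nodalRR, kp_mem_rr_sub_single, kp_mem_rr_sub_single, N.smul_R₁_node,
    N.smul_R₂_node, neg_zero, zero_add, zero_add]
  tauto

theorem kpB_le_nodalRR (α β : ℕ) :
    kpB N i M α β ≤ nodalRR N.s₁ N.s₂ (M • N.R₁) (M • N.R₂) :=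
  fun _ hz => ((mem_kpB N i M).mp hz).1

theorem kpB_anti {α α' β β' : ℕ} (hα : α ≤ α') (hβ : β ≤ β') :
    kpB N i M α' β' ≤ kpB N i M α β := by
  intro z hz
  rw [mem_kpB] at hz ⊢
  refine ⟨hz.1, hz.2.1.imp_right fun h => ?_, hz.2.2.imp_right fun h => ?_⟩
  · have : (α : ℤ) ≤ α' := by exact_mod_cast hα
    omega
  · have : (β : ℤ) ≤ β' := by exact_mod_cast hβ
    omega

/-- a pair of `L_C` vanishing on the first branch of the node `i` vanishes on the second. -/
theorem kp_vanAt_snd {z : Fk₁ × Fk₂} (hz : z ∈ nodalRR N.s₁ N.s₂ (M • N.R₁) (M • N.R₂))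
    (h : VanAt (N.s₁ i) z.1) : VanAt (N.s₂ i) z.2 := by
  obtain ⟨c, hc1, hc2⟩ := hz.2.2 i
  have hc0 : c = 0 := hc1.unique ((valAt_zero_right_iff _ _).mpr h)
  rw [hc0] at hc2
  exact (valAt_zero_right_iff _ _).mp hc2

theorem kp_vanAt_fst {z : Fk₁ × Fk₂} (hz : z ∈ nodalRR N.s₁ N.s₂ (M • N.R₁) (M • N.R₂))
    (h : VanAt (N.s₂ i) z.2) : VanAt (N.s₁ i) z.1 := by
  obtain ⟨c, hc1, hc2⟩ := hz.2.2 i
  have hc0 : c = 0 := hc2.unique ((valAt_zero_right_iff _ _).mpr h)
  rw [hc0] at hc1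
  exact (valAt_zero_right_iff _ _).mp hc1

/-- `nodalRR (M R₁ - s₁ i) (M R₂) = B(1, 1)`. -/
theorem kp_nodalRR_sub_eq :
    nodalRR N.s₁ N.s₂ (M • N.R₁ - Finsupp.single (N.s₁ i) 1) (M • N.R₂) = kpB N i M 1 1 := by
  apply le_antisymm
  · intro z hz
    have hz1 : z.1 ∈ riemannRochSpace (M • N.R₁ - Finsupp.single (N.s₁ i) ((1 : ℕ) : ℤ)) := by
      rw [Nat.cast_one]
      exact hz.1
    rw [kp_mem_rr_sub_single, N.smul_R₁_node, neg_zero, zero_add] at hz1
    have hzL : z ∈ nodalRR N.s₁ N.s₂ (M • N.R₁) (M • N.R₂) := ⟨hz1.1, hz.2.1, hz.2.2⟩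
    rw [mem_kpB]
    refine ⟨hzL, hz1.2, ?_⟩
    have hv : VanAt (N.s₁ i) z.1 := hz1.2.imp_right fun h => by
      have : ((1 : ℕ) : ℤ) = 1 := Nat.cast_one
      omega
    rcases kp_vanAt_snd N i M hzL hv with h0 | h0
    · exact Or.inl h0
    · right
      have : ((1 : ℕ) : ℤ) = 1 := Nat.cast_one
      omega
  · intro z hz
    rw [mem_kpB] at hz
    refine ⟨?_, hz.1.2.1, hz.1.2.2⟩
    have : z.1 ∈ riemannRochSpace (M • N.R₁ - Finsupp.single (N.s₁ i) ((1 : ℕ) : ℤ)) := by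
      rw [kp_mem_rr_sub_single, N.smul_R₁_node, neg_zero, zero_add]
      exact ⟨hz.1.1, hz.2.1⟩
    rwa [Nat.cast_one] at this

end B

/-! ### numerics -/

section Num

variable (N : NodalSeed K F k Fk₁ Fk₂ ι)

theorem kp_big₁ {n M : ℕ} (hM : N.m₁ + n ≤ M) :
    2 * ((genusFF K F : ℤ) + genusFF k Fk₁ + genusFF k Fk₂) + Fintype.card ι + 4 + n ≤
      Divisor.degree (M • N.R₁) := by
  rw [N.degree_smul_R₁]
  have h2 : (N.m₁ : ℤ) + n ≤ M := by exact_mod_cast hM
  unfold NodalSeed.m₁ NodalSeed.m₀ at h2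
  push_cast at h2
  have h3 : (M : ℤ) ≤ M * Divisor.degree N.R₁ := by
    have := N.R₁_pos
    have hm0 : (0 : ℤ) ≤ M := Int.natCast_nonneg M
    nlinarith
  omega

theorem kp_big₂ {n M : ℕ} (hM : N.m₁ + n ≤ M) :
    2 * ((genusFF K F : ℤ) + genusFF k Fk₁ + genusFF k Fk₂) + Fintype.card ι + 4 + n ≤
      Divisor.degree (M • N.R₂) := by
  rw [N.degree_smul_R₂]
  have h2 : (N.m₁ : ℤ) + n ≤ M := by exact_mod_cast hM
  unfold NodalSeed.m₁ NodalSeed.m₀ at h2
  push_cast at h2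
  have h3 : (M : ℤ) ≤ M * Divisor.degree N.R₂ := by
    have := N.R₂_pos
    have hm0 : (0 : ℤ) ≤ M := Int.natCast_nonneg M
    nlinarith
  omega

theorem kp_big₀ {n M : ℕ} (hM : N.m₁ + n ≤ M) :
    2 * ((genusFF K F : ℤ) + genusFF k Fk₁ + genusFF k Fk₂) + Fintype.card ι + 4 + n ≤
      Divisor.degree (M • N.D₀) := by
  rw [N.degree_smul_D₀]
  have h2 : (N.m₁ : ℤ) + n ≤ M := by exact_mod_cast hM
  unfold NodalSeed.m₁ NodalSeed.m₀ at h2
  push_cast at h2
  have h3 : (M : ℤ) ≤ M * Divisor.degree N.D₀ := by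
    have := N.degree_D₀_pos
    have hm0 : (0 : ℤ) ≤ M := Int.natCast_nonneg M
    nlinarith
  omega

/-- an element of `L(M R₁)` of exact order `α` at the node `i`, with given values at the other
nodes. -/
theorem kp_exists_fst [Infinite k] (i : ι) {α M : ℕ} (hM : N.m₁ + α ≤ M) (c : ι → k) :
    ∃ a ∈ riemannRochSpace (M • N.R₁ - Finsupp.single (N.s₁ i) (α : ℤ)), a ≠ 0 ∧
      (N.s₁ i).ord a = α ∧ ∀ j, j ≠ i → ValAt (N.s₁ j) a (c j) := by
  have hb := kp_big₁ N hM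
  have hg := Int.natCast_nonneg (genusFF K F)
  have hg₂ := Int.natCast_nonneg (genusFF k Fk₂)
  exact kp_exists_exact N.S₁.hFk N.s₁ N.s₁_inj (M • N.R₁) (N.smul_R₁_node M) i α (by omega) c

theorem kp_exists_snd [Infinite k] (i : ι) {β M : ℕ} (hM : N.m₁ + β ≤ M) (c : ι → k) :
    ∃ b ∈ riemannRochSpace (M • N.R₂ - Finsupp.single (N.s₂ i) (β : ℤ)), b ≠ 0 ∧
      (N.s₂ i).ord b = β ∧ ∀ j, j ≠ i → ValAt (N.s₂ j) b (c j) := by
  have hb := kp_big₂ N hM
  have hg := Int.natCast_nonneg (genusFF K F)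
  have hg₁ := Int.natCast_nonneg (genusFF k Fk₁)
  exact kp_exists_exact N.S₂.hFk N.s₂ N.s₂_inj (M • N.R₂) (N.smul_R₂_node M) i β (by omega) c

end Num

/-! ### the dimension of `B(α, β)` -/

section Dim

variable [Infinite k] (N : NodalSeed K F k Fk₁ Fk₂ ι) (i : ι)

/-- `(a, 0) ∈ B(α, β) ∖ B(α + 1, β)`. -/
theorem kp_exists_mem_fst {α β M : ℕ} (hα : 1 ≤ α) (hM : N.m₁ + α ≤ M) :
    ∃ z ∈ kpB N i M α β, z ∉ kpB N i M (α + 1) β ∧ z.1 ≠ 0 := by
  obtain ⟨a, ha, ha0, hord, hval⟩ := kp_exists_fst N i hM (fun _ => 0)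
  rw [kp_mem_rr_sub_single] at ha
  have hvan : ∀ j, ValAt (N.s₁ j) a 0 := by
    intro j
    by_cases hj : j = i
    · subst hj
      rw [valAt_zero_right_iff]
      right
      rw [hord]
      exact_mod_cast hα
    · exact hval j hj
  refine ⟨(a, 0), ?_, ?_, ha0⟩
  · rw [mem_kpB]
    exact ⟨⟨ha.1, Submodule.zero_mem _, fun j => ⟨0, hvan j, valAt_zero _⟩⟩,
      Or.inr (by rw [hord]), Or.inl rfl⟩
  · intro h
    rw [mem_kpB] at h
    have := h.2.1.resolve_left ha0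
    rw [hord] at this
    push_cast at this
    omega

/-- `(0, b) ∈ B(α, β) ∖ B(α, β + 1)`. -/
theorem kp_exists_mem_snd {α β M : ℕ} (hβ : 1 ≤ β) (hM : N.m₁ + β ≤ M) :
    ∃ z ∈ kpB N i M α β, z ∉ kpB N i M α (β + 1) ∧ z.2 ≠ 0 := by
  obtain ⟨b, hb, hb0, hord, hval⟩ := kp_exists_snd N i hM (fun _ => 0)
  rw [kp_mem_rr_sub_single] at hb
  have hvan : ∀ j, ValAt (N.s₂ j) b 0 := by
    intro j
    by_cases hj : j = i
    · subst hj
      rw [valAt_zero_right_iff]
      right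
      rw [hord]
      exact_mod_cast hβ
    · exact hval j hj
  refine ⟨(0, b), ?_, ?_, hb0⟩
  · rw [mem_kpB]
    exact ⟨⟨Submodule.zero_mem _, hb.1, fun j => ⟨0, valAt_zero _, hvan j⟩⟩,
      Or.inl rfl, Or.inr (by rw [hord])⟩
  · intro h
    rw [mem_kpB] at h
    have := h.2.2.resolve_left hb0
    rw [hord] at this
    push_cast at this
    omega

/-- `dim B(α, β) + α + β ≤ dim L_C + 1` for `α, β ≥ 1`. -/
theorem kp_finrank_kpB_le {n M : ℕ} (hM : N.m₁ + n ≤ M) :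
    ∀ α β : ℕ, 1 ≤ α → 1 ≤ β → α ≤ n + 1 → β ≤ n + 1 →
      Module.finrank k (kpB N i M α β) + α + β ≤
        Module.finrank k (nodalRR N.s₁ N.s₂ (M • N.R₁) (M • N.R₂)) + 1 := by
  haveI := finite_nodalRR N.S₁.hFk N.S₂.hFk N.s₁ N.s₂ (M • N.R₁) (M • N.R₂)
  have hfin : ∀ α β, Module.Finite k (kpB N i M α β) := fun α β =>
    Submodule.finiteDimensional_of_le (kpB_le_nodalRR N i M α β)
  -- the base case
  have h11 : Module.finrank k (kpB N i M 1 1) + 1 + 1 ≤
      Module.finrank k (nodalRR N.s₁ N.s₂ (M • N.R₁) (M • N.R₂)) + 1 := by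
    have hlt : kpB N i M 1 1 < nodalRR N.s₁ N.s₂ (M • N.R₁) (M • N.R₂) := by
      refine lt_of_le_of_ne (kpB_le_nodalRR N i M 1 1) fun h => ?_
      have h1 : ((1 : Fk₁), (1 : Fk₂)) ∈ nodalRR N.s₁ N.s₂ (M • N.R₁) (M • N.R₂) :=
        ⟨td_one_mem (N.smul_R₁_nonneg M), td_one_mem (N.smul_R₂_nonneg M),
          fun j => ⟨1, td_valAt_one _, td_valAt_one _⟩⟩
      rw [← h, mem_kpB] at h1
      have := h1.2.1.resolve_left one_ne_zero
      rw [Place.ord_one] at this
      norm_num at this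
    have := Submodule.finrank_lt_finrank_of_lt hlt
    omega
  -- first index
  have hα : ∀ α : ℕ, 1 ≤ α → α ≤ n + 1 → Module.finrank k (kpB N i M α 1) + α + 1 ≤
      Module.finrank k (nodalRR N.s₁ N.s₂ (M • N.R₁) (M • N.R₂)) + 1 := by
    intro α hα1
    induction α, hα1 using Nat.le_induction with
    | base => exact fun _ => h11
    | succ α hα1 ih =>
      intro hαn
      have ih' := ih (by omega)
      obtain ⟨z, hz, hzn, -⟩ := kp_exists_mem_fst N i (α := α) (β := 1) (M := M) hα1 (by omega)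
      have hlt : kpB N i M (α + 1) 1 < kpB N i M α 1 :=
        lt_of_le_of_ne (kpB_anti N i M (Nat.le_succ α) le_rfl) fun h => hzn (h ▸ hz)
      haveI := hfin α 1
      have := Submodule.finrank_lt_finrank_of_lt hlt
      omega
  intro α β hα1 hβ1 hαn
  induction β, hβ1 using Nat.le_induction with
  | base => exact fun _ => hα α hα1 hαn
  | succ β hβ1 ih =>
    intro hβn
    have ih' := ih (by omega)
    obtain ⟨z, hz, hzn, -⟩ := kp_exists_mem_snd N i (α := α) (β := β) (M := M) hβ1 (by omega)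
    have hlt : kpB N i M α (β + 1) < kpB N i M α β :=
      lt_of_le_of_ne (kpB_anti N i M le_rfl (Nat.le_succ β)) fun h => hzn (h ▸ hz)
    haveI := hfin α β
    have := Submodule.finrank_lt_finrank_of_lt hlt
    omega

end Dim

end Fermat.Agent.EKp
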