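/-
Cluster E' (Mazur's descent), seat DESC-Kp, leaves (L2), (L3) of the shared CORE of ANN / FIX
(helper4).  Blueprint: NOTES/blueprint-E-DESC-Kp.md, section 4, ANN (2) and the dimension of
`V(M D₀ - E)`.

* `finrank_nodalRR_ord_le` : the space `B(a, b)` of the pairs of `L_C(R₁, R₂)` which vanish to the
  orders `a ≥ 1`, `b ≥ 1` on the two branches of the node `i`
  (`= nodalRR s₁ s₂ (R₁ - a sᵢ) (R₂ - b sᵢ')`) has dimension at most
  `deg R₁ + deg R₂ + 2 - g₁ - g₂ - s - (a + b - 1)`;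
* `finrank_V_sub_eff` : `dim V(M D₀ - E) + deg E = dim L_C(M R₁, M R₂)` for
  `M ≥ m₁ + deg E`;
* `V_sub_not_le` : hence `V(M D₀ - E)` is not contained in `B(a, b)` if
  `deg E + 2 ≤ a + b`, `a, b ≤ deg E + 1`.
-/
import Mathlib
import Fermat.Agent.Lib.BadRed.Nodal.Deuring2.TypeDual

set_option autoImplicit false
set_option linter.unusedSectionVars false
set_option linter.style.haveILetI false

noncomputable section

namespace Fermat.Agent.EKp

open AlgebraicCurve Fermat.Agent.RR Fermat.Agent.Deuring Fermat.Agent.BadRed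

section Special

variable {k F₁ F₂ : Type*} [Field k] [Field F₁] [Algebra k F₁] [Field F₂] [Algebra k F₂]
  {ι : Type*}

/-- the degree of `R - a Q`. -/
theorem cd_degree_sub_smul_single (h : IsRRField k F₁) (R : Divisor k F₁) (Q : Place k F₁)
    (a : ℕ) : Divisor.degree (R - a • Finsupp.single Q (1 : ℤ)) = Divisor.degree R - a := by
  induction a with
  | zero => simp
  | succ n ih =>
    have h1 := degree_add_single h (R - (n + 1) • Finsupp.single Q (1 : ℤ)) Q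
    have e : R - (n + 1) • Finsupp.single Q (1 : ℤ) + Finsupp.single Q 1 =
        R - n • Finsupp.single Q (1 : ℤ) := by
      rw [add_smul, one_smul]; abel
    rw [e, ih] at h1
    push_cast
    omega

theorem cd_sub_smul_single_apply_of_ne (R : Divisor k F₁) {Q Q' : Place k F₁} (hne : Q ≠ Q')
    (a : ℕ) : (R - a • Finsupp.single Q (1 : ℤ)) Q' = R Q' := by
  classical
  rw [Finsupp.sub_apply, Finsupp.smul_apply, Finsupp.single_apply, if_neg hne, smul_zero,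
    sub_zero]

theorem cd_sub_smul_single_apply_self (R : Divisor k F₁) (Q : Place k F₁)
    (a : ℕ) : (R - a • Finsupp.single Q (1 : ℤ)) Q = R Q - a := by
  classical
  rw [Finsupp.sub_apply, Finsupp.smul_apply, Finsupp.single_apply, if_pos rfl, nsmul_eq_mul,
    mul_one]

/-- an element of `L(R - a Q)`, `R Q = 0`, `a ≥ 1`, vanishes at `Q`. -/
theorem cd_vanAt_of_mem {R : Divisor k F₁} {Q : Place k F₁} (hQ : R Q = 0) {a : ℕ}
    (ha : 1 ≤ a) {f : F₁} (hf : f ∈ riemannRochSpace (R - a • Finsupp.single Q (1 : ℤ))) :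
    VanAt Q f := by
  rcases (mem_riemannRochSpace_iff.mp hf) Q with h0 | h
  · exact Or.inl h0
  · right
    rw [cd_sub_smul_single_apply_self, hQ] at h
    have : (1 : ℤ) ≤ a := by exact_mod_cast ha
    omega

/-- **(L2)** the dimension of `B(a, b)`. -/
theorem finrank_nodalRR_ord_le [Fintype ι] (h₁ : IsRRField k F₁) (h₂ : IsRRField k F₂)
    (s₁ : ι → Place k F₁) (s₂ : ι → Place k F₂) (hs₁ : Function.Injective s₁)
    (R₁ : Divisor k F₁) (R₂ : Divisor k F₂)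
    (hR₁ : ∀ j, R₁ (s₁ j) = 0) (i : ι) (a b : ℕ) (ha : 1 ≤ a)
    (hdeg₁ : 2 * (genusFF k F₁ : ℤ) - 2 < Divisor.degree R₁ - a - Fintype.card ι + 1)
    (hdeg₂ : 2 * (genusFF k F₂ : ℤ) - 2 < Divisor.degree R₂ - b) :
    (Module.finrank k (nodalRR s₁ s₂ (R₁ - a • Finsupp.single (s₁ i) (1 : ℤ))
        (R₂ - b • Finsupp.single (s₂ i) (1 : ℤ))) : ℤ) ≤
      Divisor.degree R₁ + Divisor.degree R₂ + 2 - (genusFF k F₁ : ℤ) - (genusFF k F₂ : ℤ)
        - Fintype.card ι - ((a : ℤ) + b - 1) := by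
  classical
  set R₁' : Divisor k F₁ := R₁ - a • Finsupp.single (s₁ i) (1 : ℤ) with hR₁'
  set R₂' : Divisor k F₂ := R₂ - b • Finsupp.single (s₂ i) (1 : ℤ) with hR₂'
  -- the nodes different from `i`
  set T : Finset (Place k F₁) := (Finset.univ.erase i).image s₁ with hT
  have hTcard : (T.card : ℤ) = Fintype.card ι - 1 := by
    rw [hT, Finset.card_image_of_injective _ hs₁, Finset.card_erase_of_mem (Finset.mem_univ i),
      Finset.card_univ]
    have : 1 ≤ Fintype.card ι := Fintype.card_pos_iff.mpr ⟨i⟩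
    omega
  have hTR : ∀ Q ∈ T, R₁' Q = 0 := by
    intro Q hQ
    obtain ⟨j, hj, rfl⟩ := Finset.mem_image.mp hQ
    have hji : j ≠ i := (Finset.mem_erase.mp hj).1
    rw [hR₁', cd_sub_smul_single_apply_of_ne _ (fun h => hji (hs₁ h).symm), hR₁ j]
  have hmemT : ∀ j, j ≠ i → s₁ j ∈ T := fun j hj =>
    Finset.mem_image_of_mem s₁ (Finset.mem_erase.mpr ⟨hj, Finset.mem_univ j⟩)
  have := finite_nodalRR h₁ h₂ s₁ s₂ R₁' R₂'
  have := finite_riemannRochSpace h₁ (R₁' - sumPlaces T)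
  have := finite_riemannRochSpace h₂ R₂'
  let g : ↥(nodalRR s₁ s₂ R₁' R₂') →ₗ[k] ↥(riemannRochSpace R₂') :=
    LinearMap.codRestrict _ ((LinearMap.snd k F₁ F₂) ∘ₗ (nodalRR s₁ s₂ R₁' R₂').subtype)
      (fun x => x.2.2.1)
  let f : ↥(LinearMap.ker g) →ₗ[k] ↥(riemannRochSpace (R₁' - sumPlaces T)) :=
    LinearMap.codRestrict _
      ((LinearMap.fst k F₁ F₂) ∘ₗ (nodalRR s₁ s₂ R₁' R₂').subtype ∘ₗ (LinearMap.ker g).subtype)
      (fun x => by
        have hx2 : ((x : ↥(nodalRR s₁ s₂ R₁' R₂')) : F₁ × F₂).2 = 0 :=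
          congrArg Subtype.val (LinearMap.mem_ker.mp x.2)
        show ((x : ↥(nodalRR s₁ s₂ R₁' R₂')) : F₁ × F₂).1 ∈ _
        rw [mem_riemannRochSpace_sub_sumPlaces_iff hTR]
        refine ⟨x.1.2.1, fun Q hQ => ?_⟩
        obtain ⟨j, -, rfl⟩ := Finset.mem_image.mp hQ
        obtain ⟨c, hc1, hc2⟩ := x.1.2.2.2 j
        rw [hx2] at hc2
        have hc0 : c = 0 := hc2.unique (valAt_zero _)
        rw [hc0] at hc1
        exact (valAt_zero_right_iff _ _).mp hc1)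
  have hf_inj : Function.Injective f := by
    intro x y hxy
    have h1 : ((x : ↥(nodalRR s₁ s₂ R₁' R₂')) : F₁ × F₂).1 =
        ((y : ↥(nodalRR s₁ s₂ R₁' R₂')) : F₁ × F₂).1 := congrArg Subtype.val hxy
    have hx2 : ((x : ↥(nodalRR s₁ s₂ R₁' R₂')) : F₁ × F₂).2 = 0 :=
      congrArg Subtype.val (LinearMap.mem_ker.mp x.2)
    have hy2 : ((y : ↥(nodalRR s₁ s₂ R₁' R₂')) : F₁ × F₂).2 = 0 :=
      congrArg Subtype.val (LinearMap.mem_ker.mp y.2)
    exact Subtype.ext (Subtype.ext (Prod.ext h1 (hx2.trans hy2.symm)))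
  have hrank := LinearMap.finrank_range_add_finrank_ker g
  have h1 : Module.finrank k (LinearMap.range g) ≤ ell R₂' := by
    rw [ell_def]
    exact Submodule.finrank_le _
  have h2 : Module.finrank k (LinearMap.ker g) ≤ ell (R₁' - sumPlaces T) := by
    rw [ell_def]
    exact LinearMap.finrank_le_finrank_of_injective hf_inj
  have hd₁ : Divisor.degree (R₁' - sumPlaces T) =
      Divisor.degree R₁ - a - (Fintype.card ι - 1) := by
    rw [map_sub, degree_sumPlaces h₁, hTcard, hR₁', cd_degree_sub_smul_single h₁]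
  have hd₂ : Divisor.degree R₂' = Divisor.degree R₂ - b := by
    rw [hR₂', cd_degree_sub_smul_single h₂]
  have hell₁ : (ell (R₁' - sumPlaces T) : ℤ) =
      Divisor.degree (R₁' - sumPlaces T) + 1 - (genusFF k F₁ : ℤ) :=
    ell_of_degree_gt h₁ (by rw [hd₁]; omega)
  have hell₂ : (ell R₂' : ℤ) = Divisor.degree R₂' + 1 - (genusFF k F₂ : ℤ) :=
    ell_of_degree_gt h₂ (by rw [hd₂]; omega)
  rw [hd₁] at hell₁
  rw [hd₂] at hell₂
  have h3 : (Module.finrank k (nodalRR s₁ s₂ R₁' R₂') : ℤ) ≤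
      (ell (R₁' - sumPlaces T) : ℤ) + (ell R₂' : ℤ) := by
    have : Module.finrank k (nodalRR s₁ s₂ R₁' R₂') ≤ ell (R₁' - sumPlaces T) + ell R₂' := by
      omega
    exact_mod_cast this
  rw [hell₁, hell₂] at h3
  linarith

end Special

variable {K F k Fk₁ Fk₂ : Type*} [Field K] [Field F] [Algebra K F]
  [Field k] [Field Fk₁] [Algebra k Fk₁] [Field Fk₂] [Algebra k Fk₂]
  {ι : Type*} [Fintype ι] (N : NodalSeed K F k Fk₁ Fk₂ ι)

/-- numerics: `deg ((m₁ + e) D₀) ≥ 2 (g + g₁ + g₂) + s + 4 + e`, and the same for `R₁`, `R₂`. -/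
theorem cd_big₀ {M e : ℕ} (hM : N.m₁ + e ≤ M) :
    2 * ((genusFF K F : ℤ) + genusFF k Fk₁ + genusFF k Fk₂) + Fintype.card ι + 4 + e ≤
      Divisor.degree (M • N.D₀) := by
  obtain ⟨d, rfl⟩ := Nat.exists_eq_add_of_le hM
  have h1 := N.big₀ (le_refl N.m₁)
  rw [N.degree_smul_D₀] at h1 ⊢
  have h2 := N.degree_D₀_pos
  push_cast
  have hd : (0 : ℤ) ≤ d := Int.natCast_nonneg d
  have he : (0 : ℤ) ≤ e := Int.natCast_nonneg e
  nlinarith

theorem cd_big₁ {M e : ℕ} (hM : N.m₁ + e ≤ M) :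
    2 * ((genusFF K F : ℤ) + genusFF k Fk₁ + genusFF k Fk₂) + Fintype.card ι + 4 + e ≤
      Divisor.degree (M • N.R₁) := by
  obtain ⟨d, rfl⟩ := Nat.exists_eq_add_of_le hM
  have h1 := N.big₁ (le_refl N.m₁)
  rw [N.degree_smul_R₁] at h1 ⊢
  have h2 := N.R₁_pos
  push_cast
  have hd : (0 : ℤ) ≤ d := Int.natCast_nonneg d
  have he : (0 : ℤ) ≤ e := Int.natCast_nonneg e
  nlinarith

theorem cd_big₂ {M e : ℕ} (hM : N.m₁ + e ≤ M) :
    2 * ((genusFF K F : ℤ) + genusFF k Fk₁ + genusFF k Fk₂) + Fintype.card ι + 4 + e ≤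
      Divisor.degree (M • N.R₂) := by
  obtain ⟨d, rfl⟩ := Nat.exists_eq_add_of_le hM
  have h1 := N.big₂ (le_refl N.m₁)
  rw [N.degree_smul_R₂] at h1 ⊢
  have h2 := N.R₂_pos
  push_cast
  have hd : (0 : ℤ) ≤ d := Int.natCast_nonneg d
  have he : (0 : ℤ) ≤ e := Int.natCast_nonneg e
  nlinarith

/-- **(L3)** `dim V(M D₀ - E) + deg E = dim L_C(M R₁, M R₂)` for `M ≥ m₁ + deg E`. -/
theorem finrank_V_sub_eff {M e : ℕ} (E : Divisor K F)
    (hE : Divisor.degree E = e) (hM : N.m₁ + e ≤ M) :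
    (Module.finrank k (N.toNodalCore.V (M • N.D₀ - E)) : ℤ) + e =
      Module.finrank k (nodalRR N.s₁ N.s₂ (M • N.R₁) (M • N.R₂)) := by
  have hM₁ : N.m₁ ≤ M := le_trans (Nat.le_add_right _ _) hM
  have hb := cd_big₀ N hM
  have hg₁ := Int.natCast_nonneg (genusFF k Fk₁)
  have hg₂ := Int.natCast_nonneg (genusFF k Fk₂)
  have hs := Int.natCast_nonneg (Fintype.card ι)
  have he := Int.natCast_nonneg e
  rw [← N.V_eq (N.m₀_le_of_m₁_le hM₁), N.toNodalCore.finrank_V, N.toNodalCore.finrank_V]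
  have h1 := ell_of_degree_gt N.S₁.hF (D := M • N.D₀) (by omega)
  have h2 := ell_of_degree_gt N.S₁.hF (D := M • N.D₀ - E) (by rw [map_sub, hE]; omega)
  rw [map_sub, hE] at h2
  omega

/-- **(L2) + (L3)**: `V(M D₀ - E)` is not contained in `B(a, b)` for `a + b ≥ deg E + 2`
(`1 ≤ a`, `a, b ≤ deg E + 1`, `M ≥ m₁ + deg E + 1`). -/
theorem V_sub_not_le {M e : ℕ} (E : Divisor K F)
    (hE : Divisor.degree E = e) (hM : N.m₁ + (e + 1) ≤ M) (i : ι) {a b : ℕ} (ha : 1 ≤ a)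
    (hae : a ≤ e + 1) (hbe : b ≤ e + 1) (hab : e + 2 ≤ a + b) :
    ¬ N.toNodalCore.V (M • N.D₀ - E) ≤
      nodalRR N.s₁ N.s₂ (M • N.R₁ - a • Finsupp.single (N.s₁ i) (1 : ℤ))
        (M • N.R₂ - b • Finsupp.single (N.s₂ i) (1 : ℤ)) := by
  intro hle
  have hM' : N.m₁ + e ≤ M := by omega
  have hM₁ : N.m₁ ≤ M := le_trans (Nat.le_add_right _ _) hM
  have hb₁ := cd_big₁ N hM
  have hb₂ := cd_big₂ N hM
  have hg := Int.natCast_nonneg (genusFF K F)
  have hg₁ := Int.natCast_nonneg (genusFF k Fk₁)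
  have hg₂ := Int.natCast_nonneg (genusFF k Fk₂)
  have hs := Int.natCast_nonneg (Fintype.card ι)
  have hae' : (a : ℤ) ≤ e + 1 := by exact_mod_cast hae
  have hbe' : (b : ℤ) ≤ e + 1 := by exact_mod_cast hbe
  have hab' : (e : ℤ) + 2 ≤ a + b := by exact_mod_cast hab
  push_cast at hb₁ hb₂
  have h1 := finrank_nodalRR_ord_le N.S₁.hFk N.S₂.hFk N.s₁ N.s₂ N.s₁_inj (M • N.R₁) (M • N.R₂)
    (N.smul_R₁_node M) i a b ha (by omega) (by omega)
  have h2 := finrank_V_sub_eff N E hE hM'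
  have h3 := N.finrank_nodalRR_smul (N.m₀_le_of_m₁_le hM₁)
  haveI := finite_nodalRR N.S₁.hFk N.S₂.hFk N.s₁ N.s₂
    (M • N.R₁ - a • Finsupp.single (N.s₁ i) (1 : ℤ))
    (M • N.R₂ - b • Finsupp.single (N.s₂ i) (1 : ℤ))
  have h4 := Submodule.finrank_mono hle
  have h5 : (Module.finrank k (N.toNodalCore.V (M • N.D₀ - E)) : ℤ) ≤
      (Module.finrank k (nodalRR N.s₁ N.s₂ (M • N.R₁ - a • Finsupp.single (N.s₁ i) (1 : ℤ))
        (M • N.R₂ - b • Finsupp.single (N.s₂ i) (1 : ℤ))) : ℤ) := by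
    exact_mod_cast h4
  rw [N.degree_smul_R₁, N.degree_smul_R₂] at h1
  have h6 := N.deg_eq
  have h7 : (M : ℤ) * Divisor.degree N.D₀ =
      M * Divisor.degree N.R₁ + M * Divisor.degree N.R₂ := by
    rw [← h6]; ring
  rw [N.degree_smul_R₁] at hb₁
  rw [N.degree_smul_R₂] at hb₂
  omega

end Fermat.Agent.EKp

namespace Fermat.Agent.EKp

open AlgebraicCurve Fermat.Agent.RR Fermat.Agent.Deuring Fermat.Agent.BadRed

variable {K F k Fk₁ Fk₂ : Type*} [Field K] [Field F] [Algebra K F]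
  [Field k] [Field Fk₁] [Algebra k Fk₁] [Field Fk₂] [Algebra k Fk₂]
  {ι : Type*} [Fintype ι]

/-- **(L3)**, in the shape consumed by `kp_core` (helper31):
`dim V(M D₀ - E) + deg E = dim L_C(M R₁, M R₂)` for `deg E ≤ n`, `M ≥ m₁ + n`. -/
theorem kp_finrank_V (N : NodalSeed K F k Fk₁ Fk₂ ι) {n M : ℕ} (hM : N.m₁ + n ≤ M)
    (E : Divisor K F) (hdeg : Divisor.degree E ≤ n) :
    (Module.finrank k (N.toNodalCore.V (M • N.D₀ - E)) : ℤ) + Divisor.degree E =
      Module.finrank k (nodalRR N.s₁ N.s₂ (M • N.R₁) (M • N.R₂)) := by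
  have hM₁ : N.m₁ ≤ M := le_trans (Nat.le_add_right _ _) hM
  have hb := cd_big₀ N hM
  have hg₁ := Int.natCast_nonneg (genusFF k Fk₁)
  have hg₂ := Int.natCast_nonneg (genusFF k Fk₂)
  have hs := Int.natCast_nonneg (Fintype.card ι)
  rw [← N.V_eq (N.m₀_le_of_m₁_le hM₁), N.toNodalCore.finrank_V, N.toNodalCore.finrank_V]
  have h1 := ell_of_degree_gt N.S₁.hF (D := M • N.D₀) (by omega)
  have h2 := ell_of_degree_gt N.S₁.hF (D := M • N.D₀ - E) (by rw [map_sub]; omega)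
  rw [map_sub] at h2
  omega

end Fermat.Agent.EKp
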