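import Mathlib
import Fermat.Agent.E.Desc.Kp.CoreB
import Fermat.Agent.E.Desc.Kp.CoreDim
import Fermat.Agent.E.Desc.Kp.CoreUnit

/-!
# Cluster E' (Mazur's descent), DESC-Kp: the CORE count for ANN and FIX  (helper31)

Blueprint: `NOTES/blueprint-E-DESC-Kp.md`, section 4, ANN (1)-(4) and FIX.

`N : NodalSeed K F k Fk₁ Fk₂ ι`, `k` infinite.  For an effective divisor `E` supported on places
of type (N) at ONE node `i`:

* `kp_core` : there are `M` and `ψ ∈ 𝔏(M D₀ - E)`, a unit for both valuations, such that the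
  divisor of `ψ` on the places of type (N) is `E`, or `E + P**` for one place `P**` of type (N)
  at the node `i`.

(`ANN`: `E = Z` a `Γ`-orbit;  `FIX`: `E = 12 P*`.)
-/

set_option autoImplicit false
set_option linter.style.haveILetI false
set_option linter.unusedSectionVars false
set_option linter.unusedVariables false

noncomputable section

open AlgebraicCurve Fermat.Agent.RR Fermat.Agent.Deuring Fermat.Agent.BadRed

namespace Fermat.Agent.EKp

variable {K F k Fk₁ Fk₂ : Type*} [Field K] [Field F] [Algebra K F]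
  [Field k] [Field Fk₁] [Algebra k Fk₁] [Field Fk₂] [Algebra k Fk₂] {ι : Type*} [Fintype ι]

/-! ### generalities -/

/-- over an infinite field, a subspace which is not contained in any of finitely many subspaces
contains an element outside all of them. -/
theorem kp_exists_generic [Infinite k] {E' : Type*} [AddCommGroup E'] [Module k E']
    (V : Submodule k E') (S : Set (Submodule k E')) (hS : S.Finite) (h : ∀ W ∈ S, ¬ V ≤ W) :
    ∃ z ∈ V, ∀ W ∈ S, z ∉ W := by
  haveI : Finite ↥S := hS.to_subtype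
  obtain ⟨x, hx⟩ := Submodule.exists_forall_notMem_of_forall_ne_top
    (fun W : ↥S => (W.1).comap V.subtype) (fun W htop => h W.1 W.2 (fun v hv => by
      have : (⟨v, hv⟩ : ↥V) ∈ (W.1).comap V.subtype := by
        rw [htop]
        trivial
      exact this))
  exact ⟨x.1, x.2, fun W hW hxW => hx ⟨W, hW⟩ hxW⟩

/-- an effective divisor of degree `1` is a place. -/
theorem kp_eq_single_of_degree_eq_one {K' F' : Type*} [Field K'] [Field F'] [Algebra K' F']
    (h : IsRRField K' F') {G : Divisor K' F'} (hG : 0 ≤ G) (hdeg : Divisor.degree G = 1) :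
    ∃ P, G = Finsupp.single P 1 := by
  classical
  have hG0 : G ≠ 0 := by
    rintro rfl
    rw [map_zero] at hdeg
    exact zero_ne_one hdeg
  obtain ⟨P, hP⟩ : ∃ P, G P ≠ 0 := by
    by_contra hcon
    push Not at hcon
    exact hG0 (Finsupp.ext hcon)
  have hP1 : 1 ≤ G P := by
    have := Finsupp.le_def.mp hG P
    simp only [Finsupp.coe_zero, Pi.zero_apply] at this
    omega
  have hG' : 0 ≤ G - Finsupp.single P 1 := by
    rw [Finsupp.le_def]
    intro v
    rw [Finsupp.sub_apply, Finsupp.single_apply]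
    have := Finsupp.le_def.mp hG v
    simp only [Finsupp.coe_zero, Pi.zero_apply] at this ⊢
    split_ifs with hv
    · subst hv
      omega
    · omega
  have hd' : Divisor.degree (G - Finsupp.single P 1) = 0 := by
    rw [map_sub, degree_single_one h, hdeg, sub_self]
  have := eq_zero_of_nonneg_of_degree_eq_zero h hG' hd'
  exact ⟨P, sub_eq_zero.mp this⟩

/-! ### bookkeeping: the part of type (N) of the divisor of a function -/

/-- the part of type (N) of `div ψ`, for `ψ ∈ 𝔏(M D₀ - E)` a unit for both valuations, `E`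
supported on the places of type (N): it is `E + G` with `G ≥ 0` of type (N), and
`deg G + deg E` is the number of zeros of type (N) of `ψ`. -/
theorem kp_typeN_part [Infinite k] (N : NodalSeed K F k Fk₁ Fk₂ ι) {M : ℕ} {E : Divisor K F}
    (hEN : ∀ P, E P ≠ 0 → N.rmap P = none) {ψ : F}
    (hψ : N.toNodalCore.IsInt (M • N.D₀ - E) ψ) (hψ₁ : N.S₁.red ψ ≠ 0) :
    ∃ G : Divisor K F, 0 ≤ G ∧ (∀ P, G P ≠ 0 → N.rmap P = none) ∧
      (∀ P, N.rmap P = none → P.ord ψ = E P + G P) ∧
      Divisor.degree G + Divisor.degree E =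
        Finsupp.mapDomain N.rmap (divOf N.S₁.hF ψ) none := by
  classical
  have hψ0 : ψ ≠ 0 := N.S₁.ne_zero_of_red_ne_zero hψ₁
  set Dn : Divisor K F := (divOf N.S₁.hF ψ).filter (fun P => N.rmap P = none) with hDn
  have hDn_pos : ∀ P, N.rmap P = none → Dn P = P.ord ψ := fun P hP => by
    rw [hDn, Finsupp.filter_apply_pos (fun P => N.rmap P = none) _ hP, divOf_apply]
  have hDn_neg : ∀ P, N.rmap P ≠ none → Dn P = 0 := fun P hP => by
    rw [hDn, Finsupp.filter_apply_neg (fun P => N.rmap P = none) _ hP]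
  have hord : ∀ P, N.rmap P = none → E P ≤ P.ord ψ := by
    intro P hP
    have h1 := ((mem_riemannRochSpace_iff.mp hψ.1) P).resolve_left hψ0
    rw [Finsupp.sub_apply, Finsupp.smul_apply, D₀_apply_of_rmap_eq_none hP, smul_zero] at h1
    omega
  refine ⟨Dn - E, ?_, ?_, ?_, ?_⟩
  · rw [Finsupp.le_def]
    intro P
    rw [Finsupp.sub_apply]
    simp only [Finsupp.coe_zero, Pi.zero_apply]
    by_cases hP : N.rmap P = none
    · rw [hDn_pos P hP]
      have := hord P hP
      omega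
    · rw [hDn_neg P hP]
      have hE0 : E P = 0 := by
        by_contra h
        exact hP (hEN P h)
      omega
  · intro P hP
    by_contra hPn
    apply hP
    rw [Finsupp.sub_apply, hDn_neg P hPn]
    have hE0 : E P = 0 := by
      by_contra h
      exact hPn (hEN P h)
    omega
  · intro P hP
    rw [Finsupp.sub_apply, hDn_pos P hP]
    ring
  · rw [← map_add, sub_add_cancel, mapDomain_none_eq_sum, degree_eq_sum N.S₁.hF, hDn,
      Finsupp.support_filter]
    refine Finset.sum_congr ?_ fun P hP => ?_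
    · congr
    · exact Finsupp.filter_apply_pos (fun P => N.rmap P = none) _ (Finset.mem_filter.mp hP).2

/-! ### the count -/

/-- `B(a, b)` in the form of `CoreDim.lean`. -/
theorem kpB_eq_smul (N : NodalSeed K F k Fk₁ Fk₂ ι) (i : ι) (M a b : ℕ) :
    kpB N i M a b = nodalRR N.s₁ N.s₂ (M • N.R₁ - a • Finsupp.single (N.s₁ i) (1 : ℤ))
        (M • N.R₂ - b • Finsupp.single (N.s₂ i) (1 : ℤ)) := by
  unfold kpB
  rw [Finsupp.smul_single, Finsupp.smul_single, nsmul_eq_mul, mul_one, nsmul_eq_mul, mul_one]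

open Classical in
/-- **CORE** (the common count of ANN and FIX).  `E ≥ 0` a divisor supported on places of type
(N) at ONE node `i`.  Then there are `M` and `ψ ∈ 𝔏(M D₀ - E)`, a unit for both valuations,
whose divisor on the places of type (N) is `E`, or `E + P**` for a place `P**` of type (N) at
the node `i`. -/
theorem kp_core [Infinite k] (N : NodalSeed K F k Fk₁ Fk₂ ι) (i : ι) (E : Divisor K F)
    (hE : 0 ≤ E) (hEN : ∀ P, E P ≠ 0 → IsNodeOf N P i) :
    ∃ (M : ℕ) (ψ : F), N.toNodalCore.IsInt (M • N.D₀ - E) ψ ∧ N.S₁.red ψ ≠ 0 ∧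
      N.S₂.red ψ ≠ 0 ∧
      ((∀ P, N.rmap P = none → P.ord ψ = E P) ∨
        ∃ Pss, IsNodeOf N Pss i ∧
          ∀ P, N.rmap P = none → P.ord ψ = E P + if P = Pss then 1 else 0) := by
  obtain ⟨e, he⟩ : ∃ e : ℕ, Divisor.degree E = e :=
    ⟨(Divisor.degree E).toNat,
      (Int.toNat_of_nonneg (degree_nonneg_of_nonneg N.S₁.hF hE)).symm⟩
  rcases Nat.eq_zero_or_pos e with h0 | hpos
  · -- `E = 0`
    subst h0
    have hE0 : E = 0 := eq_zero_of_nonneg_of_degree_eq_zero N.S₁.hF hE (by rw [he]; rfl)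
    subst hE0
    refine ⟨0, 1, ⟨td_one_mem ?_, one_mem _, one_mem _⟩, ?_, ?_, Or.inl fun P _ => ?_⟩
    · rw [zero_smul, sub_zero]
    · rw [N.S₁.red_one]; exact one_ne_zero
    · rw [N.S₂.red_one]; exact one_ne_zero
    · rw [Place.ord_one]; rfl
  -- `deg E = e ≥ 1`
  set M : ℕ := (e + 1) * (N.m₁ + 1) with hM
  have hM1 : N.m₁ + (e + 1) ≤ M := by rw [hM]; nlinarith
  have hM2 : e * (N.m₁ + 1) ≤ M := by rw [hM]; nlinarith
  have hMm : N.m₁ ≤ M := by omega
  have hEne : E ≠ 0 := by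
    rintro rfl
    rw [map_zero] at he
    have : (0 : ℤ) = (e : ℤ) := he
    omega
  obtain ⟨P₀, hP₀⟩ : ∃ P, E P ≠ 0 := by
    by_contra hcon
    push Not at hcon
    exact hEne (Finsupp.ext hcon)
  have hP₀i := hEN P₀ hP₀
  have hEnn : ∀ P, 0 ≤ E P := fun P => Finsupp.le_def.mp hE P
  -- `V ≤ B(1, 1)`
  have hVle : N.toNodalCore.V (M • N.D₀ - E) ≤ kpB N i M 1 1 := by
    rw [← kp_nodalRR_sub_eq, ← hP₀i.2 M hMm]
    apply N.toNodalCore.V_mono
    rw [sub_le_sub_iff_left, Finsupp.le_def]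
    intro v
    rw [Finsupp.single_apply]
    split_ifs with hv
    · subst hv
      have := hEnn P₀
      omega
    · exact hEnn v
  -- the witness
  obtain ⟨g, hg, hg₁, hg₂, hgv⟩ := kp_exists_unit N i e E hE hEN he
  have hg' : N.toNodalCore.IsInt (M • N.D₀ - E) g := by
    refine kp_isInt_of_le N ?_ hg
    rw [sub_le_sub_iff_right]
    obtain ⟨d, hd⟩ := Nat.exists_eq_add_of_le hM2
    rw [hd, add_smul]
    exact le_add_of_nonneg_right (N.smul_D₀_nonneg d)
  have hz₀ : ((N.S₁.red g, N.S₂.red g) : Fk₁ × Fk₂) ∈ N.toNodalCore.V (M • N.D₀ - E) := by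
    have := N.toNodalCore.red₂_mem_V hg'
    rwa [N.toNodalCore.red₂_def] at this
  -- the bad family
  set S : Set (Submodule k (Fk₁ × Fk₂)) :=
    (({LinearMap.ker (LinearMap.fst k Fk₁ Fk₂), LinearMap.ker (LinearMap.snd k Fk₁ Fk₂)} :
        Set (Submodule k (Fk₁ × Fk₂))) ∪
      (fun j => kpB N j M 1 1) '' {j | j ≠ i}) ∪
      (fun a => kpB N i M a (e + 2 - a)) '' (Set.Icc 1 (e + 1)) with hS
  have hSfin : S.Finite :=
    Set.Finite.union (Set.Finite.union (Set.toFinite _) (Set.Finite.image _ (Set.toFinite _)))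
      (Set.Finite.image _ (Set.finite_Icc 1 (e + 1)))
  have hSnot : ∀ W ∈ S, ¬ N.toNodalCore.V (M • N.D₀ - E) ≤ W := by
    intro W hW hle
    rcases hW with (hW | ⟨j, hj, rfl⟩) | ⟨a, ha, rfl⟩
    · rcases hW with rfl | rfl
      · have := hle hz₀
        rw [LinearMap.mem_ker] at this
        exact hg₁ this
      · have := hle hz₀
        rw [LinearMap.mem_ker] at this
        exact hg₂ this
    · have h1 := hle hz₀
      rw [mem_kpB] at h1
      have hv : VanAt (N.s₁ j) (N.S₁.red g) := h1.2.1.imp_right fun h => by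
        push_cast at h
        omega
      have := ((valAt_zero_right_iff _ _).mpr hv).unique (hgv j hj).1
      exact zero_ne_one this
    · simp only [kpB_eq_smul] at hle
      have ha1 := ha.1
      have ha2 := ha.2
      exact V_sub_not_le N E he hM1 i ha1 ha2 (by omega) (by omega) hle
  obtain ⟨z, hzV, hzS⟩ := kp_exists_generic (N.toNodalCore.V (M • N.D₀ - E)) S hSfin hSnot
  have hz1 : z.1 ≠ 0 := fun h =>
    hzS _ (Or.inl (Or.inl (Set.mem_insert _ _))) (LinearMap.mem_ker.mpr h)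
  have hz2 : z.2 ≠ 0 := fun h =>
    hzS _ (Or.inl (Or.inl (Set.mem_insert_of_mem _ rfl))) (LinearMap.mem_ker.mpr h)
  have hzB : z ∈ kpB N i M 1 1 := hVle hzV
  have hzL : z ∈ nodalRR N.s₁ N.s₂ (M • N.R₁) (M • N.R₂) := kpB_le_nodalRR N i M 1 1 hzB
  have hzj : ∀ j, j ≠ i → ¬ ValAt (N.s₁ j) z.1 0 := by
    intro j hj hv
    apply hzS _ (Or.inl (Or.inr ⟨j, hj, rfl⟩))
    have hv1 : VanAt (N.s₁ j) z.1 := (valAt_zero_right_iff _ _).mp hv
    have hv2 : VanAt (N.s₂ j) z.2 := kp_vanAt_snd N j M hzL hv1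
    rw [mem_kpB]
    refine ⟨hzL, hv1.imp_right fun h => ?_, hv2.imp_right fun h => ?_⟩
    · push_cast
      omega
    · push_cast
      omega
  -- the lift
  obtain ⟨ψ, hψ, hψ₁, hψ₂⟩ := N.td_lift (a := z.1) (b := z.2) hzV
  have hψ₁' : N.S₁.red ψ ≠ 0 := by rw [hψ₁]; exact hz1
  have hψ₂' : N.S₂.red ψ ≠ 0 := by rw [hψ₂]; exact hz2
  obtain ⟨G, hG0, hGN, hGord, hGdeg⟩ := kp_typeN_part N (fun P hP => (hEN P hP).1) hψ hψ₁'
  have hGnn : ∀ P, 0 ≤ G P := fun P => Finsupp.le_def.mp hG0 P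
  have hpole : ∀ P, N.rmap P = none → 0 ≤ P.ord ψ := by
    intro P hP
    rw [hGord P hP]
    have h1 := hEnn P
    have h2 := hGnn P
    omega
  obtain ⟨hnode, hcount⟩ := count_node hψ₁' hψ₂' hpole i (by rw [hψ₁]; exact hzj)
  rw [hψ₁, hψ₂] at hcount
  -- the orders at the node
  have ha1 : (1 : ℤ) ≤ (N.s₁ i).ord z.1 := by
    have := ((mem_kpB N i M).mp hzB).2.1.resolve_left hz1
    push_cast at this
    exact this
  have hb1 : (1 : ℤ) ≤ (N.s₂ i).ord z.2 := by
    have := ((mem_kpB N i M).mp hzB).2.2.resolve_left hz2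
    push_cast at this
    exact this
  have hab : (N.s₁ i).ord z.1 + (N.s₂ i).ord z.2 ≤ e + 1 := by
    by_contra hcon
    push Not at hcon
    obtain ⟨a, haa⟩ : ∃ a : ℕ, (a : ℤ) = (N.s₁ i).ord z.1 :=
      ⟨((N.s₁ i).ord z.1).toNat, Int.toNat_of_nonneg (by omega)⟩
    obtain ⟨b, hbb⟩ : ∃ b : ℕ, (b : ℤ) = (N.s₂ i).ord z.2 :=
      ⟨((N.s₂ i).ord z.2).toNat, Int.toNat_of_nonneg (by omega)⟩
    have hzab : z ∈ kpB N i M a b := by
      rw [mem_kpB]
      exact ⟨hzL, Or.inr haa.le, Or.inr hbb.le⟩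
    have ha' : 1 ≤ a := by omega
    have hb' : 1 ≤ b := by omega
    have hsum : e + 2 ≤ a + b := by omega
    rcases le_total a (e + 1) with hae | hae
    · apply hzS (kpB N i M a (e + 2 - a)) (Or.inr ⟨a, ⟨ha', hae⟩, rfl⟩)
      exact kpB_anti N i M (le_refl a) (by omega) hzab
    · apply hzS (kpB N i M (e + 1) (e + 2 - (e + 1)))
        (Or.inr ⟨e + 1, ⟨by omega, le_refl _⟩, rfl⟩)
      exact kpB_anti N i M hae (by omega) hzab
  -- the degree of `G`
  have hGd : Divisor.degree G + e = (N.s₁ i).ord z.1 + (N.s₂ i).ord z.2 := by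
    rw [← hcount, ← hGdeg, he]
  have hGd0 := degree_nonneg_of_nonneg N.S₁.hF hG0
  refine ⟨M, ψ, hψ, hψ₁', hψ₂', ?_⟩
  rcases (show Divisor.degree G = 0 ∨ Divisor.degree G = 1 by omega) with hd | hd
  · left
    have hG00 := eq_zero_of_nonneg_of_degree_eq_zero N.S₁.hF hG0 hd
    intro P hP
    rw [hGord P hP, hG00, Finsupp.coe_zero, Pi.zero_apply, add_zero]
  · right
    obtain ⟨Pss, hPss⟩ := kp_eq_single_of_degree_eq_one N.S₁.hF hG0 hd
    have hPssN : N.rmap Pss = none :=
      hGN Pss (by rw [hPss, Finsupp.single_eq_same]; exact one_ne_zero)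
    have hordP : Pss.ord ψ ≠ 0 := by
      rw [hGord Pss hPssN, hPss, Finsupp.single_eq_same]
      have h1 := hEnn Pss
      omega
    refine ⟨Pss, hnode Pss hPssN hordP, fun P hP => ?_⟩
    rw [hGord P hP, hPss, Finsupp.single_apply]
    congr 1
    by_cases h : P = Pss
    · subst h
      rw [if_pos rfl]
    · rw [if_neg h, if_neg (Ne.symm h)]

end Fermat.Agent.EKp
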