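/-
Cluster E' (Mazur's descent), seat DESC-Kp, assembly of (FTT) (helper19).
Blueprint: NOTES/blueprint-E-DESC-Kp.md, section 4.

**(FTT) fixed torsion is toric up to `c d`**: for a nodal package `S`, a set `Γ` of inertial
semilinear automorphisms fixing a place `oo`,

* `AnnFix S Γ c` (= ANN + FIX): for every finite `Γ`-stable set `Z` of places in the annuli
  ("type N") there is `ψ ≠ 0` whose divisor is `c Z` on the places in the annuli;
* `OrdToric S n d` (= ORDT): for an ORDINARY divisor `D'` of degree `0` with `n D'` principal,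
  `d D'` is a `W₀[n]`-divisor;

give:  `x ∈ Pic⁰[n]` fixed by `Γ`  ⟹  `(c d) x ∈ W₀[n]`.

No orbits are needed: a `Γ`-stable divisor `D` is `∑ₐ a Zₐ` on the annuli, with the `Γ`-stable
level sets `Zₐ = {P in the annuli : D P = a}`.
-/
import Mathlib
import Fermat.Agent.E.Desc.Kp.Rep
import Fermat.Agent.Lib.BadRed.Nodal.ToricKeyDef

set_option autoImplicit false

noncomputable section

namespace Fermat.Agent.EKp

open AlgebraicCurve Fermat.Agent.RR Fermat.Agent.BadRed

variable {K F k Fk₁ Fk₂ : Type*} [Field K] [Field F] [Algebra K F]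
  [Field k] [Field Fk₁] [Algebra k Fk₁] [Field Fk₂] [Algebra k Fk₂] {ι : Type*}

/-- **ANN + FIX**, combined: every finite `Γ`-stable set `Z` of places in the annuli is, up to
the factor `c` and up to ordinary places, the divisor of a function. -/
def AnnFix (S : NodalSetup K F k Fk₁ Fk₂ ι) (Γ : Set (SemilinearAut K F)) (c : ℕ) : Prop :=
  ∀ Z : Finset (Place K F), (∀ P ∈ Z, S.r P = none) → (∀ t ∈ Γ, ∀ P ∈ Z, t • P ∈ Z) →
    ∃ ψ : F, ψ ≠ 0 ∧ (∀ P ∈ Z, P.ord ψ = (c : ℤ)) ∧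
      ∀ P : Place K F, P ∉ Z → S.r P = none → P.ord ψ = 0

/-- **ORDT**: an ordinary divisor `D'` of degree `0` with `n D'` principal has `d D'` toric. -/
def OrdToric (S : NodalSetup K F k Fk₁ Fk₂ ι) (n d : ℕ) : Prop :=
  ∀ D' : Divisor K F, Divisor.degree D' = 0 → S.IsOrdDiv D' →
    (n • D') ∈ Divisor.principal (K := K) (F := F) → S.IsW0Div n (d • D')

/-- the order of a finite product of integral powers. -/
theorem ftt_ord_prod_zpow (P : Place K F) (s : Finset ℤ) (ψ : ℤ → F) (hψ : ∀ a ∈ s, ψ a ≠ 0) :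
    P.ord (∏ a ∈ s, ψ a ^ a) = ∑ a ∈ s, a * P.ord (ψ a) := by
  classical
  induction s using Finset.induction_on with
  | empty => simp
  | insert a s ha ih =>
    have h1 : ψ a ^ a ≠ 0 := zpow_ne_zero _ (hψ a (Finset.mem_insert_self a s))
    have h2 : (∏ b ∈ s, ψ b ^ b) ≠ 0 :=
      Finset.prod_ne_zero_iff.mpr fun b hb =>
        zpow_ne_zero _ (hψ b (Finset.mem_insert_of_mem hb))
    rw [Finset.prod_insert ha, Finset.sum_insert ha, P.ord_mul h1 h2, P.ord_zpow,
      ih fun b hb => hψ b (Finset.mem_insert_of_mem hb)]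

/-- a `Γ`-stable divisor is, on the annuli and up to the factor `c`, the divisor of a
function. -/
theorem ftt_exists_fun (S : NodalSetup K F k Fk₁ Fk₂ ι) (Γ : Set (SemilinearAut K F))
    (hΓ : ∀ t ∈ Γ, S.IsInertial t) {c : ℕ} (hAF : AnnFix S Γ c) (D : Divisor K F)
    (hD : ∀ t ∈ Γ, t • D = D) :
    ∃ ψ : F, ψ ≠ 0 ∧ ∀ P : Place K F, S.r P = none → P.ord ψ = (c : ℤ) * D P := by
  classical
  have hDt : ∀ t ∈ Γ, ∀ P : Place K F, D (t • P) = D P := by
    intro t ht P
    have h := SemilinearAut.divisor_smul_apply_smul t D P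
    rwa [hD t ht] at h
  -- the level sets
  let Z : ℤ → Finset (Place K F) := fun a => D.support.filter fun P => S.r P = none ∧ D P = a
  have hZmem : ∀ a P, P ∈ Z a ↔ D P ≠ 0 ∧ S.r P = none ∧ D P = a := by
    intro a P
    simp only [Z, Finset.mem_filter, Finsupp.mem_support_iff]
  have hZN : ∀ a, ∀ P ∈ Z a, S.r P = none := fun a P hP => ((hZmem a P).mp hP).2.1
  have hZΓ : ∀ a, ∀ t ∈ Γ, ∀ P ∈ Z a, t • P ∈ Z a := by
    intro a t ht P hP
    obtain ⟨h1, h2, h3⟩ := (hZmem a P).mp hP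
    refine (hZmem a _).mpr ⟨?_, ?_, ?_⟩
    · rwa [hDt t ht P]
    · rw [(hΓ t ht).r_smul P]; exact h2
    · rw [hDt t ht P]; exact h3
  choose ψ hψ0 hψin hψout using fun a => hAF (Z a) (hZN a) (hZΓ a)
  let vals : Finset ℤ := D.support.image D
  refine ⟨∏ a ∈ vals, ψ a ^ a, ?_, fun P hP => ?_⟩
  · exact Finset.prod_ne_zero_iff.mpr fun a _ => zpow_ne_zero _ (hψ0 a)
  · rw [ftt_ord_prod_zpow P vals ψ fun a _ => hψ0 a]
    by_cases h0 : D P = 0
    · rw [h0, mul_zero]
      refine Finset.sum_eq_zero fun a _ => ?_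
      rw [hψout a P (fun hmem => ((hZmem a P).mp hmem).1 h0) hP, mul_zero]
    · have hmemv : D P ∈ vals :=
        Finset.mem_image.mpr ⟨P, Finsupp.mem_support_iff.mpr h0, rfl⟩
      rw [Finset.sum_eq_single (D P)]
      · rw [hψin (D P) P ((hZmem _ P).mpr ⟨h0, hP, rfl⟩), mul_comm]
      · intro a _ hne
        rw [hψout a P (fun hmem => hne ((hZmem a P).mp hmem).2.2.symm) hP, mul_zero]
      · intro h
        exact absurd hmemv h

/-- **(FTT)**, divisor form. -/
theorem ftt_divisor (h : IsRRField K F) (S : NodalSetup K F k Fk₁ Fk₂ ι)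
    (Γ : Set (SemilinearAut K F)) (hΓ : ∀ t ∈ Γ, S.IsInertial t) {c n d : ℕ}
    (hAF : AnnFix S Γ c) (hOT : OrdToric S n d) (D : Divisor K F)
    (hdeg : Divisor.degree D = 0) (hD : ∀ t ∈ Γ, t • D = D)
    (hn : (n • D) ∈ Divisor.principal (K := K) (F := F)) :
    ∃ D' : Divisor K F, Divisor.degree D' = 0 ∧
      (c • D - D') ∈ Divisor.principal (K := K) (F := F) ∧ S.IsW0Div n (d • D') := by
  obtain ⟨ψ, hψ0, hψ⟩ := ftt_exists_fun S Γ hΓ hAF D hD
  have hprin : divOf h ψ ∈ Divisor.principal (K := K) (F := F) :=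
    ⟨ψ, hψ0, fun v => divOf_apply h ψ v⟩
  refine ⟨c • D - divOf h ψ, ?_, ?_, ?_⟩
  · rw [map_sub, map_nsmul, hdeg, degree_divOf, smul_zero, sub_zero]
  · rw [sub_sub_cancel]
    exact hprin
  · refine hOT _ ?_ ?_ ?_
    · rw [map_sub, map_nsmul, hdeg, degree_divOf, smul_zero, sub_zero]
    · intro P hP
      by_contra hne
      have hnone : S.r P = none := by
        cases hr : S.r P with
        | none => rfl
        | some Q => exact absurd ⟨Q, hr⟩ hne
      apply hP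
      rw [Finsupp.sub_apply, Finsupp.smul_apply, divOf_apply, hψ P hnone, nsmul_eq_mul, sub_self]
    · rw [smul_sub]
      refine AddSubgroup.sub_mem _ ?_ (AddSubgroup.nsmul_mem _ hprin n)
      rw [smul_comm]
      exact AddSubgroup.nsmul_mem _ hn c

/-- **(FTT)**: a `Γ`-fixed class killed by `n` becomes toric after multiplication by `c d`. -/
theorem ftt (h : IsRRField K F) (S : NodalSetup K F k Fk₁ Fk₂ ι) (oo : Place K F)
    (Γ : Set (SemilinearAut K F)) (hoo : ∀ t ∈ Γ, t • oo = oo)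
    (hΓ : ∀ t ∈ Γ, S.IsInertial t) {c n d : ℕ}
    (hAF : AnnFix S Γ c) (hOT : OrdToric S n d) (x : Pic0 K F) (hx : n • x = 0)
    (hfix : ∀ t ∈ Γ, t • x = x) : (c * d) • x ∈ S.W0 n := by
  obtain ⟨D, rfl, hD⟩ := rep_pic0 h oo Γ hoo x hfix
  have hn : (n • (D : Divisor K F)) ∈ Divisor.principal (K := K) (F := F) := by
    have h1 : Pic0.mk (n • D) = 0 := hx
    have h2 := (QuotientAddGroup.eq_zero_iff (n • D)).mp h1
    exact h2
  obtain ⟨D', hdeg', hprin, hW⟩ := ftt_divisor h S Γ hΓ hAF hOT (D : Divisor K F) D.2 hD hn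
  have hdeg'' : Divisor.degree (d • D') = 0 := by rw [map_nsmul, hdeg', smul_zero]
  refine ⟨⟨d • D', hdeg''⟩, ?_, hW⟩
  have h3 : Pic0.mk (⟨D', hdeg'⟩ : Divisor.degZero (K := K) (F := F)) = c • Pic0.mk D := by
    symm
    show Pic0.mk (c • D) = Pic0.mk ⟨D', hdeg'⟩
    exact (QuotientAddGroup.eq_iff_sub_mem).mpr hprin
  have h4 : Pic0.mk (⟨d • D', hdeg''⟩ : Divisor.degZero (K := K) (F := F)) =
      d • Pic0.mk (⟨D', hdeg'⟩ : Divisor.degZero (K := K) (F := F)) := rfl
  rw [h4, h3, ← mul_smul, mul_comm]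

end Fermat.Agent.EKp
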