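/-
Cluster E' (Mazur's descent), DESC-Kp leaf KP-SLOPE (helper64): DEFINITIONS and the statements of
the two sub-seats.  Blueprint: NOTES/blueprint-E-DESC-Kp.md, section 4 (SLOPE).

`SlopeData S₁ S₂ u ϖ` : two constant reductions of `F / K` over the same valuation ring of `K`,
`u` a Gauss parameter of the first one, `ϖ / u` a Gauss parameter of the second one, `v(ϖ) > 0`,
and both residue extensions have the full degree `[F : K(u)]`.

Sub-seats (the proofs live in `SlopeG.lean` (SL-G, SL-N) and `Slope.lean` (places, assembly)):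
* `SlopeGauss₁ / SlopeGauss₂` : the Gauss content of `p(u)`, `p ∈ K[X]`, for both valuations;
* `SlopeNorm₁ / SlopeNorm₂`   : the norm to `K(u)` of a unit of `O_i` is a unit of `O_i`.
-/
import Mathlib
import Fermat.Agent.Lib.Deuring.Basic
import Fermat.Agent.Lib.FF.Value

set_option autoImplicit false

noncomputable section

namespace Fermat.Agent.EKp

open AlgebraicCurve Fermat.Agent.RR Fermat.Agent.Deuring Fermat.Agent.FF IntermediateField
  Polynomial

variable {K F k Fk₁ Fk₂ : Type*} [Field K] [Field F] [Algebra K F]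
  [Field k] [Field Fk₁] [Algebra k Fk₁] [Field Fk₂] [Algebra k Fk₂]

/-- the `u`-data of SLOPE. -/
structure SlopeData (S₁ : ValSetup K F k Fk₁) (S₂ : ValSetup K F k Fk₂) (u : F) (ϖ : K) :
    Prop where
  A_eq : S₁.A = S₂.A
  varpi_ne : ϖ ≠ 0
  varpi_lt : S₁.A.valuation ϖ < 1
  u_mem : u ∈ S₁.Ov
  u_tr : Transcendental k (S₁.red u)
  u_mem₂ : algebraMap K F ϖ / u ∈ S₂.Ov
  u_tr₂ : Transcendental k (S₂.red (algebraMap K F ϖ / u))
  deg₁ : Module.finrank K⟮u⟯ F = Module.finrank k⟮S₁.red u⟯ Fk₁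
  deg₂ : Module.finrank K⟮u⟯ F = Module.finrank k⟮S₂.red (algebraMap K F ϖ / u)⟯ Fk₂

open Classical in
/-- the clamped value of `u` at `P`: `1` if `v(u(P)) ≤ 0` (or `u` has a pole at `P`),
`ϖ` if `v(u(P)) ≥ v(ϖ)`, `u(P)` in between (the valuation is written multiplicatively). -/
def slopeCl (S₁ : ValSetup K F k Fk₁) (u : F) (ϖ : K) (P : Place K F) : K :=
  if P.ord u < 0 then 1
  else if S₁.A.valuation (valueAt S₁.hF P u) ≤ S₁.A.valuation ϖ then ϖ
  else if S₁.A.valuation (valueAt S₁.hF P u) < 1 then valueAt S₁.hF P u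
  else 1

/-- **SL-G, first valuation**: `p(u) = c · (unit of O₁)` with
`v(c) = v(lc p) · ∏_{a root of p} max(1, v(a))`. -/
def SlopeGauss₁ (S₁ : ValSetup K F k Fk₁) (u : F) : Prop :=
  ∀ p : K[X], p ≠ 0 → ∃ c : K, c ≠ 0 ∧
    S₁.A.valuation c =
      S₁.A.valuation p.leadingCoeff * (p.roots.map fun a => max 1 (S₁.A.valuation a)).prod ∧
    S₁.red (aeval u p / algebraMap K F c) ≠ 0

/-- **SL-G, second valuation**: `p(u) = c · (unit of O₂)` with
`v(c) = v(lc p) · ∏_{a root of p} max(v(ϖ), v(a))`. -/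
def SlopeGauss₂ (S₁ : ValSetup K F k Fk₁) (S₂ : ValSetup K F k Fk₂) (u : F) (ϖ : K) : Prop :=
  ∀ p : K[X], p ≠ 0 → ∃ c : K, c ≠ 0 ∧
    S₁.A.valuation c =
      S₁.A.valuation p.leadingCoeff *
        (p.roots.map fun a => max (S₁.A.valuation ϖ) (S₁.A.valuation a)).prod ∧
    S₂.red (aeval u p / algebraMap K F c) ≠ 0

/-- **SL-N, first valuation**: the norm to `K(u)` of a unit of `O₁` is a unit of `O₁`. -/
def SlopeNorm₁ (S₁ : ValSetup K F k Fk₁) (u : F) : Prop :=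
  ∀ ψ : F, S₁.red ψ ≠ 0 → S₁.red (algebraMap K⟮u⟯ F (Algebra.norm K⟮u⟯ ψ)) ≠ 0

/-- **SL-N, second valuation**. -/
def SlopeNorm₂ (S₂ : ValSetup K F k Fk₂) (u : F) : Prop :=
  ∀ ψ : F, S₂.red ψ ≠ 0 → S₂.red (algebraMap K⟮u⟯ F (Algebra.norm K⟮u⟯ ψ)) ≠ 0

end Fermat.Agent.EKp
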