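/-
Cluster E' (Mazur's descent), DESC-Kp leaf KP-SLOPE, sub-seats SL-G and SL-N (helper84).
Statements: `E/Desc/Kp/SlopeDefs.lean` (helper64).

* `slopeGauss₁`, `slopeGauss₂` : the Gauss content of `p(u)` for both valuations;
* `slopeNorm₁`, `slopeNorm₂`   : the norm to `K(u)` of a unit of `O_i` is a unit of `O_i`
  (reduction of characteristic polynomials, `Lib/BadRed/Mod/SeedNodeA.lean`).
-/
import Mathlib
import Fermat.Agent.E.Desc.Kp.SlopeDefs
import Fermat.Agent.Lib.BadRed.Mod.SeedNodeA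
import Fermat.Agent.Lib.RedTr.FundIdK

set_option autoImplicit false
set_option linter.unusedSectionVars false
set_option linter.unusedVariables false
set_option linter.style.haveILetI false

noncomputable section

namespace Fermat.Agent.EKp

open AlgebraicCurve Fermat.Agent.RR Fermat.Agent.Deuring IntermediateField Polynomial

/-! ### units of the form `t - a` -/

section Unit

variable {K F k Fk : Type*} [Field K] [Field F] [Algebra K F]
  [Field k] [Field Fk] [Algebra k Fk] (S : ValSetup K F k Fk)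

/-- `x - 1` is a unit if `x` reduces to `0`. -/
theorem sg_red_sub_one {x : F} (hx : x ∈ S.Ov) (h0 : S.red x = 0) : S.red (x - 1) ≠ 0 := by
  rw [S.red_sub hx (one_mem _), h0, S.red_one, zero_sub]
  exact neg_ne_zero.mpr one_ne_zero

/-- `t - a`, `a ∈ A`, is a unit if the reduction of `t` is transcendental. -/
theorem sg_red_sub_const {t : F} (ht : t ∈ S.Ov) (htr : Transcendental k (S.red t)) {a : K}
    (ha : a ∈ S.A) : S.red (t - algebraMap K F a) ≠ 0 := by
  rw [S.red_sub ht (S.algebraMap_mem ha), S.red_algebraMap ha]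
  intro h0
  apply htr
  rw [sub_eq_zero] at h0
  rw [h0]
  exact isAlgebraic_algebraMap _

/-- `1 - a t`, `a ∈ A`, is a unit if the reduction of `t` is transcendental. -/
theorem sg_red_one_sub_mul {t : F} (ht : t ∈ S.Ov) (htr : Transcendental k (S.red t)) {a : K}
    (ha : a ∈ S.A) : S.red (1 - algebraMap K F a * t) ≠ 0 := by
  rw [S.red_sub (one_mem _) (mul_mem (S.algebraMap_mem ha) ht), S.red_one,
    S.red_mul (S.algebraMap_mem ha) ht, S.red_algebraMap ha]
  intro h0
  apply htr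
  have h1 : algebraMap k Fk (S.res ⟨a, ha⟩) * S.red t = 1 := (sub_eq_zero.mp h0).symm
  have h2 : S.res ⟨a, ha⟩ ≠ 0 := by
    intro h3
    rw [h3, map_zero, zero_mul] at h1
    exact zero_ne_one h1
  have h4 : S.red t = algebraMap k Fk (S.res ⟨a, ha⟩)⁻¹ := by
    rw [map_inv₀]
    exact eq_inv_of_mul_eq_one_right h1
  rw [h4]
  exact isAlgebraic_algebraMap _

/-- `c x` reduces to `0` if `c⁻¹ ∉ A` ... in the form: `c ∉ A`, `x ∈ Ov` ⇒ `red (c⁻¹ x) = 0`. -/
theorem sg_red_inv_mul {c : K} (hc : c ∉ S.A) {x : F} (hx : x ∈ S.Ov) :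
    (algebraMap K F c)⁻¹ * x ∈ S.Ov ∧ S.red ((algebraMap K F c)⁻¹ * x) = 0 := by
  obtain ⟨hinv, hres⟩ := S.res_inv_eq_zero hc
  have e : (algebraMap K F c)⁻¹ = algebraMap K F c⁻¹ := (map_inv₀ _ _).symm
  rw [e]
  refine ⟨mul_mem (S.algebraMap_mem hinv) hx, ?_⟩
  rw [S.red_mul (S.algebraMap_mem hinv) hx, S.red_algebraMap hinv, hres, map_zero, zero_mul]

/-- **first valuation**: `(u - a) / a` is a unit for `a ∉ A`. -/
theorem sg_unit₁_notMem {u : F} (hu : u ∈ S.Ov) {a : K} (ha : a ∉ S.A) :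
    S.red ((u - algebraMap K F a) / algebraMap K F a) ≠ 0 := by
  have ha0 : a ≠ 0 := by
    rintro rfl
    exact ha (zero_mem _)
  have ha' : algebraMap K F a ≠ 0 := (_root_.map_ne_zero _).mpr ha0
  obtain ⟨h1, h2⟩ := sg_red_inv_mul S ha hu
  have e : (u - algebraMap K F a) / algebraMap K F a = (algebraMap K F a)⁻¹ * u - 1 := by
    field_simp
  rw [e]
  exact sg_red_sub_one S h1 h2

/-- **second valuation**: `(u - a) / ϖ` is a unit if `a / ϖ ∈ A` (`t = ϖ / u` a unit with
transcendental reduction). -/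
theorem sg_unit₂_mem {u : F} {ϖ : K} (hϖ : ϖ ≠ 0) (ht : algebraMap K F ϖ / u ∈ S.Ov)
    (htr : Transcendental k (S.red (algebraMap K F ϖ / u))) {a : K} (ha : a / ϖ ∈ S.A) :
    S.red ((u - algebraMap K F a) / algebraMap K F ϖ) ≠ 0 := by
  have hϖ' : algebraMap K F ϖ ≠ 0 := (_root_.map_ne_zero _).mpr hϖ
  have ht0 : S.red (algebraMap K F ϖ / u) ≠ 0 := fun h0 => htr (h0 ▸ isAlgebraic_zero)
  have htne : algebraMap K F ϖ / u ≠ 0 := S.ne_zero_of_red_ne_zero ht0
  have hu0 : u ≠ 0 := by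
    rintro rfl
    exact htne (div_zero _)
  have hti : (algebraMap K F ϖ / u)⁻¹ ∈ S.Ov := S.inv_mem_of_red_ne_zero ht0
  have h1 := sg_red_one_sub_mul S ht htr ha
  have e : (u - algebraMap K F a) / algebraMap K F ϖ =
      (algebraMap K F ϖ / u)⁻¹ * (1 - algebraMap K F (a / ϖ) * (algebraMap K F ϖ / u)) := by
    rw [map_div₀]
    field_simp
  rw [e, S.red_mul hti (S.mem_of_red_ne_zero h1), S.red_inv ht hti htne]
  exact mul_ne_zero (inv_ne_zero ht0) h1

/-- **second valuation**: `(u - a) / a` is a unit if `a / ϖ ∉ A`. -/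
theorem sg_unit₂_notMem {u : F} {ϖ : K} (hϖ : ϖ ≠ 0) (ht : algebraMap K F ϖ / u ∈ S.Ov)
    (htr : Transcendental k (S.red (algebraMap K F ϖ / u))) {a : K} (ha : a / ϖ ∉ S.A) :
    S.red ((u - algebraMap K F a) / algebraMap K F a) ≠ 0 := by
  have hϖ' : algebraMap K F ϖ ≠ 0 := (_root_.map_ne_zero _).mpr hϖ
  have ha0 : a ≠ 0 := by
    rintro rfl
    rw [zero_div] at ha
    exact ha (zero_mem _)
  have ha' : algebraMap K F a ≠ 0 := (_root_.map_ne_zero _).mpr ha0
  have ht0 : S.red (algebraMap K F ϖ / u) ≠ 0 := fun h0 => htr (h0 ▸ isAlgebraic_zero)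
  have htne : algebraMap K F ϖ / u ≠ 0 := S.ne_zero_of_red_ne_zero ht0
  have hu0 : u ≠ 0 := by
    rintro rfl
    exact htne (div_zero _)
  have hti : (algebraMap K F ϖ / u)⁻¹ ∈ S.Ov := S.inv_mem_of_red_ne_zero ht0
  obtain ⟨h1, h2⟩ := sg_red_inv_mul S ha hti
  have e : (u - algebraMap K F a) / algebraMap K F a =
      (algebraMap K F (a / ϖ))⁻¹ * (algebraMap K F ϖ / u)⁻¹ - 1 := by
    rw [map_div₀]
    field_simp
  rw [e]
  exact sg_red_sub_one S h1 h2

/-- a product of units, multiset form. -/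
theorem sg_red_multiset_prod (u : F) (c : K → K)
    (hc : ∀ a, S.red ((u - algebraMap K F a) / algebraMap K F (c a)) ≠ 0) (s : Multiset K) :
    S.red ((s.map fun a => u - algebraMap K F a).prod / algebraMap K F (s.map c).prod) ≠ 0 := by
  induction s using Multiset.induction_on with
  | empty => simp
  | cons a s ih =>
    have e : ((a ::ₘ s).map fun a => u - algebraMap K F a).prod /
        algebraMap K F ((a ::ₘ s).map c).prod =
        ((u - algebraMap K F a) / algebraMap K F (c a)) *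
          ((s.map fun a => u - algebraMap K F a).prod / algebraMap K F (s.map c).prod) := by
      rw [Multiset.map_cons, Multiset.map_cons, Multiset.prod_cons, Multiset.prod_cons, map_mul,
        mul_div_mul_comm]
    rw [e, S.red_mul (S.mem_of_red_ne_zero (hc a)) (S.mem_of_red_ne_zero ih)]
    exact mul_ne_zero (hc a) ih

/-- the Gauss content of `p(u)`, abstract form: if `(u - a) / c a` is a unit for every `a`, then
`p(u) / (lc p ∏ c a)` is a unit. -/
theorem sg_gauss [IsAlgClosed K] (u : F) (c : K → K) (hc0 : ∀ a, c a ≠ 0)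
    (hc : ∀ a, S.red ((u - algebraMap K F a) / algebraMap K F (c a)) ≠ 0) {p : K[X]}
    (hp : p ≠ 0) :
    p.leadingCoeff * (p.roots.map c).prod ≠ 0 ∧
      S.red (aeval u p / algebraMap K F (p.leadingCoeff * (p.roots.map c).prod)) ≠ 0 := by
  have hlc : p.leadingCoeff ≠ 0 := leadingCoeff_ne_zero.mpr hp
  have hprod : (p.roots.map c).prod ≠ 0 := by
    rw [Ne, Multiset.prod_eq_zero_iff]
    intro h0
    obtain ⟨a, -, ha⟩ := Multiset.mem_map.mp h0
    exact hc0 a ha
  refine ⟨mul_ne_zero hlc hprod, ?_⟩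
  have hsplit := (IsAlgClosed.splits p).eq_prod_roots
  have e1 : aeval u p =
      algebraMap K F p.leadingCoeff * (p.roots.map fun a => u - algebraMap K F a).prod := by
    conv_lhs => rw [hsplit]
    rw [map_mul, aeval_C, map_multiset_prod, Multiset.map_map]
    congr 2
    refine Multiset.map_congr rfl fun a _ => ?_
    simp
  have hlc' : algebraMap K F p.leadingCoeff ≠ 0 := (_root_.map_ne_zero _).mpr hlc
  have e2 : aeval u p / algebraMap K F (p.leadingCoeff * (p.roots.map c).prod) =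
      (p.roots.map fun a => u - algebraMap K F a).prod / algebraMap K F (p.roots.map c).prod := by
    rw [e1, map_mul, mul_div_mul_left _ _ hlc']
  rw [e2]
  exact sg_red_multiset_prod S u c hc p.roots

end Unit

/-! ### SL-G -/

section Gauss

variable {K F k Fk₁ Fk₂ : Type*} [Field K] [Field F] [Algebra K F]
  [Field k] [Field Fk₁] [Algebra k Fk₁] [Field Fk₂] [Algebra k Fk₂]
  {S₁ : ValSetup K F k Fk₁} {S₂ : ValSetup K F k Fk₂} {u : F} {ϖ : K}

open Classical in
/-- the content of `u - a` for the first valuation. -/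
def sgC₁ (A : ValuationSubring K) (a : K) : K := if a ∈ A then 1 else a

open Classical in
/-- the content of `u - a` for the second valuation. -/
def sgC₂ (A : ValuationSubring K) (ϖ a : K) : K := if a / ϖ ∈ A then ϖ else a

theorem sgC₁_ne_zero (A : ValuationSubring K) (a : K) : sgC₁ A a ≠ 0 := by
  unfold sgC₁
  split_ifs with h
  · exact one_ne_zero
  · rintro rfl
    exact h (zero_mem _)

theorem sgC₂_ne_zero (A : ValuationSubring K) {ϖ : K} (hϖ : ϖ ≠ 0) (a : K) :
    sgC₂ A ϖ a ≠ 0 := by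
  unfold sgC₂
  split_ifs with h
  · exact hϖ
  · rintro rfl
    rw [zero_div] at h
    exact h (zero_mem _)

theorem valuation_sgC₁ (A : ValuationSubring K) (a : K) :
    A.valuation (sgC₁ A a) = max 1 (A.valuation a) := by
  unfold sgC₁
  split_ifs with h
  · rw [map_one, max_eq_left ((A.valuation_le_one_iff a).mpr h)]
  · have h1 : 1 < A.valuation a := by
      rw [← not_le, A.valuation_le_one_iff]
      exact h
    rw [max_eq_right h1.le]

theorem valuation_sgC₂ (A : ValuationSubring K) {ϖ : K} (hϖ : ϖ ≠ 0) (a : K) :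
    A.valuation (sgC₂ A ϖ a) = max (A.valuation ϖ) (A.valuation a) := by
  have hv : A.valuation ϖ ≠ 0 := (Valuation.ne_zero_iff _).mpr hϖ
  have hiff : a / ϖ ∈ A ↔ A.valuation a ≤ A.valuation ϖ := by
    rw [← A.valuation_le_one_iff, map_div₀, div_le_one₀ (zero_lt_iff.mpr hv)]
  unfold sgC₂
  split_ifs with h
  · rw [max_eq_left (hiff.mp h)]
  · have h1 : A.valuation ϖ < A.valuation a := by
      rw [← not_le]
      exact fun h2 => h (hiff.mpr h2)
    rw [max_eq_right h1.le]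

/-- **SL-G, first valuation.** -/
theorem slopeGauss₁ [IsAlgClosed K] (h : SlopeData S₁ S₂ u ϖ) : SlopeGauss₁ S₁ u := by
  intro p hp
  have hc : ∀ a, S₁.red ((u - algebraMap K F a) / algebraMap K F (sgC₁ S₁.A a)) ≠ 0 := by
    intro a
    unfold sgC₁
    split_ifs with ha
    · rw [map_one, div_one]
      exact sg_red_sub_const S₁ h.u_mem h.u_tr ha
    · exact sg_unit₁_notMem S₁ h.u_mem ha
  obtain ⟨h1, h2⟩ := sg_gauss S₁ u (sgC₁ S₁.A) (sgC₁_ne_zero S₁.A) hc hp
  refine ⟨_, h1, ?_, h2⟩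
  rw [map_mul, map_multiset_prod, Multiset.map_map]
  congr 2
  refine Multiset.map_congr rfl fun a _ => ?_
  exact valuation_sgC₁ S₁.A a

/-- **SL-G, second valuation.** -/
theorem slopeGauss₂ [IsAlgClosed K] (h : SlopeData S₁ S₂ u ϖ) : SlopeGauss₂ S₁ S₂ u ϖ := by
  intro p hp
  have hc : ∀ a, S₂.red ((u - algebraMap K F a) / algebraMap K F (sgC₂ S₁.A ϖ a)) ≠ 0 := by
    intro a
    unfold sgC₂
    split_ifs with ha
    · exact sg_unit₂_mem S₂ h.varpi_ne h.u_mem₂ h.u_tr₂ (h.A_eq ▸ ha)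
    · exact sg_unit₂_notMem S₂ h.varpi_ne h.u_mem₂ h.u_tr₂ (fun h' => ha (h.A_eq ▸ h'))
  obtain ⟨h1, h2⟩ := sg_gauss S₂ u (sgC₂ S₁.A ϖ) (sgC₂_ne_zero S₁.A h.varpi_ne) hc hp
  refine ⟨_, h1, ?_, h2⟩
  rw [map_mul, map_multiset_prod, Multiset.map_map]
  congr 2
  refine Multiset.map_congr rfl fun a _ => ?_
  exact valuation_sgC₂ S₁.A h.varpi_ne a

end Gauss

/-! ### SL-N -/

section Norm

variable {K F k Fk : Type*} [Field K] [Field F] [Algebra K F]
  [Field k] [Field Fk] [Algebra k Fk]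

open Fermat.Agent.BadRed.SeedNode

/-- transcendence lifts from the reduction. -/
theorem sg_transcendental_of_red (S : ValSetup K F k Fk) {t : F} (ht : t ∈ S.Ov)
    (htr : Transcendental k (S.red t)) : Transcendental K t := by
  intro halg
  obtain ⟨p, hp, hpu⟩ := halg
  obtain ⟨c, p₀, hc, hpp, hp₀⟩ := sn_exists_normalize S hp
  have h1 := sn_red_aeval_ne_zero S ht htr hp₀
  apply h1
  have h2 : aeval t (p₀.map (algebraMap S.A K)) = 0 := by
    rw [hpp, map_mul, aeval_C] at hpu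
    rcases mul_eq_zero.mp hpu with h | h
    · exact absurd ((map_eq_zero _).mp h) hc
    · exact h
  rw [h2, S.red_zero]

/-- the norm as a coefficient of the characteristic polynomial. -/
theorem sg_norm_eq_coeff {E L : Type*} [Field E] [Field L] [Algebra E L] [FiniteDimensional E L]
    (x : L) :
    Algebra.norm E x = (-1) ^ Module.finrank E L * (LinearMap.mulLeft E x).charpoly.coeff 0 := by
  rw [Algebra.norm_apply, LinearMap.det_eq_sign_charpoly_coeff]
  rfl

/-- **the norm of a unit is a unit**, one constant reduction, parameter `t`. -/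
theorem sg_norm_unit (S : ValSetup K F k Fk) {t : F} (ht : t ∈ S.Ov)
    (htr : Transcendental k (S.red t)) [FiniteDimensional K⟮t⟯ F]
    [FiniteDimensional k⟮S.red t⟯ Fk]
    (hdeg : Module.finrank K⟮t⟯ F ≤ Module.finrank k⟮S.red t⟯ Fk) {ψ : F}
    (hψ : S.red ψ ≠ 0) :
    S.red (algebraMap K⟮t⟯ F (Algebra.norm K⟮t⟯ ψ)) ≠ 0 := by
  obtain ⟨P, hP1, hP2, -, -⟩ := sn_charpoly_red ht htr hdeg (S.mem_of_red_ne_zero hψ)
  -- the constant coefficient
  have hc1 : ((P.coeff 0 : snRing S t) : K⟮t⟯) = (LinearMap.mulLeft K⟮t⟯ ψ).charpoly.coeff 0 := by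
    rw [← hP1, Polynomial.coeff_map]
    rfl
  have hc2 : snRed S ht htr (P.coeff 0) =
      (LinearMap.mulLeft k⟮S.red t⟯ (S.red ψ)).charpoly.coeff 0 := by
    rw [← hP2, Polynomial.coeff_map]
  have hn0 : Algebra.norm k⟮S.red t⟯ (S.red ψ) ≠ 0 := Algebra.norm_ne_zero_iff.mpr hψ
  have hcoeff : (LinearMap.mulLeft k⟮S.red t⟯ (S.red ψ)).charpoly.coeff 0 ≠ 0 := by
    intro h0
    apply hn0
    rw [sg_norm_eq_coeff, h0, mul_zero]
  have hred : S.red (((P.coeff 0 : snRing S t) : K⟮t⟯) : F) ≠ 0 := by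
    rw [← snRed_coe S ht htr (P.coeff 0), hc2]
    intro h0
    apply hcoeff
    exact Subtype.ext h0
  have hmem : (((P.coeff 0 : snRing S t) : K⟮t⟯) : F) ∈ S.Ov := S.mem_of_red_ne_zero hred
  have e : algebraMap K⟮t⟯ F (Algebra.norm K⟮t⟯ ψ) =
      (-1) ^ Module.finrank K⟮t⟯ F * (((P.coeff 0 : snRing S t) : K⟮t⟯) : F) := by
    rw [sg_norm_eq_coeff, ← hc1, map_mul, map_pow, map_neg, map_one]
    rfl
  have hsign : ((-1 : F) ^ Module.finrank K⟮t⟯ F) ∈ S.Ov := pow_mem (neg_mem (one_mem _)) _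
  rw [e, S.red_mul hsign hmem, S.red_pow (neg_mem (one_mem _)), S.red_neg (one_mem _), S.red_one]
  exact mul_ne_zero (pow_ne_zero _ (neg_ne_zero.mpr one_ne_zero)) hred

/-- the norm only depends on the subfield. -/
theorem sg_norm_eq_of_eq {E₁ E₂ : IntermediateField K F} (h : E₁ = E₂) (ψ : F) :
    algebraMap E₁ F (Algebra.norm E₁ ψ) = algebraMap E₂ F (Algebra.norm E₂ ψ) := by
  subst h
  rfl

theorem sg_finrank_eq_of_eq {E₁ E₂ : IntermediateField K F} (h : E₁ = E₂) :
    Module.finrank E₁ F = Module.finrank E₂ F := by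
  subst h
  rfl

/-- `K(ϖ / u) = K(u)`. -/
theorem sg_adjoin_div_eq {u : F} {ϖ : K} (hϖ : ϖ ≠ 0) (hu : u ≠ 0) :
    K⟮algebraMap K F ϖ / u⟯ = K⟮u⟯ := by
  have hϖ' : algebraMap K F ϖ ≠ 0 := (_root_.map_ne_zero _).mpr hϖ
  apply le_antisymm
  · rw [adjoin_le_iff, Set.singleton_subset_iff]
    exact div_mem (IntermediateField.algebraMap_mem _ _) (mem_adjoin_simple_self K u)
  · rw [adjoin_le_iff, Set.singleton_subset_iff]
    have e : u = algebraMap K F ϖ / (algebraMap K F ϖ / u) := by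
      field_simp
    have h1 : algebraMap K F ϖ / (algebraMap K F ϖ / u) ∈ K⟮algebraMap K F ϖ / u⟯ :=
      div_mem (IntermediateField.algebraMap_mem _ _)
        (mem_adjoin_simple_self K (algebraMap K F ϖ / u))
    rwa [← e] at h1

end Norm

section NormFinal

variable {K F k Fk₁ Fk₂ : Type*} [Field K] [Field F] [Algebra K F]
  [Field k] [Field Fk₁] [Algebra k Fk₁] [Field Fk₂] [Algebra k Fk₂]
  {S₁ : ValSetup K F k Fk₁} {S₂ : ValSetup K F k Fk₂} {u : F} {ϖ : K}

/-- **SL-N, first valuation.** -/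
theorem slopeNorm₁ [IsAlgClosed K] [CharZero K] (h : SlopeData S₁ S₂ u ϖ) :
    SlopeNorm₁ S₁ u := by
  intro ψ hψ
  haveI : FiniteDimensional K⟮u⟯ F :=
    Fermat.Agent.RedTr.fundIdK_finiteDimensional S₁.hF
      (sg_transcendental_of_red S₁ h.u_mem h.u_tr)
  haveI : FiniteDimensional k⟮S₁.red u⟯ Fk₁ :=
    Fermat.Agent.RedTr.fundIdK_finiteDimensional S₁.hFk h.u_tr
  exact sg_norm_unit S₁ h.u_mem h.u_tr h.deg₁.le hψ

/-- **SL-N, second valuation.** -/
theorem slopeNorm₂ [IsAlgClosed K] [CharZero K] (h : SlopeData S₁ S₂ u ϖ) :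
    SlopeNorm₂ S₂ u := by
  intro ψ hψ
  have hu0 : u ≠ 0 := by
    rintro rfl
    exact h.u_tr (by rw [S₁.red_zero]; exact isAlgebraic_zero)
  have hE := sg_adjoin_div_eq (F := F) h.varpi_ne hu0
  haveI : FiniteDimensional K⟮algebraMap K F ϖ / u⟯ F :=
    Fermat.Agent.RedTr.fundIdK_finiteDimensional S₂.hF
      (sg_transcendental_of_red S₂ h.u_mem₂ h.u_tr₂)
  haveI : FiniteDimensional k⟮S₂.red (algebraMap K F ϖ / u)⟯ Fk₂ :=
    Fermat.Agent.RedTr.fundIdK_finiteDimensional S₂.hFk h.u_tr₂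
  have hdeg : Module.finrank K⟮algebraMap K F ϖ / u⟯ F ≤
      Module.finrank k⟮S₂.red (algebraMap K F ϖ / u)⟯ Fk₂ := by
    rw [sg_finrank_eq_of_eq hE]
    exact h.deg₂.le
  have h1 := sg_norm_unit S₂ h.u_mem₂ h.u_tr₂ hdeg hψ
  rwa [sg_norm_eq_of_eq hE] at h1

end NormFinal

end Fermat.Agent.EKp
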