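/-
Cluster E' (Mazur's descent), DESC-Kp leaf KP-SLOPE (helper64; sub-seat SL-G/SL-N: helper84).
Blueprint: NOTES/blueprint-E-DESC-Kp.md, section 4 (SLOPE).

`SlopeData S₁ S₂ u ϖ` (see `SlopeDefs.lean`): two constant reductions of `F / K` over the same
valuation ring `A` of `K`, `u` a Gauss parameter of the first, `ϖ / u` of the second, `v(ϖ) > 0`,
`[F : K(u)] = [Fk₁ : k(ū)] = [Fk₂ : k(red₂ (ϖ / u))]`.

* `slope` : for `ψ ∈ O₁ˣ ∩ O₂ˣ`:  `v (∏_P clamp(u(P)) ^ ord_P ψ) = 1`, i.e.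
  `∑_P ord_P(ψ) · clamp(v(u(P)), 0, v(ϖ)) = 0`;
* `slope_annulus` : `∑_{P in the open annulus} ord_P(ψ) · v(u(P)) ∈ v(ϖ) ℤ`.

Proof: `R = Norm_{F/K(u)} ψ` is a unit for both Gauss valuations of `K(u)` (`SlopeG.lean`),
`R = p(u) / q(u)`, the Gauss contents of `p(u)`, `q(u)` are computed from the roots (`SlopeG.lean`),
and the multiplicity of `a` in `p / q` is `∑_{u(P) = a} ord_P ψ` (norm formula, `Slope/NormAt.lean`).
-/
import Mathlib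
import Fermat.Agent.E.Desc.Kp.SlopeG
import Fermat.Agent.E.Desc.Kp.Slope.Main

set_option autoImplicit false

noncomputable section

namespace Fermat.Agent.EKp

open AlgebraicCurve Fermat.Agent.RR Fermat.Agent.Deuring Fermat.Agent.FF IntermediateField
  Polynomial

variable {K F k Fk₁ Fk₂ : Type*} [Field K] [Field F] [Algebra K F]
  [Field k] [Field Fk₁] [Algebra k Fk₁] [Field Fk₂] [Algebra k Fk₂]

/-- **SLOPE**. -/
theorem slope [IsAlgClosed K] [CharZero K] {S₁ : ValSetup K F k Fk₁} {S₂ : ValSetup K F k Fk₂}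
    {u : F} {ϖ : K} (h : SlopeData S₁ S₂ u ϖ) {ψ : F} (hψ₁ : S₁.red ψ ≠ 0) (hψ₂ : S₂.red ψ ≠ 0)
    (T : Finset (Place K F)) (hT : ∀ P : Place K F, P.ord ψ ≠ 0 → P ∈ T) :
    S₁.A.valuation (∏ P ∈ T, slopeCl S₁ u ϖ P ^ (P.ord ψ)) = 1 :=
  slope_of h (slopeGauss₁ h) (slopeGauss₂ h) (slopeNorm₁ h) (slopeNorm₂ h) hψ₁ hψ₂ T hT

/-- **SLOPE**, annulus form: `Σ_{P in the annulus} ord_P(ψ) v(u(P)) ∈ v(ϖ) ℤ`. -/
theorem slope_annulus [IsAlgClosed K] [CharZero K] {S₁ : ValSetup K F k Fk₁}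
    {S₂ : ValSetup K F k Fk₂}
    {u : F} {ϖ : K} (h : SlopeData S₁ S₂ u ϖ) {ψ : F} (hψ₁ : S₁.red ψ ≠ 0) (hψ₂ : S₂.red ψ ≠ 0)
    (T : Finset (Place K F))
    (hT : ∀ P : Place K F, P ∈ T ↔ P.ord ψ ≠ 0 ∧ 0 ≤ P.ord u ∧
      S₁.A.valuation ϖ < S₁.A.valuation (valueAt S₁.hF P u) ∧
      S₁.A.valuation (valueAt S₁.hF P u) < 1) :
    ∃ z : ℤ, S₁.A.valuation (∏ P ∈ T, valueAt S₁.hF P u ^ (P.ord ψ)) =
      S₁.A.valuation ϖ ^ z :=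
  slope_annulus_of h (slopeGauss₁ h) (slopeGauss₂ h) (slopeNorm₁ h) (slopeNorm₂ h) hψ₁ hψ₂ T hT

end Fermat.Agent.EKp
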