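/-
Cluster E' (Mazur's descent), seat DESC-Kp, leaf KP-ANN (helper4).
Blueprint: NOTES/blueprint-E-DESC-Kp.md, section 4 (ANN).

`N : NodalSeed`, `u`, `ϖ` with `AnnulusData N u ϖ` (`Annulus.lean`), `Γ` a set of inertial
semilinear automorphisms with `t u = u`.  Inputs, as hypotheses:
* `CoreStatement N`       : the CORE count (`kp_core`, helper31);
* `SlopeAnnStatement ..`  : SLOPE on the annulus (`slope_annulus`, helper64);
* `VIStatement A Γ ϖ 12`  : (VI), `x ∈ K^×` fixed by `Γ` ⇒ `v(x¹²) ∈ v(ϖ)^ℤ` (helper10);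
* `FixStatement N u ϖ`    : FIX (helper31).

Results:
* `isNodeOf_smul`   : inertial automorphisms preserve the node of a place of type (N);
* `ann_one`         : **ANN**: a finite `Γ`-stable set `Z` of places of type (N) at ONE node is,
  on the places of type (N), the divisor of a function, or `Z + P*` with `P*` 12-integral;
* `annFix_one`, `annFix_of` : ANN + FIX ⇒ `AnnFix N.nodalSetup Γ 12` (`FTT.lean`, helper19).
-/
import Mathlib
import Fermat.Agent.E.Desc.Kp.Annulus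
import Fermat.Agent.E.Desc.Kp.CoreUnit
import Fermat.Agent.E.Desc.Kp.Core
import Fermat.Agent.E.Desc.Kp.Slope
import Fermat.Agent.E.Desc.Kp.FTT

set_option autoImplicit false
set_option linter.unusedSectionVars false
set_option linter.style.haveILetI false

noncomputable section

namespace Fermat.Agent.EKp

open AlgebraicCurve Fermat.Agent.RR Fermat.Agent.Deuring Fermat.Agent.BadRed Fermat.Agent.FF

variable {K F k Fk₁ Fk₂ : Type*} [Field K] [Field F] [Algebra K F]
  [Field k] [Field Fk₁] [Algebra k Fk₁] [Field Fk₂] [Algebra k Fk₂] {ι : Type*}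

/-! ### semilinear automorphisms and values -/

theorem an_valAt_smul (t : SemilinearAut K F) {P : Place K F} {f : F} {c : K}
    (h : ValAt P f c) : ValAt (t • P) (t • f) (SemilinearAut.baseAut t c) := by
  rcases h with h | h
  · left
    rw [h, SemilinearAut.smul_algebraMap]
  · right
    have e : t • f - algebraMap K F (SemilinearAut.baseAut t c) =
        t • (f - algebraMap K F c) := by
      rw [smul_sub, SemilinearAut.smul_algebraMap]
    rw [e, SemilinearAut.ord_smul]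
    exact h

theorem an_valueAt_smul (hF : IsRRField K F) (t : SemilinearAut K F) {P : Place K F} {f : F}
    (hf : 0 ≤ P.ord f) :
    valueAt hF (t • P) (t • f) = SemilinearAut.baseAut t (valueAt hF P f) := by
  have h1 : ValAt P f (valueAt hF P f) := valueAt_spec hF P (mem_of_ord_nonneg' P hf)
  have h2 := an_valAt_smul t h1
  have hmem : t • f ∈ (t • P).toValuationSubring :=
    mem_of_ord_nonneg' _ (by rw [SemilinearAut.ord_smul]; exact hf)
  exact (valueAt_eq_iff hF (t • P) hmem _).mpr h2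

/-- a finite set stable under `t` is mapped onto itself. -/
theorem an_prod_smul {M : Type*} [CommMonoid M] (t : SemilinearAut K F)
    (Z : Finset (Place K F)) (hZ : ∀ P ∈ Z, t • P ∈ Z) (g : Place K F → M) :
    ∏ P ∈ Z, g (t • P) = ∏ P ∈ Z, g P := by
  classical
  have hinj : Function.Injective fun P : Place K F => t • P := MulAction.injective t
  have himg : Z.image (fun P : Place K F => t • P) = Z := by
    apply Finset.eq_of_subset_of_card_le
    · intro Q hQ
      obtain ⟨P, hP, rfl⟩ := Finset.mem_image.mp hQ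
      exact hZ P hP
    · rw [Finset.card_image_of_injective _ hinj]
  calc ∏ P ∈ Z, g (t • P) = ∏ Q ∈ Z.image (fun P : Place K F => t • P), g Q := by
        rw [Finset.prod_image fun P _ Q _ h => hinj h]
    _ = ∏ P ∈ Z, g P := by rw [himg]

/-! ### inertial automorphisms preserve the nodes -/

section Seed

variable [Fintype ι] [Infinite k] {N : NodalSeed K F k Fk₁ Fk₂ ι}

/-- functions of `L(D)` have no pole at a place `P` with `D P ≤ 0`. -/
theorem an_ord_nonneg_of_mem {D : Divisor K F} {g : F} (hg : g ∈ riemannRochSpace D)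
    {P : Place K F} (hP : D P ≤ 0) : 0 ≤ P.ord g := by
  rcases (mem_riemannRochSpace_iff.mp hg) P with h0 | h0
  · rw [h0, Place.ord_zero]
  · omega

theorem an_rmap_inv_smul {t : SemilinearAut K F} (ht : N.nodalSetup.IsInertial t)
    (P : Place K F) : N.rmap (t⁻¹ • P) = N.rmap P := by
  have h := ht.r_smul (t⁻¹ • P)
  rw [smul_inv_smul] at h
  exact h.symm

theorem an_rmap_smul {t : SemilinearAut K F} (ht : N.nodalSetup.IsInertial t)
    (P : Place K F) : N.rmap (t • P) = N.rmap P :=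
  ht.r_smul P

theorem an_ord_smul_eq (t : SemilinearAut K F) (P : Place K F) (g : F) :
    P.ord (t • g) = (t⁻¹ • P).ord g := by
  have h := SemilinearAut.ord_smul t (t⁻¹ • P) g
  rwa [smul_inv_smul] at h

/-- **inertial automorphisms preserve the node of a place of type (N).** -/
theorem isNodeOf_smul {t : SemilinearAut K F} (ht : N.nodalSetup.IsInertial t)
    {P : Place K F} {i : ι} (hP : IsNodeOf N P i) : IsNodeOf N (t • P) i := by
  classical
  obtain ⟨g, hg, hg1, hg2, hgv⟩ := kp_exists_unit_single N hP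
  have hg0 : g ≠ 0 := N.S₁.ne_zero_of_red_ne_zero hg1
  have hr1 : N.S₁.red (t • g) = N.S₁.red g := ht.red₁ g hg.2.1
  have hr2 : N.S₂.red (t • g) = N.S₂.red g := ht.red₂ g hg.2.2
  have hD₀ : ∀ P', N.rmap P' = none → (N.m₁ • N.D₀ - Finsupp.single P 1 : Divisor K F) P' ≤ 0 := by
    intro P' hP'
    rw [Finsupp.sub_apply, Finsupp.smul_apply, D₀_apply_of_rmap_eq_none hP', smul_zero,
      Finsupp.single_apply]
    split_ifs <;> omega
  have hpole_g : ∀ P', N.rmap P' = none → 0 ≤ P'.ord g := fun P' hP' =>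
    an_ord_nonneg_of_mem hg.1 (hD₀ P' hP')
  have hordP : 1 ≤ P.ord g := by
    have h1 := ((mem_riemannRochSpace_iff.mp hg.1) P).resolve_left hg0
    rw [Finsupp.sub_apply, Finsupp.smul_apply, D₀_apply_of_rmap_eq_none hP.1, smul_zero,
      Finsupp.single_apply, if_pos rfl] at h1
    omega
  have hpole : ∀ P', N.rmap P' = none → 0 ≤ P'.ord (t • g) := by
    intro P' hP'
    rw [an_ord_smul_eq]
    exact hpole_g _ ((an_rmap_inv_smul ht P').trans hP')
  have hne : ∀ j, j ≠ i → ¬ ValAt (N.s₁ j) (N.S₁.red (t • g)) 0 := by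
    intro j hj h0
    rw [hr1] at h0
    exact one_ne_zero ((hgv j hj).1.unique h0)
  refine (count_node (by rw [hr1]; exact hg1) (by rw [hr2]; exact hg2) hpole i hne).1 (t • P)
    ((an_rmap_smul ht P).trans hP.1) ?_
  rw [SemilinearAut.ord_smul]
  omega

end Seed

/-! ### ANN -/

section Ann

variable [Fintype ι] [Infinite k]

/-- `P` is 12-integral: `v(u(P)¹²) ∈ v(ϖ)^ℤ`. -/
def IsTwelveInt (N : NodalSeed K F k Fk₁ Fk₂ ι) (u : F) (ϖ : K) (P : Place K F) : Prop :=
  ∃ a : ℤ, N.S₁.A.valuation (valueAt N.S₁.hF P u ^ 12) = N.S₁.A.valuation ϖ ^ a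

/-- **(VI)**, abstract form: the 12-th power of a `Γ`-fixed constant has a valuation in
`v(ϖ)^ℤ`. -/
def VIStatement (A : ValuationSubring K) (Γ : Set (SemilinearAut K F)) (ϖ : K) : Prop :=
  ∀ x : K, x ≠ 0 → (∀ t ∈ Γ, SemilinearAut.baseAut t x = x) →
    ∃ a : ℤ, A.valuation (x ^ 12) = A.valuation ϖ ^ a

/-- **FIX**, the shape consumed by `annFix_of`. -/
def FixStatement (N : NodalSeed K F k Fk₁ Fk₂ ι) (u : F) (ϖ : K) : Prop :=
  ∀ Pss : Place K F, N.rmap Pss = none → IsTwelveInt N u ϖ Pss →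
    ∃ ψ' : F, ψ' ≠ 0 ∧ Pss.ord ψ' = 12 ∧ ∀ P, P ≠ Pss → N.rmap P = none → P.ord ψ' = 0

variable {N : NodalSeed K F k Fk₁ Fk₂ ι} {u : F} {ϖ : K}

/-- the product of the values of `u` over a `Γ`-stable set of places of type (N) is
`Γ`-fixed. -/
theorem an_prod_value_fixed (h : AnnulusData N u ϖ) {t : SemilinearAut K F} (htu : t • u = u)
    (Z : Finset (Place K F)) (hZ : ∀ P ∈ Z, N.rmap P = none) (hZt : ∀ P ∈ Z, t • P ∈ Z) :
    SemilinearAut.baseAut t (∏ P ∈ Z, valueAt N.S₁.hF P u) = ∏ P ∈ Z, valueAt N.S₁.hF P u := by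
  rw [map_prod]
  have h1 : ∀ P ∈ Z, SemilinearAut.baseAut t (valueAt N.S₁.hF P u) =
      valueAt N.S₁.hF (t • P) u := by
    intro P hP
    have h2 := an_valueAt_smul N.S₁.hF t (P := P) (f := u) (by rw [h.ord_N P (hZ P hP)])
    rw [htu] at h2
    exact h2.symm
  rw [Finset.prod_congr rfl h1]
  exact an_prod_smul t Z hZt fun P => valueAt N.S₁.hF P u

/-- **ANN** (one node). -/
theorem ann_one [IsAlgClosed K] [CharZero K] (h : AnnulusData N u ϖ)
    (hs : SlopeData N.S₁ N.S₂ u ϖ) (Γ : Set (SemilinearAut K F))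
    (hΓu : ∀ t ∈ Γ, t • u = u) (hVI : VIStatement N.S₁.A Γ ϖ) (i : ι)
    (Z : Finset (Place K F)) (hZ : ∀ P ∈ Z, IsNodeOf N P i)
    (hZΓ : ∀ t ∈ Γ, ∀ P ∈ Z, t • P ∈ Z) :
    ∃ ψ : F, ψ ≠ 0 ∧ ((∀ P, N.rmap P = none → P.ord ψ = sumPlaces Z P) ∨
      ∃ Pss, N.rmap Pss = none ∧ IsTwelveInt N u ϖ Pss ∧
        ∀ P, N.rmap P = none → P.ord ψ = sumPlaces Z P + Finsupp.single Pss (1 : ℤ) P) := by
  classical
  have hE0 : 0 ≤ sumPlaces Z := sumPlaces_nonneg Z
  have hEN : ∀ P, sumPlaces Z P ≠ 0 → IsNodeOf N P i := by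
    intro P hP
    by_cases hPZ : P ∈ Z
    · exact hZ P hPZ
    · exact absurd (sumPlaces_apply_of_not_mem hPZ) hP
  obtain ⟨M, ψ, -, hψ1, hψ2, hcase⟩ := kp_core N i (sumPlaces Z) hE0 hEN
  have hψ0 := N.S₁.ne_zero_of_red_ne_zero hψ1
  refine ⟨ψ, hψ0, ?_⟩
  rcases hcase with hc | ⟨Pss, hPss, hc'⟩
  · exact Or.inl hc
  right
  have hc : ∀ P, N.rmap P = none →
      P.ord ψ = sumPlaces Z P + Finsupp.single Pss (1 : ℤ) P := by
    intro P hP
    rw [hc' P hP, Finsupp.single_apply]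
    by_cases hPP : P = Pss
    · rw [if_pos hPP, if_pos hPP.symm]
    · rw [if_neg hPP, if_neg fun h => hPP h.symm]
  refine ⟨Pss, hPss.1, ?_, hc⟩
  -- SLOPE on the annulus
  set T : Finset (Place K F) :=
    (divOf N.S₁.hF ψ).support.filter (fun P => N.rmap P = none) with hT
  obtain ⟨z, hz⟩ := slope_annulus hs hψ1 hψ2 T
    (fun P => annulus_filter_iff h ψ P)
  have hmemT : ∀ P, P ∈ T ↔ P.ord ψ ≠ 0 ∧ N.rmap P = none := by
    intro P
    rw [hT, Finset.mem_filter, Finsupp.mem_support_iff, divOf_apply]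
  have hc0 : ∀ P, N.rmap P = none → valueAt N.S₁.hF P u ≠ 0 := fun P hP =>
    (h.valueAt_spec_N hP).1
  have hZN : ∀ P ∈ Z, N.rmap P = none := fun P hP => (hZ P hP).1
  have hsum0 : ∀ P, (0 : ℤ) ≤ sumPlaces Z P := fun P => hE0 P
  have hZT : Z ⊆ T := by
    intro P hP
    rw [hmemT]
    refine ⟨?_, hZN P hP⟩
    rw [hc P (hZN P hP), sumPlaces_apply_of_mem hP, Finsupp.single_apply]
    split_ifs <;> omega
  have hPssT : Pss ∈ T := by
    rw [hmemT]
    refine ⟨?_, hPss.1⟩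
    rw [hc Pss hPss.1, Finsupp.single_apply, if_pos rfl]
    have := hsum0 Pss
    omega
  -- the product
  have hprod : ∏ P ∈ T, valueAt N.S₁.hF P u ^ (P.ord ψ) =
      (∏ P ∈ Z, valueAt N.S₁.hF P u) * valueAt N.S₁.hF Pss u := by
    have h1 : ∀ P ∈ T, valueAt N.S₁.hF P u ^ (P.ord ψ) =
        valueAt N.S₁.hF P u ^ (sumPlaces Z P) *
          valueAt N.S₁.hF P u ^ (Finsupp.single Pss (1 : ℤ) P) := by
      intro P hP
      have hPN := ((hmemT P).mp hP).2
      rw [hc P hPN, zpow_add₀ (hc0 P hPN)]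
    rw [Finset.prod_congr rfl h1, Finset.prod_mul_distrib]
    congr 1
    · rw [← Finset.prod_subset hZT]
      · refine Finset.prod_congr rfl fun P hP => ?_
        rw [sumPlaces_apply_of_mem hP, zpow_one]
      · intro P _ hPZ
        rw [sumPlaces_apply_of_not_mem hPZ, zpow_zero]
    · rw [Finset.prod_eq_single Pss]
      · rw [Finsupp.single_apply, if_pos rfl, zpow_one]
      · intro P _ hne
        rw [Finsupp.single_apply, if_neg fun h => hne h.symm, zpow_zero]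
      · intro hn
        exact absurd hPssT hn
  rw [hprod, map_mul] at hz
  -- (VI)
  have hx0 : (∏ P ∈ Z, valueAt N.S₁.hF P u) ≠ 0 :=
    Finset.prod_ne_zero_iff.mpr fun P hP => hc0 P (hZN P hP)
  obtain ⟨a, ha⟩ := hVI _ hx0 fun t ht =>
    an_prod_value_fixed h (hΓu t ht) Z hZN (hZΓ t ht)
  rw [map_pow] at ha
  have hv0 : N.S₁.A.valuation ϖ ≠ 0 := (Valuation.ne_zero_iff _).mpr h.varpi_ne
  refine ⟨z * 12 - a, ?_⟩
  rw [map_pow]
  have h2 : N.S₁.A.valuation (∏ P ∈ Z, valueAt N.S₁.hF P u) ^ 12 *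
      N.S₁.A.valuation (valueAt N.S₁.hF Pss u) ^ 12 = N.S₁.A.valuation ϖ ^ (z * 12) := by
    rw [← mul_pow, hz, ← zpow_natCast, ← zpow_mul]
    rfl
  rw [ha] at h2
  rw [zpow_sub₀ hv0, ← h2, mul_div_cancel_left₀ _ (zpow_ne_zero a hv0)]

/-! ### ANN + FIX -/

theorem an_ord_prod (P : Place K F) {J : Type*} (s : Finset J) (f : J → F)
    (hf : ∀ j ∈ s, f j ≠ 0) : P.ord (∏ j ∈ s, f j) = ∑ j ∈ s, P.ord (f j) := by
  classical
  induction s using Finset.induction_on with
  | empty => simp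
  | insert a s ha ih =>
    have h1 : f a ≠ 0 := hf a (Finset.mem_insert_self a s)
    have h2 : (∏ j ∈ s, f j) ≠ 0 :=
      Finset.prod_ne_zero_iff.mpr fun j hj => hf j (Finset.mem_insert_of_mem hj)
    rw [Finset.prod_insert ha, Finset.sum_insert ha, P.ord_mul h1 h2,
      ih fun j hj => hf j (Finset.mem_insert_of_mem hj)]

/-- **ANN + FIX** at one node: `12 Z` is, on the places of type (N), the divisor of a
function. -/
theorem annFix_one [IsAlgClosed K] [CharZero K] (h : AnnulusData N u ϖ)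
    (hs : SlopeData N.S₁ N.S₂ u ϖ) (Γ : Set (SemilinearAut K F))
    (hΓu : ∀ t ∈ Γ, t • u = u) (hVI : VIStatement N.S₁.A Γ ϖ) (hfix : FixStatement N u ϖ)
    (i : ι) (Z : Finset (Place K F)) (hZ : ∀ P ∈ Z, IsNodeOf N P i)
    (hZΓ : ∀ t ∈ Γ, ∀ P ∈ Z, t • P ∈ Z) :
    ∃ φ : F, φ ≠ 0 ∧ ∀ P, N.rmap P = none → P.ord φ = 12 * sumPlaces Z P := by
  classical
  obtain ⟨ψ, hψ0, hcase⟩ := ann_one h hs Γ hΓu hVI i Z hZ hZΓ
  have hpow : ∀ P : Place K F, P.ord (ψ ^ 12) = 12 * P.ord ψ := fun P => by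
    rw [Gluing.ord_pow_nat]
    rfl
  rcases hcase with hc | ⟨Pss, hPssN, hint, hc⟩
  · refine ⟨ψ ^ 12, pow_ne_zero 12 hψ0, fun P hP => ?_⟩
    rw [hpow, hc P hP]
  · obtain ⟨ψ', hψ'0, hψ'1, hψ'2⟩ := hfix Pss hPssN hint
    refine ⟨ψ ^ 12 * ψ'⁻¹, mul_ne_zero (pow_ne_zero 12 hψ0) (inv_ne_zero hψ'0), fun P hP => ?_⟩
    rw [P.ord_mul (pow_ne_zero 12 hψ0) (inv_ne_zero hψ'0), P.ord_inv, hpow, hc P hP,
      Finsupp.single_apply]
    by_cases hPP : P = Pss
    · subst hPP
      rw [if_pos rfl, hψ'1]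
      ring
    · rw [if_neg fun h => hPP h.symm, hψ'2 P hPP hP]
      ring

/-- **ANN + FIX** ⇒ the input `AnnFix` of (FTT) (`FTT.lean`). -/
theorem annFix_of [IsAlgClosed K] [CharZero K] (h : AnnulusData N u ϖ)
    (hs : SlopeData N.S₁ N.S₂ u ϖ) (Γ : Set (SemilinearAut K F))
    (hΓ : ∀ t ∈ Γ, N.nodalSetup.IsInertial t)
    (hΓu : ∀ t ∈ Γ, t • u = u) (hVI : VIStatement N.S₁.A Γ ϖ) (hfix : FixStatement N u ϖ) :
    AnnFix N.nodalSetup Γ 12 := by
  classical
  intro Z hZN hZΓ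
  have hZN' : ∀ P ∈ Z, N.rmap P = none := hZN
  let Zi : ι → Finset (Place K F) := fun i => Z.filter fun P => IsNodeOf N P i
  have hZi : ∀ i, ∀ P ∈ Zi i, IsNodeOf N P i := fun i P hP => (Finset.mem_filter.mp hP).2
  have hZiΓ : ∀ i, ∀ t ∈ Γ, ∀ P ∈ Zi i, t • P ∈ Zi i := by
    intro i t ht P hP
    obtain ⟨h1, h2⟩ := Finset.mem_filter.mp hP
    exact Finset.mem_filter.mpr ⟨hZΓ t ht P h1, isNodeOf_smul (hΓ t ht) h2⟩
  choose φ hφ0 hφ using fun i => annFix_one h hs Γ hΓu hVI hfix i (Zi i) (hZi i) (hZiΓ i)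
  have hord : ∀ P, N.rmap P = none →
      P.ord (∏ i, φ i) = ∑ i, 12 * sumPlaces (Zi i) P := by
    intro P hP
    rw [an_ord_prod P Finset.univ φ fun i _ => hφ0 i]
    exact Finset.sum_congr rfl fun i _ => hφ i P hP
  refine ⟨∏ i, φ i, Finset.prod_ne_zero_iff.mpr fun i _ => hφ0 i, fun P hP => ?_,
    fun P hPZ hPN => ?_⟩
  · obtain ⟨i₀, hi₀⟩ := exists_isNodeOf (hZN' P hP)
    rw [hord P (hZN' P hP), Finset.sum_eq_single i₀]
    · rw [sumPlaces_apply_of_mem (Finset.mem_filter.mpr ⟨hP, hi₀⟩)]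
      rfl
    · intro j _ hj
      rw [sumPlaces_apply_of_not_mem, mul_zero]
      intro hmem
      exact hj (IsNodeOf.unique (Finset.mem_filter.mp hmem).2 hi₀)
    · intro hn
      exact absurd (Finset.mem_univ i₀) hn
  · rw [hord P hPN]
    refine Finset.sum_eq_zero fun i _ => ?_
    rw [sumPlaces_apply_of_not_mem, mul_zero]
    intro hmem
    exact hPZ (Finset.mem_filter.mp hmem).1

end Ann

end Fermat.Agent.EKp
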