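/-
Cluster E' (Mazur's descent), seat DESC-Kp, leaf KP-ANNULUS (helper4).
Blueprint: NOTES/blueprint-E-DESC-Kp.md, section 4 (EVAL / SLOPE: "ordinary places on the first
component have v(u(P)) ≤ 0, on the second ≥ v(ϖ)").

For a nodal reduction package `S` and a unit `f` of `O₁` whose pole divisor does not drop in
degree under reduction (`deg (f)_∞ ≤ deg (red₁ f)_∞`), reduction regular at the nodes:

* `zero_red₁` : NO CANCELLATION: a zero of `f` at an ordinary place `P ↦ Q` (first component)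
  reduces to a zero of `red₁ f` at `Q`;  `zero_red₂`: the same on the second component;
* `not_annulus₁`, `not_annulus₂` : for the `u`-datum (`red₁ u` without zeros outside the nodes,
  `red₂ (ϖ / u)` likewise) the ORDINARY places are not in the annulus
  `{P : v(ϖ) < v(u(P)) < 1}`  (`v` written multiplicatively);
* `annulus_iff` : the annulus is the set of the places of type (N).
-/
import Mathlib
import Fermat.Agent.E.Desc.Kp.Eval
import Fermat.Agent.Lib.FF.Value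
import Fermat.Agent.Lib.RR.Hurwitz.Fibres

set_option autoImplicit false
set_option linter.unusedSectionVars false
set_option linter.style.haveILetI false

noncomputable section

namespace Fermat.Agent.EKp

open AlgebraicCurve Fermat.Agent.RR Fermat.Agent.Deuring Fermat.Agent.BadRed Fermat.Agent.FF

variable {K F k Fk₁ Fk₂ : Type*} [Field K] [Field F] [Algebra K F]
  [Field k] [Field Fk₁] [Algebra k Fk₁] [Field Fk₂] [Algebra k Fk₂] {ι : Type*}

/-! ### no cancellation -/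

/-- the zero divisor `(f)_0 = div f + (f)_∞ ≥ 0`. -/
theorem an_zeroDiv_nonneg (h : IsRRField K F) (f : F) : 0 ≤ divOf h f + poleDiv h f := by
  have := neg_poleDiv_le_divOf h f
  rw [Finsupp.le_def] at this ⊢
  intro v
  have hv := this v
  rw [Finsupp.neg_apply] at hv
  rw [Finsupp.add_apply]
  simp only [Finsupp.coe_zero, Pi.zero_apply]
  omega

theorem an_zeroDiv_apply_of_pos (h : IsRRField K F) {f : F} {v : Place K F}
    (hv : 0 < v.ord f) : (divOf h f + poleDiv h f) v = v.ord f := by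
  rw [Finsupp.add_apply, divOf_apply, poleDiv_apply, max_eq_right (by omega), add_zero]

/-- **no cancellation, abstract form**: `D = Z - Pl` with `Z, Pl ≥ 0`, the reduction `r₁` of
divisors is additive, monotone and of degree at most the degree; if `r₁ D = div f̄` off the
nodes, `f̄` is regular at the nodes, `r₁` vanishes at the nodes and `deg Pl ≤ deg (f̄)_∞`, then at
every place `Q` off the nodes either `r₁ Z Q = 0` or `r₁ Pl Q = 0`. -/
theorem an_no_cancel {Fk : Type*} [Field Fk] [Algebra k Fk] (hFk : IsRRField k Fk)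
    (node : Place k Fk → Prop) {fbar : Fk} (rZ rPl : Divisor k Fk) (hrZ : 0 ≤ rZ)
    (hrPl : 0 ≤ rPl) (hnodePl : ∀ Q, node Q → rPl Q = 0)
    (hpush : ∀ Q, ¬ node Q → rZ Q - rPl Q = Q.ord fbar)
    (hreg : ∀ Q, node Q → 0 ≤ Q.ord fbar)
    (hdeg : Divisor.degree rPl ≤ Divisor.degree (poleDiv hFk fbar))
    {Q : Place k Fk} (hQ : ¬ node Q) (hZ : 0 < rZ Q) : 0 < Q.ord fbar := by
  have hle : poleDiv hFk fbar ≤ rPl := by
    rw [Finsupp.le_def]
    intro Q'
    rw [poleDiv_apply]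
    by_cases hQ' : node Q'
    · rw [hnodePl Q' hQ']
      have := hreg Q' hQ'
      exact max_le (by omega) le_rfl
    · have h1 := hpush Q' hQ'
      have h2 : (0 : ℤ) ≤ rZ Q' := (Finsupp.le_def.mp hrZ) Q'
      have h3 : (0 : ℤ) ≤ rPl Q' := (Finsupp.le_def.mp hrPl) Q'
      exact max_le (by omega) h3
  have heq : poleDiv hFk fbar = rPl :=
    eq_of_le_of_degree_eq hFk hle (le_antisymm (degree_mono hFk hle) hdeg)
  have h1 := hpush Q hQ
  have h2 : poleDiv hFk fbar Q = rPl Q := by rw [heq]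
  rw [poleDiv_apply] at h2
  have h3 : (0 : ℤ) ≤ rPl Q := (Finsupp.le_def.mp hrPl) Q
  rcases max_cases (-(Q.ord fbar)) 0 with ⟨h4, h5⟩ | ⟨h4, h5⟩ <;> omega

variable (S : NodalSetup K F k Fk₁ Fk₂ ι)

/-- the degree of the reduction of an effective divisor, first component. -/
theorem an_degree_redDiv₁_le {E : Divisor K F} (hE : 0 ≤ E) :
    Divisor.degree (Gluing.redDiv₁ S E) ≤ Divisor.degree E := by
  have h1 := Gluing.degree_eq_redDiv S E
  have h2 : 0 ≤ Finsupp.mapDomain S.r E none :=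
    Fermat.Agent.S18Key.mapDomain_nonneg _ _ _ fun P _ => hE P
  have h3 := degree_nonneg_of_nonneg S.S₂.hFk (Gluing.redDiv₂_nonneg S hE)
  omega

theorem an_degree_redDiv₂_le {E : Divisor K F} (hE : 0 ≤ E) :
    Divisor.degree (Gluing.redDiv₂ S E) ≤ Divisor.degree E := by
  have h1 := Gluing.degree_eq_redDiv S E
  have h2 : 0 ≤ Finsupp.mapDomain S.r E none :=
    Fermat.Agent.S18Key.mapDomain_nonneg _ _ _ fun P _ => hE P
  have h3 := degree_nonneg_of_nonneg S.S₁.hFk (Gluing.redDiv₁_nonneg S hE)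
  omega

/-- **NO CANCELLATION, first component.** -/
theorem zero_red₁ {f : F} (hf : S.S₁.red f ≠ 0)
    (hreg : ∀ i, 0 ≤ (S.s₁ i).ord (S.S₁.red f))
    (hdeg : Divisor.degree (poleDiv S.S₁.hF f) ≤
      Divisor.degree (poleDiv S.S₁.hFk (S.S₁.red f)))
    {P : Place K F} {Q : Place k Fk₁} (hPQ : S.r P = some (Sum.inl Q)) (hP : 0 < P.ord f) :
    0 < Q.ord (S.S₁.red f) := by
  classical
  have hf0 := S.S₁.ne_zero_of_red_ne_zero hf
  have hf1 := S.S₁.mem_of_red_ne_zero hf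
  have hf2 := S.S₁.inv_mem_of_red_ne_zero hf
  have hZ0 := an_zeroDiv_nonneg S.S₁.hF f
  have hPl0 := poleDiv_nonneg S.S₁.hF f
  have hQn : ∀ i, Q ≠ S.s₁ i := fun i h => S.r_ne_node₁ P i (h ▸ hPQ)
  refine an_no_cancel S.S₁.hFk (fun Q' => ∃ i, Q' = S.s₁ i)
    (Gluing.redDiv₁ S (divOf S.S₁.hF f + poleDiv S.S₁.hF f))
    (Gluing.redDiv₁ S (poleDiv S.S₁.hF f)) (Gluing.redDiv₁_nonneg S hZ0)
    (Gluing.redDiv₁_nonneg S hPl0) ?_ ?_ ?_ ?_ (Q := Q) ?_ ?_
  · rintro Q' ⟨i, rfl⟩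
    exact Gluing.redDiv₁_node S _ i
  · intro Q' hQ'
    push Not at hQ'
    rw [Gluing.redDiv₁_add, Finsupp.add_apply, add_sub_cancel_right, Gluing.redDiv₁_apply]
    exact S.push₁ f hf1 hf2 hf0 Q' hQ'
  · rintro Q' ⟨i, rfl⟩
    exact hreg i
  · exact (an_degree_redDiv₁_le S hPl0).trans hdeg
  · rintro ⟨i, hi⟩
    exact hQn i hi
  · have h1 := Fermat.Agent.S18Key.le_mapDomain S.r (divOf S.S₁.hF f + poleDiv S.S₁.hF f)
      (some (Sum.inl Q)) (fun P' _ => hZ0 P') P hPQ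
    rw [an_zeroDiv_apply_of_pos S.S₁.hF hP] at h1
    rw [Gluing.redDiv₁_apply]
    omega

/-- **NO CANCELLATION, second component.** -/
theorem zero_red₂ {f : F} (hf : S.S₂.red f ≠ 0)
    (hreg : ∀ i, 0 ≤ (S.s₂ i).ord (S.S₂.red f))
    (hdeg : Divisor.degree (poleDiv S.S₁.hF f) ≤
      Divisor.degree (poleDiv S.S₂.hFk (S.S₂.red f)))
    {P : Place K F} {Q : Place k Fk₂} (hPQ : S.r P = some (Sum.inr Q)) (hP : 0 < P.ord f) :
    0 < Q.ord (S.S₂.red f) := by
  classical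
  have hf0 := S.S₂.ne_zero_of_red_ne_zero hf
  have hf1 := S.S₂.mem_of_red_ne_zero hf
  have hf2 := S.S₂.inv_mem_of_red_ne_zero hf
  have hZ0 := an_zeroDiv_nonneg S.S₁.hF f
  have hPl0 := poleDiv_nonneg S.S₁.hF f
  have hQn : ∀ i, Q ≠ S.s₂ i := fun i h => S.r_ne_node₂ P i (h ▸ hPQ)
  refine an_no_cancel S.S₂.hFk (fun Q' => ∃ i, Q' = S.s₂ i)
    (Gluing.redDiv₂ S (divOf S.S₁.hF f + poleDiv S.S₁.hF f))
    (Gluing.redDiv₂ S (poleDiv S.S₁.hF f)) (Gluing.redDiv₂_nonneg S hZ0)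
    (Gluing.redDiv₂_nonneg S hPl0) ?_ ?_ ?_ ?_ (Q := Q) ?_ ?_
  · rintro Q' ⟨i, rfl⟩
    exact Gluing.redDiv₂_node S _ i
  · intro Q' hQ'
    push Not at hQ'
    rw [Gluing.redDiv₂_add, Finsupp.add_apply, add_sub_cancel_right, Gluing.redDiv₂_apply]
    exact S.push₂ f hf1 hf2 hf0 Q' hQ'
  · rintro Q' ⟨i, rfl⟩
    exact hreg i
  · exact (an_degree_redDiv₂_le S hPl0).trans hdeg
  · rintro ⟨i, hi⟩
    exact hQn i hi
  · have h1 := Fermat.Agent.S18Key.le_mapDomain S.r (divOf S.S₁.hF f + poleDiv S.S₁.hF f)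
      (some (Sum.inr Q)) (fun P' _ => hZ0 P') P hPQ
    rw [an_zeroDiv_apply_of_pos S.S₁.hF hP] at h1
    rw [Gluing.redDiv₂_apply]
    omega

/-! ### constants of positive valuation -/

theorem an_val_lt_one_iff (A : ValuationSubring K) {c : K} (hc : c ≠ 0) :
    A.valuation c < 1 ↔ c ∈ A ∧ c⁻¹ ∉ A := by
  have hv0 : A.valuation c ≠ 0 := (Valuation.ne_zero_iff _).mpr hc
  constructor
  · intro h
    refine ⟨(A.valuation_le_one_iff c).mp h.le, fun hinv => ?_⟩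
    have h1 := (A.valuation_le_one_iff _).mpr hinv
    rw [map_inv₀] at h1
    have h2 : 1 ≤ A.valuation c := (inv_le_one₀ (zero_lt_iff.mpr hv0)).mp h1
    exact absurd h (not_lt.mpr h2)
  · rintro ⟨h1, h2⟩
    have h3 := (A.valuation_le_one_iff c).mpr h1
    refine lt_of_le_of_ne h3 fun h4 => h2 ?_
    apply (A.valuation_le_one_iff _).mp
    rw [map_inv₀, h4, inv_one]

/-- a constant of the maximal ideal has residue `0`. -/
theorem an_res_eq_zero {Fk : Type*} [Field Fk] [Algebra k Fk] (T : ValSetup K F k Fk) {c : K}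
    (hcA : c ∈ T.A) (hc : c = 0 ∨ c⁻¹ ∉ T.A) : T.res ⟨c, hcA⟩ = 0 := by
  rcases eq_or_ne c 0 with h0 | h0
  · subst h0
    exact map_zero T.res
  · have hinv : c⁻¹ ∉ T.A := hc.resolve_left h0
    have hcO := T.algebraMap_mem hcA
    have hc0 : algebraMap K F c ≠ 0 := (map_ne_zero (algebraMap K F)).mpr h0
    have h1 : T.red (algebraMap K F c) = 0 := by
      rw [T.red_eq_zero_iff hcO hc0, ← map_inv₀, T.mem_Ov_iff]
      exact hinv
    rw [T.red_algebraMap hcA] at h1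
    exact (map_eq_zero (algebraMap k Fk)).mp h1

/-- the pole divisor of `u - c`. -/
theorem an_poleDiv_sub_const (h : IsRRField K F) (u : F) (c : K) :
    poleDiv h (u - algebraMap K F c) = poleDiv h u := by
  ext v
  rw [poleDiv_apply, poleDiv_apply]
  by_cases hv : v.ord u < 0
  · rw [Fermat.Agent.RRHur.ord_sub_const_of_pole v c hv]
  · have h1 : 0 ≤ v.ord u := by omega
    have h2 : 0 ≤ v.ord (u - algebraMap K F c) := by
      apply Fermat.Agent.S24Res.ord_nonneg_of_mem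
      exact sub_mem (Fermat.Agent.S24Res.mem_of_ord_nonneg v h1) (v.algebraMap_mem' c)
    rw [max_eq_right (by omega), max_eq_right (by omega)]

/-! ### ordinary places are not in the annulus -/

/-- first component: an ordinary place `P ↦ Q` is not a zero of `u - c`, `c ∈ m_A`. -/
theorem an_not_max₁ {u : F} (hu : S.S₁.red u ≠ 0)
    (hreg : ∀ i, 0 ≤ (S.s₁ i).ord (S.S₁.red u))
    (hzero : ∀ Q, (∀ i, Q ≠ S.s₁ i) → Q.ord (S.S₁.red u) ≤ 0)
    (hdeg : Divisor.degree (poleDiv S.S₁.hF u) ≤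
      Divisor.degree (poleDiv S.S₁.hFk (S.S₁.red u)))
    {P : Place K F} {Q : Place k Fk₁} (hPQ : S.r P = some (Sum.inl Q))
    {c : K} (hval : ValAt P u c) (hcA : c ∈ S.S₁.A) (hc : c = 0 ∨ c⁻¹ ∉ S.S₁.A) : False := by
  have hres := an_res_eq_zero S.S₁ hcA hc
  have huO := S.S₁.mem_of_red_ne_zero hu
  have hcO := S.S₁.algebraMap_mem hcA
  have hfred : S.S₁.red (u - algebraMap K F c) = S.S₁.red u := by
    rw [S.S₁.red_sub huO hcO, S.S₁.red_algebraMap hcA, hres, map_zero, sub_zero]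
  have hf : S.S₁.red (u - algebraMap K F c) ≠ 0 := by rw [hfred]; exact hu
  have hf0 := S.S₁.ne_zero_of_red_ne_zero hf
  have hPf : 0 < P.ord (u - algebraMap K F c) :=
    hval.resolve_left fun h => hf0 (sub_eq_zero.mpr h)
  have h1 := zero_red₁ S hf (by rw [hfred]; exact hreg)
    (by rw [an_poleDiv_sub_const, hfred]; exact hdeg) hPQ hPf
  rw [hfred] at h1
  have hQn : ∀ i, Q ≠ S.s₁ i := fun i h => S.r_ne_node₁ P i (h ▸ hPQ)
  have := hzero Q hQn
  omega

/-- second component. -/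
theorem an_not_max₂ {u : F} (hu : S.S₂.red u ≠ 0)
    (hreg : ∀ i, 0 ≤ (S.s₂ i).ord (S.S₂.red u))
    (hzero : ∀ Q, (∀ i, Q ≠ S.s₂ i) → Q.ord (S.S₂.red u) ≤ 0)
    (hdeg : Divisor.degree (poleDiv S.S₁.hF u) ≤
      Divisor.degree (poleDiv S.S₂.hFk (S.S₂.red u)))
    {P : Place K F} {Q : Place k Fk₂} (hPQ : S.r P = some (Sum.inr Q))
    {c : K} (hval : ValAt P u c) (hcA : c ∈ S.S₂.A) (hc : c = 0 ∨ c⁻¹ ∉ S.S₂.A) : False := by
  have hres := an_res_eq_zero S.S₂ hcA hc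
  have huO := S.S₂.mem_of_red_ne_zero hu
  have hcO := S.S₂.algebraMap_mem hcA
  have hfred : S.S₂.red (u - algebraMap K F c) = S.S₂.red u := by
    rw [S.S₂.red_sub huO hcO, S.S₂.red_algebraMap hcA, hres, map_zero, sub_zero]
  have hf : S.S₂.red (u - algebraMap K F c) ≠ 0 := by rw [hfred]; exact hu
  have hf0 := S.S₂.ne_zero_of_red_ne_zero hf
  have hPf : 0 < P.ord (u - algebraMap K F c) :=
    hval.resolve_left fun h => hf0 (sub_eq_zero.mpr h)
  have h1 := zero_red₂ S hf (by rw [hfred]; exact hreg)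
    (by rw [an_poleDiv_sub_const, hfred]; exact hdeg) hPQ hPf
  rw [hfred] at h1
  have hQn : ∀ i, Q ≠ S.s₂ i := fun i h => S.r_ne_node₂ P i (h ▸ hPQ)
  have := hzero Q hQn
  omega

/-- **ordinary places of the first component are not in the annulus**: `v(u(P)) ≥ 1`. -/
theorem not_annulus₁ {u : F} (hu : S.S₁.red u ≠ 0)
    (hreg : ∀ i, 0 ≤ (S.s₁ i).ord (S.S₁.red u))
    (hzero : ∀ Q, (∀ i, Q ≠ S.s₁ i) → Q.ord (S.S₁.red u) ≤ 0)
    (hdeg : Divisor.degree (poleDiv S.S₁.hF u) ≤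
      Divisor.degree (poleDiv S.S₁.hFk (S.S₁.red u)))
    {P : Place K F} {Q : Place k Fk₁} (hPQ : S.r P = some (Sum.inl Q)) (hP : 0 ≤ P.ord u) :
    ¬ S.S₁.A.valuation (valueAt S.S₁.hF P u) < 1 := by
  intro hlt
  have hcA : valueAt S.S₁.hF P u ∈ S.S₁.A := (S.S₁.A.valuation_le_one_iff _).mp hlt.le
  have hval : ValAt P u (valueAt S.S₁.hF P u) :=
    valueAt_spec S.S₁.hF P (mem_of_ord_nonneg' P hP)
  refine an_not_max₁ S hu hreg hzero hdeg hPQ hval hcA ?_
  by_cases h0 : valueAt S.S₁.hF P u = 0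
  · exact Or.inl h0
  · exact Or.inr ((an_val_lt_one_iff S.S₁.A h0).mp hlt).2

/-- **ordinary places of the second component are not in the annulus**: `v(u(P)) ≤ v(ϖ)`. -/
theorem not_annulus₂ {u : F} {ϖ : K} (hϖ : ϖ ≠ 0)
    (hu : S.S₂.red (algebraMap K F ϖ / u) ≠ 0)
    (hreg : ∀ i, 0 ≤ (S.s₂ i).ord (S.S₂.red (algebraMap K F ϖ / u)))
    (hzero : ∀ Q, (∀ i, Q ≠ S.s₂ i) → Q.ord (S.S₂.red (algebraMap K F ϖ / u)) ≤ 0)
    (hdeg : Divisor.degree (poleDiv S.S₁.hF (algebraMap K F ϖ / u)) ≤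
      Divisor.degree (poleDiv S.S₂.hFk (S.S₂.red (algebraMap K F ϖ / u))))
    {P : Place K F} {Q : Place k Fk₂} (hPQ : S.r P = some (Sum.inr Q)) (hP : 0 ≤ P.ord u) :
    ¬ S.S₁.A.valuation ϖ < S.S₁.A.valuation (valueAt S.S₁.hF P u) := by
  intro hlt
  set c : K := valueAt S.S₁.hF P u with hcdef
  have hc0 : c ≠ 0 := by
    intro h0
    rw [h0, map_zero] at hlt
    exact not_lt_zero' hlt
  have hval : ValAt P u c := valueAt_spec S.S₁.hF P (mem_of_ord_nonneg' P hP)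
  have hval' : ValAt P (algebraMap K F ϖ / u) (ϖ / c) := by
    rw [div_eq_mul_inv, div_eq_mul_inv]
    exact Gluing.valAt_mul (Gluing.valAt_algebraMap P ϖ) (ev_valAt_inv hval hc0)
  have hvc0 : S.S₁.A.valuation c ≠ 0 := (Valuation.ne_zero_iff _).mpr hc0
  have hlt' : S.S₁.A.valuation (ϖ / c) < 1 := by
    rw [map_div₀]
    exact (div_lt_one₀ (zero_lt_iff.mpr hvc0)).mpr hlt
  have hne : ϖ / c ≠ 0 := div_ne_zero hϖ hc0
  obtain ⟨h1, h2⟩ := (an_val_lt_one_iff S.S₁.A hne).mp hlt'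
  refine an_not_max₂ S hu hreg hzero hdeg hPQ hval' (S.A_eq ▸ h1) (Or.inr ?_)
  intro h3
  exact h2 (S.A_eq.symm ▸ h3)

/-! ### the annulus is the set of the places of type (N) -/

/-- **the `u`-datum of the annuli** of a nodal seed (blueprint, section 2): `u ∈ O₁^×`,
`ϖ / u ∈ O₂^×`, the zeros of `red₁ u` (resp. `red₂ (ϖ / u)`) are exactly the nodes, the zeros and
poles of `u` are ordinary places, and the pole divisors of `u`, `ϖ / u` do not drop in degree
under reduction. -/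
structure AnnulusData [Fintype ι] (N : NodalSeed K F k Fk₁ Fk₂ ι) (u : F) (ϖ : K) : Prop where
  varpi_ne : ϖ ≠ 0
  varpi_mem : ϖ ∈ N.S₁.A
  red₁_ne : N.S₁.red u ≠ 0
  red₂_ne : N.S₂.red (algebraMap K F ϖ / u) ≠ 0
  ord_N : ∀ P, N.rmap P = none → P.ord u = 0
  node₁ : ∀ i, ValAt (N.s₁ i) (N.S₁.red u) 0
  node₂ : ∀ i, ValAt (N.s₂ i) (N.S₂.red (algebraMap K F ϖ / u)) 0
  zero₁ : ∀ Q, (∀ i, Q ≠ N.s₁ i) → Q.ord (N.S₁.red u) ≤ 0
  zero₂ : ∀ Q, (∀ i, Q ≠ N.s₂ i) → Q.ord (N.S₂.red (algebraMap K F ϖ / u)) ≤ 0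
  deg₁ : Divisor.degree (poleDiv N.S₁.hF u) ≤ Divisor.degree (poleDiv N.S₁.hFk (N.S₁.red u))
  deg₂ : Divisor.degree (poleDiv N.S₁.hF (algebraMap K F ϖ / u)) ≤
    Divisor.degree (poleDiv N.S₂.hFk (N.S₂.red (algebraMap K F ϖ / u)))

section Seed

variable [Fintype ι] [Infinite k] {N : NodalSeed K F k Fk₁ Fk₂ ι} {u : F} {ϖ : K}

theorem an_smul_inv (u : F) (ϖ : K) : ϖ • u⁻¹ = algebraMap K F ϖ / u := by
  rw [Algebra.smul_def, div_eq_mul_inv]

/-- the value of `u` at a place of type (N) (EVAL, helper68). -/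
theorem AnnulusData.valueAt_spec_N (h : AnnulusData N u ϖ) {P : Place K F}
    (hP : N.rmap P = none) :
    valueAt N.S₁.hF P u ≠ 0 ∧ N.S₁.A.valuation ϖ < N.S₁.A.valuation (valueAt N.S₁.hF P u) ∧
      N.S₁.A.valuation (valueAt N.S₁.hF P u) < 1 := by
  obtain ⟨c, hval, hc0, hcA, hcinv, hdA, hdinv⟩ := eval_u_exists (N := N) h.varpi_mem h.red₁_ne
    (by rw [an_smul_inv]; exact h.red₂_ne) h.ord_N h.node₁
    (fun i => by rw [an_smul_inv]; exact h.node₂ i) P hP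
  have hmem : u ∈ P.toValuationSubring :=
    mem_of_ord_nonneg' P (by rw [h.ord_N P hP])
  have hvc : valueAt N.S₁.hF P u = c := (valueAt_eq_iff N.S₁.hF P hmem c).mpr hval
  rw [hvc]
  have h1 : N.S₁.A.valuation c < 1 := (an_val_lt_one_iff N.S₁.A hc0).mpr ⟨hcA, hcinv⟩
  have h2 : N.S₁.A.valuation (ϖ / c) < 1 :=
    (an_val_lt_one_iff N.S₁.A (div_ne_zero h.varpi_ne hc0)).mpr ⟨hdA, hdinv⟩
  have hvc0 : N.S₁.A.valuation c ≠ 0 := (Valuation.ne_zero_iff _).mpr hc0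
  rw [map_div₀] at h2
  exact ⟨hc0, (div_lt_one₀ (zero_lt_iff.mpr hvc0)).mp h2, h1⟩

/-- **KP-ANNULUS**: the annulus `{P : v(ϖ) < v(u(P)) < 1}` is the set of the places of
type (N). -/
theorem annulus_iff (h : AnnulusData N u ϖ) (P : Place K F) :
    (0 ≤ P.ord u ∧ N.S₁.A.valuation ϖ < N.S₁.A.valuation (valueAt N.S₁.hF P u) ∧
      N.S₁.A.valuation (valueAt N.S₁.hF P u) < 1) ↔ N.rmap P = none := by
  constructor
  · rintro ⟨h0, h1, h2⟩
    rcases hr : N.rmap P with _ | (Q | Q)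
    · rfl
    · exfalso
      exact not_annulus₁ N.nodalSetup h.red₁_ne
        (fun i => Gluing.valAt_ord_nonneg (h.node₁ i)) h.zero₁ h.deg₁ (P := P) (Q := Q) hr h0 h2
    · exfalso
      exact not_annulus₂ N.nodalSetup h.varpi_ne h.red₂_ne
        (fun i => Gluing.valAt_ord_nonneg (h.node₂ i)) h.zero₂ h.deg₂ (P := P) (Q := Q) hr h0 h1
  · intro hP
    obtain ⟨-, h1, h2⟩ := h.valueAt_spec_N hP
    exact ⟨by rw [h.ord_N P hP], h1, h2⟩

/-- the set `T` of `slope_annulus` (helper64), for a function `ψ`: the zeros and poles of `ψ` of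
type (N). -/
theorem annulus_filter_iff (h : AnnulusData N u ϖ) (ψ : F) (P : Place K F)
    [DecidablePred fun P : Place K F => N.rmap P = none] :
    P ∈ (divOf N.S₁.hF ψ).support.filter (fun P => N.rmap P = none) ↔
      P.ord ψ ≠ 0 ∧ 0 ≤ P.ord u ∧
        N.S₁.A.valuation ϖ < N.S₁.A.valuation (valueAt N.S₁.hF P u) ∧
        N.S₁.A.valuation (valueAt N.S₁.hF P u) < 1 := by
  rw [Finset.mem_filter, Finsupp.mem_support_iff, divOf_apply, ← annulus_iff h P]

end Seed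

end Fermat.Agent.EKp
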