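import Mathlib
import Fermat.Agent.E.Desc.Kp.Core
import Fermat.Agent.E.Desc.Kp.Slope
import Fermat.Agent.E.Desc.Kp.Annulus

/-!
# Cluster E' (Mazur's descent), DESC-Kp: FIX  (helper31)

Blueprint: `NOTES/blueprint-E-DESC-Kp.md`, section 4, FIX.

`N : NodalSeed K F k Fk₁ Fk₂ ι` with the `u`-datum (`SlopeData`, `AnnulusData`).  A place `P*` of
type (N) which is `c`-integral (`v(u(P*))^c ∈ v(ϖ)^ℤ`) is, up to ordinary places, the divisor of
a function: there is `ψ` with `ord_{P*} ψ = c` and without zeros or poles at the other places of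
type (N).

Proof: the count `kp_core` for `E = c P*` gives `ψ` with divisor `c P*` or `c P* + P**` on the
places of type (N); in the second case SLOPE gives `v(u(P*))^c v(u(P**)) ∈ v(ϖ)^ℤ`, hence
`v(u(P**)) ∈ v(ϖ)^ℤ`, which contradicts `v(ϖ) < v(u(P**)) < 1` (EVAL).
-/

set_option autoImplicit false
set_option linter.style.haveILetI false
set_option linter.unusedSectionVars false
set_option linter.unusedVariables false

noncomputable section

open AlgebraicCurve Fermat.Agent.RR Fermat.Agent.Deuring Fermat.Agent.BadRed Fermat.Agent.FF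

namespace Fermat.Agent.EKp

variable {K F k Fk₁ Fk₂ : Type*} [Field K] [Field F] [Algebra K F]
  [Field k] [Field Fk₁] [Algebra k Fk₁] [Field Fk₂] [Algebra k Fk₂] {ι : Type*} [Fintype ι]

/-- there is no power of `w < 1` strictly between `w` and `1`. -/
theorem kp_zpow_not_between {Γ₀ : Type*} [LinearOrderedCommGroupWithZero Γ₀] {w y : Γ₀}
    (hw0 : w ≠ 0) (hw : w < 1) (h1 : w < y) (h2 : y < 1) (m : ℤ) : y ≠ w ^ m := by
  have hpos : 0 < w := zero_lt_iff.mpr hw0
  rintro rfl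
  rcases le_or_gt m 0 with hm | hm
  · exact absurd h2 (not_lt.mpr (one_le_zpow_of_nonpos₀ hpos hw.le hm))
  · have h3 : w ^ m ≤ w ^ (1 : ℤ) := zpow_le_zpow_right_of_le_one₀ hpos hw.le (by omega)
    rw [zpow_one] at h3
    exact absurd h1 (not_lt.mpr h3)

/-- **FIX**, for any multiplicity `c`. -/
theorem kp_fix [IsAlgClosed K] [CharZero K] [Infinite k] (N : NodalSeed K F k Fk₁ Fk₂ ι)
    {u : F} {ϖ : K} (hS : SlopeData N.S₁ N.S₂ u ϖ) (hA : AnnulusData N u ϖ) (c : ℕ)
    (Ps : Place K F) (hPs : N.rmap Ps = none)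
    (hint : ∃ a : ℤ, N.S₁.A.valuation (valueAt N.S₁.hF Ps u ^ c) = N.S₁.A.valuation ϖ ^ a) :
    ∃ ψ : F, N.S₁.red ψ ≠ 0 ∧ N.S₂.red ψ ≠ 0 ∧ Ps.ord ψ = (c : ℤ) ∧
      ∀ P, P ≠ Ps → N.rmap P = none → P.ord ψ = 0 := by
  classical
  obtain ⟨i, hi⟩ := exists_isNodeOf hPs
  have hE : (0 : Divisor K F) ≤ Finsupp.single Ps (c : ℤ) := by
    rw [Finsupp.le_def]
    intro v
    rw [Finsupp.single_apply]
    split_ifs <;> simp
  have hEN : ∀ P, (Finsupp.single Ps (c : ℤ) : Divisor K F) P ≠ 0 → IsNodeOf N P i := by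
    intro P hP
    rw [Finsupp.single_apply] at hP
    split_ifs at hP with h
    · subst h
      exact hi
    · exact absurd rfl hP
  obtain ⟨M, ψ, hψ, hψ₁, hψ₂, hdiv⟩ := kp_core N i _ hE hEN
  refine ⟨ψ, hψ₁, hψ₂, ?_⟩
  rcases hdiv with hdiv | ⟨Pss, hPss, hdiv⟩
  · refine ⟨?_, fun P hne hP => ?_⟩
    · rw [hdiv Ps hPs, Finsupp.single_eq_same]
    · rw [hdiv P hP, Finsupp.single_apply, if_neg (Ne.symm hne)]
  · exfalso
    obtain ⟨a, ha⟩ := hint
    have hc0 : (0 : ℤ) ≤ (c : ℤ) := Int.natCast_nonneg c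
    -- SLOPE
    set T := (divOf N.S₁.hF ψ).support.filter (fun P => N.rmap P = none) with hT
    have hTmem : ∀ P, P ∈ T ↔ P.ord ψ ≠ 0 ∧ N.rmap P = none := by
      intro P
      rw [hT, Finset.mem_filter, Finsupp.mem_support_iff, divOf_apply]
    obtain ⟨z, hz⟩ := slope_annulus hS hψ₁ hψ₂ T (fun P => annulus_filter_iff hA ψ P)
    have hx0 : ∀ P, N.rmap P = none → valueAt N.S₁.hF P u ≠ 0 := fun P hP =>
      (hA.valueAt_spec_N hP).1
    have hPssT : Pss ∈ T := by
      rw [hTmem]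
      refine ⟨?_, hPss.1⟩
      rw [hdiv Pss hPss.1, if_pos rfl, Finsupp.single_apply]
      split_ifs <;> omega
    -- the product
    have hprod : ∏ P ∈ T, valueAt N.S₁.hF P u ^ (P.ord ψ) =
        valueAt N.S₁.hF Ps u ^ c * valueAt N.S₁.hF Pss u := by
      have h1 : ∀ P ∈ T, valueAt N.S₁.hF P u ^ (P.ord ψ) =
          valueAt N.S₁.hF P u ^ ((Finsupp.single Ps (c : ℤ) : Divisor K F) P) *
            valueAt N.S₁.hF P u ^ (if P = Pss then (1 : ℤ) else 0) := by
        intro P hP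
        have hPN := ((hTmem P).mp hP).2
        rw [hdiv P hPN, zpow_add₀ (hx0 P hPN)]
      rw [Finset.prod_congr rfl h1, Finset.prod_mul_distrib]
      congr 1
      · rw [Finset.prod_eq_single Ps]
        · rw [Finsupp.single_eq_same, zpow_natCast]
        · intro P _ hne
          rw [Finsupp.single_apply, if_neg (Ne.symm hne), zpow_zero]
        · intro hPsT
          have h0 : Ps.ord ψ = 0 := by
            by_contra h
            exact hPsT ((hTmem Ps).mpr ⟨h, hPs⟩)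
          rw [hdiv Ps hPs, Finsupp.single_eq_same] at h0
          have hc : (c : ℤ) = 0 := by
            split_ifs at h0 <;> omega
          rw [Finsupp.single_eq_same, hc, zpow_zero]
      · rw [Finset.prod_eq_single Pss]
        · rw [if_pos rfl, zpow_one]
        · intro P _ hne
          rw [if_neg hne, zpow_zero]
        · intro h
          exact absurd hPssT h
    rw [hprod, map_mul, ha] at hz
    have hw0 : N.S₁.A.valuation ϖ ≠ 0 := (Valuation.ne_zero_iff _).mpr hA.varpi_ne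
    have hy : N.S₁.A.valuation (valueAt N.S₁.hF Pss u) = N.S₁.A.valuation ϖ ^ (z - a) := by
      rw [zpow_sub₀ hw0, ← hz, mul_div_assoc, mul_comm, div_mul_cancel₀ _ (zpow_ne_zero a hw0)]
    obtain ⟨-, h1, h2⟩ := hA.valueAt_spec_N hPss.1
    exact kp_zpow_not_between hw0 hS.varpi_lt h1 h2 (z - a) hy

/-- **FIX**: a `12`-integral place of type (N) is, up to ordinary places, `1/12` of the divisor
of a function. -/
theorem kp_fix_twelve [IsAlgClosed K] [CharZero K] [Infinite k] (N : NodalSeed K F k Fk₁ Fk₂ ι)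
    {u : F} {ϖ : K} (hS : SlopeData N.S₁ N.S₂ u ϖ) (hA : AnnulusData N u ϖ)
    (Pss : Place K F) (hPss : N.rmap Pss = none)
    (h12 : ∃ a : ℤ, N.S₁.A.valuation (valueAt N.S₁.hF Pss u ^ 12) = N.S₁.A.valuation ϖ ^ a) :
    ∃ ψ' : F, ψ' ≠ 0 ∧ Pss.ord ψ' = 12 ∧ ∀ P, P ≠ Pss → N.rmap P = none → P.ord ψ' = 0 := by
  obtain ⟨ψ, hψ₁, -, h1, h2⟩ := kp_fix N hS hA 12 Pss hPss h12
  exact ⟨ψ, N.S₁.ne_zero_of_red_ne_zero hψ₁, by rw [h1]; rfl, h2⟩

end Fermat.Agent.EKp
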