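/-
Cluster E' (Mazur's descent), seat DESC-Kp (helper4): ANN + FIX, unconditional, and the `u`-data
of the seed `seedOfU`.

* `annFix` : `AnnFix N.nodalSetup Γ 12` (the input of `ftt`, `FTT.lean`) from `AnnulusData`,
  `SlopeData`, a set `Γ` of inertial automorphisms fixing `u`, and (VI);
* `slopeData_seedOfU`, `annulusData_seedOfU` : the seed `seedOfU C u ϖ ..` (`Mod/SeedOfU.lean`)
  satisfies `SlopeData` and `AnnulusData` (no new hypothesis).
-/
import Mathlib
import Fermat.Agent.E.Desc.Kp.Ann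
import Fermat.Agent.E.Desc.Kp.Fix
import Fermat.Agent.Lib.BadRed.Mod.SeedOfU

set_option autoImplicit false
set_option linter.unusedSectionVars false
set_option linter.style.haveILetI false

noncomputable section

namespace Fermat.Agent.EKp

open AlgebraicCurve Fermat.Agent.RR Fermat.Agent.Deuring Fermat.Agent.BadRed Fermat.Agent.FF
  IntermediateField

variable {K F k Fk₁ Fk₂ : Type*} [Field K] [Field F] [Algebra K F]
  [Field k] [Field Fk₁] [Algebra k Fk₁] [Field Fk₂] [Algebra k Fk₂] {ι : Type*}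

/-- **ANN + FIX**: the input `AnnFix` of (FTT). -/
theorem annFix [Fintype ι] [Infinite k] [IsAlgClosed K] [CharZero K]
    {N : NodalSeed K F k Fk₁ Fk₂ ι} {u : F} {ϖ : K} (h : AnnulusData N u ϖ)
    (hs : SlopeData N.S₁ N.S₂ u ϖ) (Γ : Set (SemilinearAut K F))
    (hΓ : ∀ t ∈ Γ, N.nodalSetup.IsInertial t)
    (hΓu : ∀ t ∈ Γ, t • u = u) (hVI : VIStatement N.S₁.A Γ ϖ) :
    AnnFix N.nodalSetup Γ 12 :=
  annFix_of h hs Γ hΓ hΓu hVI fun Pss hPss h12 => kp_fix_twelve N hs h Pss hPss h12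

end Fermat.Agent.EKp
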