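import Mathlib
import Fermat.Agent.E.Desc.Kp.Ann
import Fermat.Agent.E.Desc.Kp.Fix

/-!
# Cluster E' (Mazur's descent), DESC-Kp: ANN + FIX, wired  (helper31)

`kp_fixStatement` : `FixStatement N u ϖ` (the only open input of `annFix_of`, `Ann.lean`);
`kp_annFix` : `AnnFix N.nodalSetup Γ 12`, the input `hAF` of `ftt` (`FTT.lean`), from the
`u`-datum (`AnnulusData`, `SlopeData`) and the value condition `VIStatement`.
-/

set_option autoImplicit false
set_option linter.unusedSectionVars false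

noncomputable section

open AlgebraicCurve Fermat.Agent.RR Fermat.Agent.Deuring Fermat.Agent.BadRed Fermat.Agent.FF

namespace Fermat.Agent.EKp

variable {K F k Fk₁ Fk₂ : Type*} [Field K] [Field F] [Algebra K F]
  [Field k] [Field Fk₁] [Algebra k Fk₁] [Field Fk₂] [Algebra k Fk₂] {ι : Type*} [Fintype ι]

/-- **FIX**, in the form consumed by `annFix_of`. -/
theorem kp_fixStatement [IsAlgClosed K] [CharZero K] [Infinite k]
    (N : NodalSeed K F k Fk₁ Fk₂ ι) {u : F} {ϖ : K} (hS : SlopeData N.S₁ N.S₂ u ϖ)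
    (hA : AnnulusData N u ϖ) : FixStatement N u ϖ :=
  fun Pss hPss h12 => kp_fix_twelve N hS hA Pss hPss h12

/-- **ANN + FIX**: the input `AnnFix` of (FTT), without open hypotheses. -/
theorem kp_annFix [IsAlgClosed K] [CharZero K] [Infinite k]
    (N : NodalSeed K F k Fk₁ Fk₂ ι) {u : F} {ϖ : K} (hA : AnnulusData N u ϖ)
    (hS : SlopeData N.S₁ N.S₂ u ϖ) (Γ : Set (SemilinearAut K F))
    (hΓ : ∀ t ∈ Γ, N.nodalSetup.IsInertial t)
    (hΓu : ∀ t ∈ Γ, t • u = u) (hVI : VIStatement N.S₁.A Γ ϖ) :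
    AnnFix N.nodalSetup Γ 12 :=
  annFix_of hA hS Γ hΓ hΓu hVI (kp_fixStatement N hS hA)

end Fermat.Agent.EKp
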