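/-
Cluster E' (Mazur's descent), seat DESC-Kp, leaf KP-ASM (helper60): the counting assembly, as pure
group theory.  Blueprint: NOTES/blueprint-E-DESC-Kp.md, section 3.

`G` acts on the abelian group `J`, `I ≤ G` ("inertia"), `V = J[n]`, `T ≤ V` ("toric part").  If
* `I` acts trivially on `T` and `σ w - w ∈ T` for `w ∈ V`, `σ ∈ I`                 (T1 / toric key),
* `m₀ • V^I ⊆ T`                                                              (fixed torsion is toric),
* `#T ≤ n ^ g` and `n ^ (2 g) ≤ #V`                                                    (the counts),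
* `σ R₀ - R₀ ∈ T` for `σ ∈ I`, and `I` acts on `V ∪ {R₀}` through the powers of one `τ₀ ∈ I`  (tame),
then `(#J[m₀])! • R₀` differs from an `I`-fixed point by an element of `V`.
-/
import Mathlib

set_option autoImplicit false

namespace Fermat.Agent.EKp

variable {G J : Type*} [Group G] [AddCommGroup J] [DistribMulAction G J]

/-- the `n`-torsion subgroup. -/
def torsN (J : Type*) [AddCommGroup J] (n : ℕ) : AddSubgroup J where
  carrier := {x | n • x = 0}
  zero_mem' := smul_zero n
  add_mem' := fun {a b} ha hb => by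
    simp only [Set.mem_ofPred_eq] at ha hb ⊢
    rw [smul_add, ha, hb, add_zero]
  neg_mem' := fun {a} ha => by
    simp only [Set.mem_ofPred_eq] at ha ⊢
    rw [smul_neg, ha, neg_zero]

theorem mem_torsN {n : ℕ} {x : J} : x ∈ torsN J n ↔ n • x = 0 := Iff.rfl

theorem asm_smul_sub (σ : G) (x y : J) : σ • (x - y) = σ • x - σ • y :=
  map_sub (DistribSMul.toAddMonoidHom J σ) x y

theorem asm_smul_nsmul (σ : G) (m : ℕ) (x : J) : σ • (m • x) = m • (σ • x) :=
  map_nsmul (DistribSMul.toAddMonoidHom J σ) m x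

theorem asm_pow_smul_fixed {τ : G} {x : J} (h : τ • x = x) (k : ℕ) : τ ^ k • x = x := by
  induction k with
  | zero => simp
  | succ k ih => rw [pow_succ, mul_smul, h, ih]

/-- a subgroup of index at most `C` contains `C ! • x`. -/
theorem asm_factorial_nsmul_mem {A : Type*} [AddCommGroup A] (B : AddSubgroup A) {C : ℕ}
    (hidx : B.index ≠ 0) (hC : B.index ≤ C) (x : A) : C.factorial • x ∈ B := by
  have h1 : B.index • x ∈ B := by
    have h2 : (B.index : ℕ) • (QuotientAddGroup.mk x : A ⧸ B) = 0 := by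
      have : B.FiniteIndex := ⟨hidx⟩
      have hfin : Finite (A ⧸ B) := AddSubgroup.finite_quotient_of_finiteIndex
      have := card_nsmul_eq_zero' (G := A ⧸ B) (x := (QuotientAddGroup.mk x : A ⧸ B))
      rwa [← AddSubgroup.index_eq_card] at this
    rw [← QuotientAddGroup.mk_nsmul, QuotientAddGroup.eq_zero_iff] at h2
    exact h2
  obtain ⟨d, hd⟩ := Nat.dvd_factorial (Nat.pos_of_ne_zero hidx) hC
  rw [hd, mul_comm, mul_smul]
  exact B.nsmul_mem h1 d

/-- the cardinality of the source of a homomorphism of finite groups is at most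
`#(kernel) * #(target)`. -/
theorem asm_card_le_ker_mul {A B : Type*} [AddCommGroup A] [AddCommGroup B] [Finite A] [Finite B]
    (φ : A →+ B) : Nat.card A ≤ Nat.card φ.ker * Nat.card B := by
  have h1 : Nat.card A = Nat.card (A ⧸ φ.ker) * Nat.card φ.ker :=
    AddSubgroup.card_eq_card_quotient_mul_card_addSubgroup φ.ker
  have h2 : Nat.card (A ⧸ φ.ker) = Nat.card φ.range :=
    Nat.card_congr (QuotientAddGroup.quotientKerEquivRange φ).toEquiv
  have h3 : Nat.card φ.range ≤ Nat.card B :=
    Nat.card_le_card_of_injective (fun x : φ.range => (x : B)) Subtype.val_injective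
  rw [h1, h2, mul_comm]
  exact Nat.mul_le_mul_left _ h3

/-- **KP-ASM** (blueprint section 3). -/
theorem kp_abstract (I : Subgroup G) {n m₀ g : ℕ} (hn : 0 < n)
    [hfinV : Finite (torsN J n)] [hfin₀ : Finite (torsN J m₀)]
    (T : AddSubgroup J) (hTn : T ≤ torsN J n)
    (hE1 : ∀ σ ∈ I, ∀ w ∈ torsN J n, σ • w - w ∈ T)
    (hFTT : ∀ x ∈ torsN J n, (∀ σ ∈ I, σ • x = x) → m₀ • x ∈ T)
    (hTB : Nat.card T ≤ n ^ g) (hLB : n ^ (2 * g) ≤ Nat.card (torsN J n))
    (R₀ : J) (τ₀ : G) (hτ₀ : τ₀ ∈ I) (hR₀ : τ₀ • R₀ - R₀ ∈ T)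
    (hgen : ∀ σ ∈ I, ∃ k : ℕ, (∀ w ∈ torsN J n, σ • w = τ₀ ^ k • w) ∧ σ • R₀ = τ₀ ^ k • R₀) :
    ∃ w ∈ torsN J n, ∀ σ ∈ I,
      σ • ((Nat.card (torsN J m₀)).factorial • R₀ - w)
        = (Nat.card (torsN J m₀)).factorial • R₀ - w := by
  classical
  set C₀ := Nat.card (torsN J m₀) with hC₀
  have hfinT : Finite T := Finite.of_injective (fun x : T => (⟨x.1, hTn x.2⟩ : torsN J n))
    (fun a b h => Subtype.ext (congrArg (fun z : torsN J n => (z : J)) h))
  -- `f = τ₀ - 1 : V → T`
  let f : torsN J n →+ T :=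
    { toFun := fun w => ⟨τ₀ • (w : J) - w, hE1 τ₀ hτ₀ w w.2⟩
      map_zero' := by
        apply Subtype.ext
        simp
      map_add' := fun a b => by
        apply Subtype.ext
        simp only [AddSubgroup.coe_add, smul_add]
        abel }
  have hf : ∀ w : torsN J n, ((f w : T) : J) = τ₀ • (w : J) - w := fun _ => rfl
  -- the kernel of `f` is fixed by `I`
  have hker : ∀ w : torsN J n, w ∈ f.ker → ∀ σ ∈ I, σ • (w : J) = w := by
    intro w hw σ hσ
    have h1 : τ₀ • (w : J) = w := by
      have := congrArg (fun z : T => (z : J)) ((AddMonoidHom.mem_ker).mp hw)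
      simp only [hf, AddSubgroup.coe_zero] at this
      exact sub_eq_zero.mp this
    obtain ⟨k, hk, -⟩ := hgen σ hσ
    rw [hk w w.2, asm_pow_smul_fixed h1]
  -- `m₀ : ker f → T`
  let h : f.ker →+ T :=
    { toFun := fun w => ⟨m₀ • ((w : torsN J n) : J), hFTT _ (w : torsN J n).2 (hker w w.2)⟩
      map_zero' := by
        apply Subtype.ext
        simp
      map_add' := fun a b => by
        apply Subtype.ext
        simp [smul_add] }
  have hkerh : Nat.card h.ker ≤ C₀ := by
    refine Nat.card_le_card_of_injective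
      (fun w : h.ker => (⟨(((w : f.ker) : torsN J n) : J), ?_⟩ : torsN J m₀)) ?_
    · have := congrArg (fun z : T => (z : J)) ((AddMonoidHom.mem_ker).mp w.2)
      exact mem_torsN.mpr (by simpa [h] using this)
    · intro a b hab
      have := congrArg (fun z : torsN J m₀ => (z : J)) hab
      exact Subtype.ext (Subtype.ext (Subtype.ext this))
  have h1 : Nat.card f.ker ≤ C₀ * Nat.card T :=
    (asm_card_le_ker_mul h).trans (Nat.mul_le_mul_right _ hkerh)
  have h2 : Nat.card (torsN J n) = Nat.card (torsN J n ⧸ f.ker) * Nat.card f.ker :=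
    AddSubgroup.card_eq_card_quotient_mul_card_addSubgroup f.ker
  have h3 : Nat.card (torsN J n ⧸ f.ker) = Nat.card f.range :=
    Nat.card_congr (QuotientAddGroup.quotientKerEquivRange f).toEquiv
  have hTpos : 0 < Nat.card T := Nat.card_pos
  have hBpos : 0 < Nat.card f.range := Nat.card_pos
  have hng : 0 < n ^ g := pow_pos hn g
  -- `n ^ g ≤ C₀ * #B`
  have h4 : n ^ g * n ^ g ≤ n ^ g * (C₀ * Nat.card f.range) := by
    calc n ^ g * n ^ g = n ^ (2 * g) := by rw [two_mul, pow_add]
      _ ≤ Nat.card (torsN J n) := hLB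
      _ = Nat.card f.range * Nat.card f.ker := by rw [h2, h3]
      _ ≤ Nat.card f.range * (C₀ * Nat.card T) := Nat.mul_le_mul_left _ h1
      _ ≤ Nat.card f.range * (C₀ * n ^ g) := by gcongr
      _ = n ^ g * (C₀ * Nat.card f.range) := by ring
  have h5 : n ^ g ≤ C₀ * Nat.card f.range := Nat.le_of_mul_le_mul_left h4 hng
  -- the index of `B = range f` in `T`
  have hidx0 : f.range.index ≠ 0 := AddSubgroup.index_ne_zero_of_finite
  have h6 : f.range.index * Nat.card f.range = Nat.card T := AddSubgroup.index_mul_card f.range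
  have hidx : f.range.index ≤ C₀ := by
    have h7 : f.range.index * Nat.card f.range ≤ C₀ * Nat.card f.range := by
      rw [h6]
      exact hTB.trans h5
    exact Nat.le_of_mul_le_mul_right h7 hBpos
  obtain ⟨w, hw⟩ := asm_factorial_nsmul_mem f.range hidx0 hidx (⟨τ₀ • R₀ - R₀, hR₀⟩ : T)
  have hw' : τ₀ • (w : J) - w = C₀.factorial • (τ₀ • R₀ - R₀) := by
    have := congrArg (fun z : T => (z : J)) hw
    simpa [hf] using this
  refine ⟨w, w.2, ?_⟩
  have hτ : τ₀ • (C₀.factorial • R₀ - (w : J)) = C₀.factorial • R₀ - w := by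
    rw [asm_smul_sub, asm_smul_nsmul]
    have e1 : τ₀ • (w : J) = w + C₀.factorial • (τ₀ • R₀ - R₀) := by
      rw [← hw']
      abel
    rw [e1, smul_sub]
    abel
  intro σ hσ
  obtain ⟨k, hk, hkR⟩ := hgen σ hσ
  have e2 : σ • (C₀.factorial • R₀ - (w : J)) = τ₀ ^ k • (C₀.factorial • R₀ - (w : J)) := by
    rw [asm_smul_sub, asm_smul_nsmul, asm_smul_sub, asm_smul_nsmul, hkR, hk w w.2]
  rw [e2, asm_pow_smul_fixed hτ]

end Fermat.Agent.EKp
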