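/-
Cluster E' (Mazur's descent), seat DESC-Kp (sub-architect helper60): DEFINITIONS ONLY.
Blueprint: NOTES/blueprint-E-DESC-Kp.md.

`KpStatement p` : a fixed multiple `m P` of every rational point `P` of `J₀(p)` is divisible by
every `n` prime to `p` inside the points fixed by the inertia group at a place `A` over `p`
(so the Kummer cocycle of `m P` is a coboundary on inertia at `p`).
-/
import Fermat.Prelude.Def_ModularCurve_HeckeModule
import Fermat.Prelude.Def_FLTPrelim_Ramification

set_option autoImplicit false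

noncomputable section

namespace Fermat.Agent.EKp

open ModularCurve AlgebraicCurve

local notation "Qb" => AlgebraicClosure ℚ
local notation "GQb" => (AlgebraicClosure ℚ ≃ₐ[ℚ] AlgebraicClosure ℚ)

/-- **(K-p)**. -/
def KpStatement (p : ℕ) : Prop :=
  ∃ m : ℕ, 0 < m ∧ ∀ A : ValuationSubring Qb, A.LiesOverPrime p →
    ∀ P : JZero p, (∀ σ : GQb, σ • P = P) → ∀ n : ℕ, 0 < n → ¬ p ∣ n →
      ∃ R : JZero p, n • R = m • P ∧ ∀ σ ∈ A.inertiaSubgroupIn ℚ, σ • R = R

/-- the consumer form: every `n`-th root `R'` of `m P` has a Kummer cocycle which is the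
coboundary of an `n`-torsion class on the inertia group. -/
theorem KpStatement.exists_cob {p : ℕ} (h : KpStatement p) :
    ∃ m : ℕ, 0 < m ∧ ∀ A : ValuationSubring Qb, A.LiesOverPrime p →
      ∀ P : JZero p, (∀ σ : GQb, σ • P = P) → ∀ n : ℕ, 0 < n → ¬ p ∣ n →
        ∀ R' : JZero p, n • R' = m • P →
          ∃ w : JZero p, n • w = 0 ∧
            ∀ σ ∈ A.inertiaSubgroupIn ℚ, σ • R' - R' = σ • w - w := by
  obtain ⟨m, hm, h⟩ := h
  refine ⟨m, hm, fun A hA P hP n hn hpn R' hR' => ?_⟩
  obtain ⟨R, hR, hfix⟩ := h A hA P hP n hn hpn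
  refine ⟨R' - R, by rw [nsmul_sub, hR', hR, sub_self], fun σ hσ => ?_⟩
  have h1 : σ • (R' - R) = σ • R' - σ • R :=
    map_sub (DistribSMul.toAddMonoidHom (JZero p) σ) R' R
  rw [h1, hfix σ hσ]
  abel

end Fermat.Agent.EKp
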