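/-
Cluster E' (Mazur's descent), DESC-Kp, leaf KP-GRP (helper10): the toric part `W₀[n]` of the
abstract nodal package (Lib/BadRed/Nodal/Setup.lean) is a subgroup of `Pic⁰[n]`.

* `IsPowRed S n g`     : `g` is, up to a constant, an `n`-th power in the residue field of `S`;
* `isW0Div_zero/add/neg`;
* `w0Sub N n : AddSubgroup (Pic0 K F)` with carrier `N.W0 n`;
* `nsmul_eq_zero_of_mem_W0` : `n • x = 0` for `x ∈ W₀[n]`.
-/
import Fermat.Agent.Lib.BadRed.Nodal.Setup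

set_option autoImplicit false

noncomputable section

open AlgebraicCurve Fermat.Agent.RR Fermat.Agent.Deuring Fermat.Agent.BadRed

namespace Fermat.Agent.EKp

variable {K F k Fk Fk₁ Fk₂ ι : Type*} [Field K] [Field F] [Algebra K F]
  [Field k] [Field Fk] [Algebra k Fk] [Field Fk₁] [Algebra k Fk₁] [Field Fk₂] [Algebra k Fk₂]

/-! ### `n`-th powers in the residue field, up to constants -/

/-- `g` is, up to a constant of `K`, an `n`-th power in the residue field. -/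
def IsPowRed (S : ValSetup K F k Fk) (n : ℕ) (g : F) : Prop :=
  ∃ c : K, c ≠ 0 ∧ ∃ h : Fk, h ≠ 0 ∧ S.red (g / algebraMap K F c) = h ^ n

theorem isPowRed_one (S : ValSetup K F k Fk) (n : ℕ) : IsPowRed S n 1 :=
  ⟨1, one_ne_zero, 1, one_ne_zero, by rw [map_one, div_one, S.red_one, one_pow]⟩

theorem isPowRed_mul (S : ValSetup K F k Fk) {n : ℕ} {g g' : F} (hg : IsPowRed S n g)
    (hg' : IsPowRed S n g') : IsPowRed S n (g * g') := by
  obtain ⟨c, hc, h, hh, hred⟩ := hg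
  obtain ⟨c', hc', h', hh', hred'⟩ := hg'
  have h1 : S.red (g / algebraMap K F c) ≠ 0 := by rw [hred]; exact pow_ne_zero n hh
  have h2 : S.red (g' / algebraMap K F c') ≠ 0 := by rw [hred']; exact pow_ne_zero n hh'
  refine ⟨c * c', mul_ne_zero hc hc', h * h', mul_ne_zero hh hh', ?_⟩
  have e : g * g' / algebraMap K F (c * c') = g / algebraMap K F c * (g' / algebraMap K F c') := by
    rw [map_mul, mul_div_mul_comm]
  rw [e, S.red_mul (S.mem_of_red_ne_zero h1) (S.mem_of_red_ne_zero h2), hred, hred', mul_pow]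

theorem isPowRed_inv (S : ValSetup K F k Fk) {n : ℕ} {g : F} (hg : IsPowRed S n g) :
    IsPowRed S n g⁻¹ := by
  obtain ⟨c, hc, h, hh, hred⟩ := hg
  have h1 : S.red (g / algebraMap K F c) ≠ 0 := by rw [hred]; exact pow_ne_zero n hh
  refine ⟨c⁻¹, inv_ne_zero hc, h⁻¹, inv_ne_zero hh, ?_⟩
  have e : g⁻¹ / algebraMap K F c⁻¹ = (g / algebraMap K F c)⁻¹ := by
    rw [map_inv₀, inv_div_inv, inv_div]
  rw [e, S.red_inv (S.mem_of_red_ne_zero h1) (S.inv_mem_of_red_ne_zero h1)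
    (S.ne_zero_of_red_ne_zero h1), hred, inv_pow]

variable (N : NodalSetup K F k Fk₁ Fk₂ ι)

theorem isW0Div_iff {n : ℕ} {D : Divisor K F} :
    N.IsW0Div n D ↔ ∃ g : F, g ≠ 0 ∧ (∀ P : Place K F, P.ord g = n * D P) ∧
      IsPowRed N.S₁ n g ∧ IsPowRed N.S₂ n g :=
  Iff.rfl

/-! ### `W₀`-divisors form a group -/

theorem isW0Div_zero (n : ℕ) : N.IsW0Div n 0 :=
  ⟨1, one_ne_zero, fun P => by rw [Place.ord_one, Finsupp.zero_apply, mul_zero],
    isPowRed_one N.S₁ n, isPowRed_one N.S₂ n⟩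

theorem isW0Div_add {n : ℕ} {D D' : Divisor K F} (hD : N.IsW0Div n D) (hD' : N.IsW0Div n D') :
    N.IsW0Div n (D + D') := by
  obtain ⟨g, hg, hord, h1, h2⟩ := hD
  obtain ⟨g', hg', hord', h1', h2'⟩ := hD'
  refine ⟨g * g', mul_ne_zero hg hg', fun P => ?_, isPowRed_mul N.S₁ h1 h1',
    isPowRed_mul N.S₂ h2 h2'⟩
  rw [Place.ord_mul P hg hg', hord P, hord' P, Finsupp.add_apply, mul_add]

theorem isW0Div_neg {n : ℕ} {D : Divisor K F} (hD : N.IsW0Div n D) : N.IsW0Div n (-D) := by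
  obtain ⟨g, hg, hord, h1, h2⟩ := hD
  refine ⟨g⁻¹, inv_ne_zero hg, fun P => ?_, isPowRed_inv N.S₁ h1, isPowRed_inv N.S₂ h2⟩
  rw [Place.ord_inv, hord P, Finsupp.neg_apply, mul_neg]

/-- a `W₀`-divisor for the exponent `n` is killed by `n` modulo principal divisors. -/
theorem nsmul_mem_principal_of_isW0Div {n : ℕ} {D : Divisor K F} (hD : N.IsW0Div n D) :
    n • D ∈ Divisor.principal (K := K) (F := F) := by
  obtain ⟨g, hg, hord, -, -⟩ := hD
  refine ⟨g, hg, fun v => ?_⟩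
  rw [hord v, Finsupp.smul_apply, nsmul_eq_mul]

/-! ### the subgroup `W₀[n]` of `Pic⁰` -/

/-- **KP-GRP**: the toric part `W₀[n]`, as a subgroup of `Pic⁰`. -/
def w0Sub (n : ℕ) : AddSubgroup (Pic0 K F) where
  carrier := N.W0 n
  zero_mem' := ⟨0, Pic0.mk_zero, isW0Div_zero N n⟩
  add_mem' := by
    rintro _ _ ⟨D, rfl, hD⟩ ⟨D', rfl, hD'⟩
    exact ⟨D + D', Pic0.mk_add D D', isW0Div_add N hD hD'⟩
  neg_mem' := by
    rintro _ ⟨D, rfl, hD⟩
    exact ⟨-D, rfl, isW0Div_neg N hD⟩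

@[simp]
theorem mem_w0Sub {n : ℕ} {x : Pic0 K F} : x ∈ w0Sub N n ↔ x ∈ N.W0 n := Iff.rfl

theorem coe_w0Sub (n : ℕ) : ((w0Sub N n : AddSubgroup (Pic0 K F)) : Set (Pic0 K F)) = N.W0 n :=
  rfl

/-- `W₀[n]` is killed by `n`. -/
theorem nsmul_eq_zero_of_mem_W0 {n : ℕ} {x : Pic0 K F} (hx : x ∈ N.W0 n) : n • x = 0 := by
  obtain ⟨D, rfl, hD⟩ := hx
  have h1 : n • Pic0.mk D = Pic0.mk (n • D) := rfl
  rw [h1]
  unfold Pic0.mk
  rw [QuotientAddGroup.eq_zero_iff, AddSubgroup.mem_addSubgroupOf]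
  have e : ((n • D : Divisor.degZero (K := K) (F := F)) : Divisor K F) = n • (D : Divisor K F) :=
    AddSubgroup.coe_nsmul _ _ _
  rw [e]
  exact nsmul_mem_principal_of_isW0Div N hD

/-- `W₀[n] ⊆ Pic⁰[n]`. -/
theorem w0Sub_le_torsion (n : ℕ) : w0Sub N n ≤ Pic0.torsion K F n := by
  intro x hx
  rw [Pic0.mem_torsion, natCast_zsmul]
  exact nsmul_eq_zero_of_mem_W0 N hx

end Fermat.Agent.EKp
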