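/-
Cluster E' (Mazur's descent), DESC-Kp, leaf KP-E1D (helper10): division points of inertia-fixed
classes move by the toric part.

`N` a nodal package, `t` an inertial semilinear automorphism, `D` a divisor with `t D = D`,
`n D₀ = D + div g`.  Then `t D₀ - D₀` is a `W₀`-divisor for the exponent `n`:
`n (t D₀ - D₀) = div (t g / g)`, and for `c ∈ Kˣ` with `g / c` a unit of the valuation ring,
`(t g / g) / (t c / c) = t (g / c) / (g / c)` reduces to `1`.

* `isW0Div_smul_sub`   : divisor form;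
* `smul_sub_mem_W0`    : in `Pic⁰`: `n • R = [D]`, `t D = D`  ⟹  `t • R - R ∈ W₀[n]`;
* `smul_sub_mem_W0_of_torsion` : the torsion case `D = 0` (T1).
-/
import Fermat.Agent.Lib.BadRed.Nodal.ToricKeyDef
import Fermat.Agent.E.Desc.Kp.W0Grp

set_option autoImplicit false

noncomputable section

open AlgebraicCurve Fermat.Agent.RR Fermat.Agent.Deuring Fermat.Agent.BadRed

namespace Fermat.Agent.EKp

variable {K F k Fk Fk₁ Fk₂ ι : Type*} [Field K] [Field F] [Algebra K F]
  [Field k] [Field Fk] [Algebra k Fk] [Field Fk₁] [Algebra k Fk₁] [Field Fk₂] [Algebra k Fk₂]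

/-- `v.ord (t • f) = (t⁻¹ • v).ord f`. -/
theorem e1_ord_smul (t : SemilinearAut K F) (v : Place K F) (f : F) :
    v.ord (t • f) = (t⁻¹ • v).ord f := by
  have h := SemilinearAut.ord_smul t (t⁻¹ • v) f
  rw [smul_inv_smul] at h
  exact h

/-- If `t` preserves the valuation ring and the reduction, then `t g / g` is, up to a constant,
the `n`-th power of `1` in the residue field. -/
theorem isPowRed_smul_div (S : ValSetup K F k Fk) (t : SemilinearAut K F)
    (hmem : ∀ f : F, f ∈ S.Ov → t • f ∈ S.Ov)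
    (hred : ∀ f : F, f ∈ S.Ov → S.red (t • f) = S.red f) (n : ℕ) {g : F} (hg : g ≠ 0) :
    IsPowRed S n (t • g * g⁻¹) := by
  obtain ⟨c, hc, hu⟩ := S.exists_scale hg
  set u : F := c⁻¹ • g with hudef
  have huO : u ∈ S.Ov := S.mem_of_red_ne_zero hu
  have huO' : u⁻¹ ∈ S.Ov := S.inv_mem_of_red_ne_zero hu
  have hu0 : u ≠ 0 := S.ne_zero_of_red_ne_zero hu
  have htu : t • u ∈ S.Ov := hmem u huO
  have hbc : SemilinearAut.baseAut t c ≠ 0 := by
    intro h
    exact hc ((map_eq_zero_iff _ (SemilinearAut.baseAut t).injective).1 h)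
  have hcF : algebraMap K F c ≠ 0 := by
    rw [Ne, map_eq_zero_iff _ (algebraMap K F).injective]
    exact hc
  have hbcF : algebraMap K F (SemilinearAut.baseAut t c) ≠ 0 := by
    rw [Ne, map_eq_zero_iff _ (algebraMap K F).injective]
    exact hbc
  -- `t • u = (t c)⁻¹ (t • g)`
  have e1 : t • u = (algebraMap K F (SemilinearAut.baseAut t c))⁻¹ * t • g := by
    rw [hudef, Algebra.smul_def, smul_mul', map_inv₀, smul_inv'', SemilinearAut.smul_algebraMap]
  have e2 : u⁻¹ = algebraMap K F c * g⁻¹ := by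
    rw [hudef, Algebra.smul_def, map_inv₀, mul_inv, inv_inv]
  refine ⟨SemilinearAut.baseAut t c / c, div_ne_zero hbc hc, 1, one_ne_zero, ?_⟩
  have e3 : t • g * g⁻¹ / algebraMap K F (SemilinearAut.baseAut t c / c) = t • u * u⁻¹ := by
    rw [e1, e2, map_div₀]
    field_simp
  rw [e3, S.red_mul htu huO', hred u huO, S.red_inv huO huO' hu0, mul_inv_cancel₀ hu, one_pow]

variable (N : NodalSetup K F k Fk₁ Fk₂ ι)

/-- **KP-E1D**, divisor form. -/
theorem isW0Div_smul_sub {n : ℕ} {t : SemilinearAut K F} (ht : N.IsInertial t)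
    {D D₀ : Divisor K F} (hD : t • D = D) {g : F} (hg : g ≠ 0)
    (hdiv : ∀ P : Place K F, P.ord g = n * D₀ P - D P) :
    N.IsW0Div n (t • D₀ - D₀) := by
  refine ⟨t • g * g⁻¹, mul_ne_zero ?_ (inv_ne_zero hg), fun P => ?_,
    isPowRed_smul_div N.S₁ t ht.mem₁ ht.red₁ n hg, isPowRed_smul_div N.S₂ t ht.mem₂ ht.red₂ n hg⟩
  · intro h
    apply hg
    have := congrArg (fun x => t⁻¹ • x) h
    simpa using this
  · have htg : t • g ≠ 0 := by
      intro h
      apply hg
      have := congrArg (fun x => t⁻¹ • x) h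
      simpa using this
    have hDP : D (t⁻¹ • P) = D P := by
      rw [← SemilinearAut.divisor_smul_apply, hD]
    rw [Place.ord_mul P htg (inv_ne_zero hg), Place.ord_inv, e1_ord_smul, hdiv, hdiv, hDP,
      Finsupp.sub_apply, SemilinearAut.divisor_smul_apply]
    ring

/-- **KP-E1D** in `Pic⁰`: if `n • R` is the class of a `t`-fixed divisor of degree `0`, then
`t • R - R` lies in the toric part `W₀[n]`. -/
theorem smul_sub_mem_W0 {n : ℕ} {t : SemilinearAut K F} (ht : N.IsInertial t)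
    (D : Divisor.degZero (K := K) (F := F)) (hD : t • (D : Divisor K F) = D)
    (R : Pic0 K F) (hR : n • R = Pic0.mk D) : t • R - R ∈ N.W0 n := by
  obtain ⟨D₀, rfl⟩ := Pic0.mk_surjective R
  -- `n D₀ - D` is principal
  have h1 : n • Pic0.mk D₀ = Pic0.mk (n • D₀) := rfl
  rw [h1] at hR
  unfold Pic0.mk at hR
  rw [QuotientAddGroup.eq, AddSubgroup.mem_addSubgroupOf] at hR
  obtain ⟨g₀, hg₀, hdiv₀⟩ := hR
  have hdiv : ∀ P : Place K F, P.ord g₀⁻¹ = n * (D₀ : Divisor K F) P - (D : Divisor K F) P := by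
    intro P
    have := hdiv₀ P
    simp only [AddSubgroup.coe_add, NegMemClass.coe_neg, AddSubgroup.coe_nsmul,
      Finsupp.add_apply, Finsupp.neg_apply, Finsupp.smul_apply, nsmul_eq_mul] at this
    rw [Place.ord_inv, ← this]
    ring
  have hW := isW0Div_smul_sub N ht hD (inv_ne_zero hg₀) hdiv
  refine ⟨SemilinearAut.degZeroSMulHom t D₀ - D₀, ?_, ?_⟩
  · rw [SemilinearAut.pic0_smul_mk]
    rfl
  · have e : ((SemilinearAut.degZeroSMulHom t D₀ - D₀ : Divisor.degZero (K := K) (F := F)) :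
        Divisor K F) = t • (D₀ : Divisor K F) - (D₀ : Divisor K F) := by
      rw [AddSubgroup.coe_sub, SemilinearAut.coe_degZeroSMulHom]
    rw [e]
    exact hW

/-- the torsion case (T1): inertial automorphisms move `n`-torsion classes by `W₀[n]`. -/
theorem smul_sub_mem_W0_of_torsion {n : ℕ} {t : SemilinearAut K F} (ht : N.IsInertial t)
    (w : Pic0 K F) (hw : n • w = 0) : t • w - w ∈ N.W0 n :=
  smul_sub_mem_W0 N ht 0 (by rw [AddSubgroup.coe_zero, smul_zero]) w (by rw [hw]; rfl)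

end Fermat.Agent.EKp
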