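/-
Cluster E' (Mazur's descent), seat DESC-Kp, leaf KP-MOD part 1 (helper19): the TAME generator.

`J` an abelian group with an action of `G_ℚ`, `A` a place of `ℚ̄` over `p`, `I` its inertia group,
`Y ⊆ J` a finite `G_ℚ`-stable set of points with open stabilisers, `T ≤ J` a subgroup killed by
`n` (`p ∤ n`) and fixed pointwise by `I`, such that `σ y - y ∈ T` for `σ ∈ I`, `y ∈ Y`.  Then `I`
acts on `Y` through the powers of ONE element `τ₀ ∈ I`.

This is the hypothesis `hgen` of `kp_abstract` (`Asm.lean`), with `Y = {y | n y = 0 ∨ n y = P}`.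
Proof: the image of `σ ∈ I` in `Perm Y` is killed by `n`, so tame inertia
(`TameInertia.tame_inertia`) applies.
-/
import Mathlib
import Fermat.Agent.Lib.TameInertia.Main

set_option autoImplicit false
set_option linter.style.haveILetI false

namespace Fermat.Agent.EKp

local notation "Qb" => AlgebraicClosure ℚ
local notation "GQb" => (AlgebraicClosure ℚ ≃ₐ[ℚ] AlgebraicClosure ℚ)

variable {J : Type*} [AddCommGroup J] [DistribMulAction GQb J]

/-- if `σ` fixes `σ y - y` then `σ ^ k y = y + k (σ y - y)`. -/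
theorem tg_pow_smul (σ : GQb) (y : J) (h : σ • (σ • y - y) = σ • y - y) (k : ℕ) :
    σ ^ k • y = y + k • (σ • y - y) := by
  induction k with
  | zero => simp
  | succ k ih =>
    have e : σ • (k • (σ • y - y)) = k • (σ • y - y) := by
      rw [← DistribSMul.toAddMonoidHom_apply, map_nsmul, DistribSMul.toAddMonoidHom_apply, h]
    rw [pow_succ', mul_smul, ih, smul_add, e, succ_nsmul]
    abel

/-- **the tame generator.** -/
theorem kp_tame_gen (p : ℕ) (hp : p.Prime) (A : ValuationSubring Qb) (hA : A.LiesOverPrime p)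
    {n : ℕ} (hpn : ¬ p ∣ n) (Y : Set J) (hYfin : Y.Finite)
    (hYG : ∀ σ : GQb, ∀ y ∈ Y, σ • y ∈ Y)
    (hopen : ∀ y ∈ Y, ∃ L : IntermediateField ℚ Qb, FiniteDimensional ℚ L ∧
      ∀ σ : GQb, (∀ a ∈ L, σ a = a) → σ • y = y)
    (T : AddSubgroup J) (hTn : ∀ x ∈ T, n • x = 0)
    (hTfix : ∀ σ ∈ A.inertiaSubgroupIn ℚ, ∀ x ∈ T, σ • x = x)
    (hE1 : ∀ σ ∈ A.inertiaSubgroupIn ℚ, ∀ y ∈ Y, σ • y - y ∈ T) :
    ∃ τ₀ ∈ A.inertiaSubgroupIn ℚ, ∀ σ ∈ A.inertiaSubgroupIn ℚ,
      ∃ k : ℕ, ∀ y ∈ Y, σ • y = τ₀ ^ k • y := by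
  classical
  let Ys : SubMulAction GQb J :=
    { carrier := Y
      smul_mem' := fun σ y hy => hYG σ y hy }
  have hYs : ∀ y : J, y ∈ Ys ↔ y ∈ Y := fun _ => Iff.rfl
  haveI : Finite Ys := hYfin.to_subtype
  let χ : GQb →* Equiv.Perm Ys := MulAction.toPermHom GQb Ys
  have hχ : ∀ (σ : GQb) (y : Ys), ((χ σ y : Ys) : J) = σ • (y : J) := fun _ _ => rfl
  -- the kernel of `χ` is open
  have hopen' : IsOpen (χ.ker : Set GQb) := by
    choose L hLfd hL using fun y : Ys => hopen (y : J) y.2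
    haveI : ∀ y : Ys, FiniteDimensional ℚ (L y) := hLfd
    let E : IntermediateField ℚ Qb := ⨆ y : Ys, L y
    haveI : FiniteDimensional ℚ E := IntermediateField.finiteDimensional_iSup_of_finite
    refine Subgroup.isOpen_mono ?_ (IntermediateField.fixingSubgroup_isOpen E)
    intro σ hσ
    rw [MonoidHom.mem_ker]
    ext y
    rw [hχ]
    refine hL y σ fun a ha => ?_
    have haE : a ∈ E := (le_iSup L y) ha
    exact (IntermediateField.mem_fixingSubgroup_iff E σ).mp hσ a haE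
  -- the image of inertia is killed by `n`
  have hcop : ∀ σ ∈ A.inertiaSubgroupIn ℚ, (orderOf (χ σ)).Coprime p := by
    intro σ hσ
    have h1 : (χ σ) ^ n = 1 := by
      ext y
      rw [← map_pow, hχ,
        tg_pow_smul σ (y : J) (hTfix σ hσ _ (hE1 σ hσ (y : J) y.2)) n,
        hTn _ (hE1 σ hσ (y : J) y.2), add_zero]
      rfl
    have h2 := orderOf_dvd_of_pow_eq_one h1
    exact Nat.Coprime.coprime_dvd_left h2 ((Nat.Prime.coprime_iff_not_dvd hp).mpr hpn).symm
  obtain ⟨⟨τ₀, hτ₀, hgen⟩, -⟩ :=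
    Fermat.Agent.TameInertia.tame_inertia χ hopen' p hp A hA hcop
  refine ⟨τ₀, hτ₀, fun σ hσ => ?_⟩
  obtain ⟨k, hk⟩ := hgen σ hσ
  refine ⟨k, fun y hy => ?_⟩
  have h3 : χ σ ⟨y, hy⟩ = (χ τ₀ ^ k) ⟨y, hy⟩ := by rw [hk]
  rw [← map_pow] at h3
  have h4 := congrArg (fun z : Ys => (z : J)) h3
  simpa only [hχ] using h4

end Fermat.Agent.EKp
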