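/-
Cluster E' (Mazur's descent), seat DESC-Kp, leaf KP-MOD part 2 (helper19): from the local inputs
at the places `A | p` to `KpStatement`.

* `jzero_open_stab` : every point of `J₀(N)(ℚ̄)` has open stabiliser;
* `KpAt M p` : the statement (K-p) for `J₀(M)` at the prime `p` (`KpStatement p = KpAt p p`);
  `kpAt_cast` : transport along `M = M'`;
* `KpInputs M A n m₀ g` : the inputs at ONE place `A` and ONE exponent `n`: a subgroup `T` of
  `J₀(M)[n]` ("toric part") with (TK), (E1D), (FTT), (TB);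
* `kpAt_of_inputs` : (K-p) from the inputs at every `A | p`, `p ∤ n`, and the lower bound (LB).
  The tame generator is `kp_tame_gen`, the counting is `kp_abstract` (helper60), divisibility is
  `Div.jZero_divisible`, finiteness of torsion is `F3TF.torsionFinite`.
-/
import Mathlib
import Fermat.Agent.E.Desc.Kp.Defs
import Fermat.Agent.E.Desc.Kp.Asm
import Fermat.Agent.E.Desc.Kp.TameGen
import Fermat.Agent.S17.Pts.Orbit
import Fermat.Agent.Lib.Div.Inst
import Fermat.Agent.F3.TorsFin.Final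

set_option autoImplicit false
set_option linter.style.haveILetI false

noncomputable section

namespace Fermat.Agent.EKp

open ModularCurve AlgebraicCurve

local notation "Qb" => AlgebraicClosure ℚ
local notation "GQb" => (AlgebraicClosure ℚ ≃ₐ[ℚ] AlgebraicClosure ℚ)

/-! ### open stabilisers -/

/-- every divisor of `X₀(N)` over `ℚ̄` has open stabiliser. -/
theorem divisor_open_stab (N : ℕ) [NeZero N] (D : Divisor Qb (modularFunctionFieldBar N)) :
    ∃ L : IntermediateField ℚ Qb, FiniteDimensional ℚ L ∧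
      ∀ σ : GQb, (∀ a ∈ L, σ a = a) →
        arithmeticGalois (modularFunctionFieldFull N) σ • D = D := by
  classical
  induction D using Finsupp.induction with
  | zero => exact ⟨⊥, inferInstance, fun σ _ => smul_zero _⟩
  | single_add P m D _ _ ih =>
    obtain ⟨L₁, hL₁, h₁⟩ := Fermat.Agent.S17.Pts.galPlace_open_stab N P
    obtain ⟨L₂, hL₂, h₂⟩ := ih
    haveI := hL₁
    haveI := hL₂
    refine ⟨L₁ ⊔ L₂, IntermediateField.finiteDimensional_sup L₁ L₂, fun σ hσ => ?_⟩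
    have e₁ : arithmeticGalois (modularFunctionFieldFull N) σ • P = P :=
      h₁ σ fun a ha => hσ a ((le_sup_left : L₁ ≤ L₁ ⊔ L₂) ha)
    have e₂ := h₂ σ fun a ha => hσ a ((le_sup_right : L₂ ≤ L₁ ⊔ L₂) ha)
    rw [smul_add, SemilinearAut.smul_single, e₁, e₂]

/-- every point of `J₀(N)(ℚ̄)` has open stabiliser. -/
theorem jzero_open_stab (N : ℕ) [NeZero N] (x : JZero N) :
    ∃ L : IntermediateField ℚ Qb, FiniteDimensional ℚ L ∧
      ∀ σ : GQb, (∀ a ∈ L, σ a = a) → σ • x = x := by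
  obtain ⟨D, rfl⟩ := Pic0.mk_surjective x
  obtain ⟨L, hL, h⟩ := divisor_open_stab N (D : Divisor Qb (modularFunctionFieldBar N))
  refine ⟨L, hL, fun σ hσ => ?_⟩
  show arithmeticGalois (modularFunctionFieldFull N) σ • Pic0.mk D = Pic0.mk D
  rw [SemilinearAut.pic0_smul_mk]
  exact congrArg Pic0.mk (Subtype.ext (h σ hσ))

/-! ### the statement at a level `M` -/

/-- **(K-p)** for `J₀(M)` at the prime `p`. -/
def KpAt (M p : ℕ) : Prop :=
  ∃ m : ℕ, 0 < m ∧ ∀ A : ValuationSubring Qb, A.LiesOverPrime p →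
    ∀ P : JZero M, (∀ σ : GQb, σ • P = P) → ∀ n : ℕ, 0 < n → ¬ p ∣ n →
      ∃ R : JZero M, n • R = m • P ∧ ∀ σ ∈ A.inertiaSubgroupIn ℚ, σ • R = R

theorem kpStatement_of_kpAt {p : ℕ} (h : KpAt p p) : KpStatement p := h

theorem kpAt_cast {M M' p : ℕ} (h : M = M') (hM : KpAt M p) : KpAt M' p := by
  subst h
  exact hM

/-- the inputs of (K-p) at one place `A` and one exponent `n`. -/
structure KpInputs (M : ℕ) (A : ValuationSubring Qb) (n m₀ g : ℕ) where
  /-- the toric part of `J₀(M)[n]` -/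
  T : AddSubgroup (JZero M)
  /-- it is killed by `n` -/
  hTn : ∀ x ∈ T, n • x = 0
  /-- (TK) inertia acts trivially on it -/
  hTfix : ∀ σ ∈ A.inertiaSubgroupIn ℚ, ∀ x ∈ T, σ • x = x
  /-- (E1D) inertia moves the `n`-th roots of rational points by toric classes -/
  hE1 : ∀ σ ∈ A.inertiaSubgroupIn ℚ, ∀ y : JZero M, (∀ τ : GQb, τ • (n • y) = n • y) →
    σ • y - y ∈ T
  /-- (FTT) fixed torsion is toric up to `m₀` -/
  hFTT : ∀ x : JZero M, n • x = 0 → (∀ σ ∈ A.inertiaSubgroupIn ℚ, σ • x = x) → m₀ • x ∈ T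
  /-- (TB) the toric bound -/
  hTB : Nat.card T ≤ n ^ g

/-- **(K-p) from the inputs.** -/
theorem kpAt_of_inputs (M p : ℕ) [NeZero M] (hp : p.Prime) {m₀ g : ℕ} (hm₀ : 0 < m₀)
    (hLB : ∀ n : ℕ, 0 < n → ¬ p ∣ n → n ^ (2 * g) ≤ Nat.card (torsN (JZero M) n))
    (hin : ∀ A : ValuationSubring Qb, A.LiesOverPrime p → ∀ n : ℕ, 0 < n → ¬ p ∣ n →
      Nonempty (KpInputs M A n m₀ g)) :
    KpAt M p := by
  classical
  have hfin : ∀ n : ℕ, 0 < n → Finite (torsN (JZero M) n) := fun n hn =>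
    (Fermat.Agent.F3TF.torsionFinite M n hn).to_subtype
  haveI := hfin m₀ hm₀
  refine ⟨(Nat.card (torsN (JZero M) m₀)).factorial, Nat.factorial_pos _, ?_⟩
  intro A hA P hP n hn hpn
  obtain ⟨inp⟩ := hin A hA n hn hpn
  haveI := hfin n hn
  obtain ⟨R₀, hR₀⟩ := Fermat.Agent.Div.jZero_divisible M n hn P
  -- the finite set `Y`
  let Y : Set (JZero M) := {y | n • y = 0 ∨ n • y = P}
  have hYfin : Y.Finite := by
    have h1 : {y : JZero M | n • y = 0}.Finite := Fermat.Agent.F3TF.torsionFinite M n hn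
    have h2 : {y : JZero M | n • y = P}.Finite := by
      refine (h1.image fun w => R₀ + w).subset fun y hy => ?_
      refine ⟨y - R₀, ?_, add_sub_cancel R₀ y⟩
      show n • (y - R₀) = 0
      rw [nsmul_sub, show n • y = P from hy, hR₀, sub_self]
    exact h1.union h2
  have hsm : ∀ (σ : GQb) (m : ℕ) (y : JZero M), σ • (m • y) = m • (σ • y) := fun σ m y =>
    asm_smul_nsmul σ m y
  have hs0 : ∀ σ : GQb, σ • (0 : JZero M) = 0 := fun σ =>
    map_zero (DistribSMul.toAddMonoidHom (JZero M) σ)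
  have hYG : ∀ σ : GQb, ∀ y ∈ Y, σ • y ∈ Y := by
    rintro σ y (hy | hy)
    · left
      show n • (σ • y) = 0
      rw [← hsm, hy, hs0]
    · right
      show n • (σ • y) = P
      rw [← hsm, hy, hP σ]
  have hrat : ∀ y ∈ Y, ∀ τ : GQb, τ • (n • y) = n • y := by
    rintro y (hy | hy) τ
    · rw [hy, hs0]
    · rw [hy, hP τ]
  obtain ⟨τ₀, hτ₀, hgen⟩ := kp_tame_gen p hp A hA hpn Y hYfin hYG
    (fun y _ => jzero_open_stab M y) inp.T inp.hTn inp.hTfix
    (fun σ hσ y hy => inp.hE1 σ hσ y (hrat y hy))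
  have hR₀Y : R₀ ∈ Y := Or.inr hR₀
  obtain ⟨w, hw, hfix⟩ := kp_abstract (G := GQb) (J := JZero M) (A.inertiaSubgroupIn ℚ)
    (n := n) (m₀ := m₀) (g := g) hn inp.T (fun x hx => mem_torsN.mpr (inp.hTn x hx))
    (fun σ hσ w hw => inp.hE1 σ hσ w (fun τ => by rw [mem_torsN.mp hw, hs0]))
    (fun x hx hfx => inp.hFTT x (mem_torsN.mp hx) hfx)
    inp.hTB (hLB n hn hpn) R₀ τ₀ hτ₀ (inp.hE1 τ₀ hτ₀ R₀ (hrat R₀ hR₀Y))
    (fun σ hσ => by
      obtain ⟨k, hk⟩ := hgen σ hσ
      exact ⟨k, fun w hw => hk w (Or.inl (mem_torsN.mp hw)), hk R₀ hR₀Y⟩)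
  refine ⟨(Nat.card (torsN (JZero M) m₀)).factorial • R₀ - w, ?_, hfix⟩
  rw [nsmul_sub, mem_torsN.mp hw, sub_zero, smul_comm, hR₀]

end Fermat.Agent.EKp
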