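import Fermat.Agent.E.Desc.Kp.OrdToric
import Fermat.Agent.E.Desc.Kp.FTT

/-!
# DESC-Kp: `OrdToric` (the shape consumed by `ftt`) from KP-ORDT
-/

set_option autoImplicit false

noncomputable section

open AlgebraicCurve Fermat.Agent.RR Fermat.Agent.Deuring Fermat.Agent.BadRed

namespace Fermat.Agent.EKp

variable {K F k Fk₁ Fk₂ : Type*} [Field K] [Field F] [Algebra K F]
  [Field k] [Field Fk₁] [Algebra k Fk₁] [Field Fk₂] [Algebra k Fk₂] {ι : Type*} [Fintype ι]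

/-- **ORDT** in the shape of `FTT.lean`: `OrdToric N n d` for `d = ∑ ε i`, every `n`. -/
theorem ordToric_of_uData (N : NodalSetup K F k Fk₁ Fk₂ ι)
    (hg₁ : genusFF k Fk₁ = 0) (hg₂ : genusFF k Fk₂ = 0)
    {u : F} {ϖ : K} (ε : ι → ℕ) (hu0 : u ≠ 0) (hϖ : ϖ ≠ 0)
    (hu₁ : u ∈ N.S₁.Ov) (hu₁' : u⁻¹ ∈ N.S₁.Ov)
    (hw₂ : algebraMap K F ϖ * u⁻¹ ∈ N.S₂.Ov) (hw₂' : (algebraMap K F ϖ * u⁻¹)⁻¹ ∈ N.S₂.Ov)
    (hε₁ : ∀ i, (N.s₁ i).ord (N.S₁.red u) = ε i)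
    (hε₂ : ∀ i, (N.s₂ i).ord (N.S₂.red (algebraMap K F ϖ * u⁻¹)) = ε i)
    (hord : ∀ P : Place K F, N.r P = none → P.ord u = 0)
    (hR1 : ∀ c : K, c ≠ 0 → ∃ (b : ℕ) (a : ℤ), 0 < b ∧
      N.S₁.A.valuation (c ^ b) = N.S₁.A.valuation (ϖ ^ a))
    (n : ℕ) : OrdToric N n (∑ i, ε i) := by
  intro D' _ hD' hprin
  obtain ⟨g, hg, hgD⟩ := hprin
  refine isW0Div_of_ordinary N hg₁ hg₂ ε hu0 hϖ hu₁ hu₁' hw₂ hw₂' hε₁ hε₂ hord hR1 hD' hg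
    (fun P => ?_)
  rw [← hgD P, Finsupp.smul_apply, nsmul_eq_mul]

end Fermat.Agent.EKp
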