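/-
Cluster E' (Mazur's descent), seat DESC-Kp (helper4): the `u`-data of the seed `seedOfU`.

* `slopeData_of` : the hypotheses of `seedOfU` on `(C, u, ϖ)` give `SlopeData C.S₁ C.S₂ u ϖ`
  (the degree inequalities (H2) are equalities, by the fundamental inequality);
* `annulusData_of` : a nodal seed `N` with `D₀ = (u + ϖ / u)_∞` whose nodes are the zeros of
  `red₁ u` resp. `red₂ (ϖ / u)` satisfies `AnnulusData N u ϖ`;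
* `slopeData_seedOfU`, `annulusData_seedOfU` : both for `N = seedOfU C u ϖ ..`;
* `annFix_seedOfU` : `AnnFix` for `seedOfU`, from (VI) alone.
-/
import Mathlib
import Fermat.Agent.E.Desc.Kp.AnnFix
import Fermat.Agent.Lib.BadRed.Mod.SeedOfU
import Fermat.Agent.Lib.Deuring.FundIneq

set_option autoImplicit false
set_option linter.unusedSectionVars false
set_option linter.style.haveILetI false

noncomputable section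

namespace Fermat.Agent.EKp

open AlgebraicCurve Fermat.Agent.RR Fermat.Agent.Deuring Fermat.Agent.BadRed Fermat.Agent.FF
  IntermediateField Fermat.Agent.BadRed.SeedPoles Fermat.Agent.BadRed.SeedNode

variable {K F k Fk₁ Fk₂ : Type*} [Field K] [Field F] [Algebra K F]
  [Field k] [Field Fk₁] [Algebra k Fk₁] [Field Fk₂] [Algebra k Fk₂] {ι : Type*}

/-- `(ϖ / u)_∞ = (u⁻¹)_∞`. -/
theorem sd_poleDiv_div (h : IsRRField K F) {ϖ : K} (hϖ0 : ϖ ≠ 0) (u : F) :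
    poleDiv h (algebraMap K F ϖ / u) = poleDiv h u⁻¹ := by
  ext v
  refine poleDiv_eq_of_adicValuation_eq h v ?_
  rw [adicValuation_div_const v hϖ0 u, map_inv₀]

/-- `deg (ϖ / u)_∞ = [F : K(u)]`. -/
theorem sd_degree_poleDiv_div (h : IsRRField K F) {ϖ : K} (hϖ0 : ϖ ≠ 0) {u : F}
    (hu : Transcendental K u) [FiniteDimensional K⟮u⟯ F] :
    Divisor.degree (poleDiv h (algebraMap K F ϖ / u)) = (Module.finrank K⟮u⟯ F : ℤ) := by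
  rw [sd_poleDiv_div h hϖ0 u, degree_poleDiv_inv,
    Fermat.Agent.RRHur.degree_poleDiv_eq_finrank h hu]

/-- a nonzero element of the maximal ideal of `A` has valuation `< 1`. -/
theorem sd_val_lt_one {Fk : Type*} [Field Fk] [Algebra k Fk] (S : ValSetup K F k Fk) {ϖ : K}
    (hϖ0 : ϖ ≠ 0) (hϖ : ϖ ∈ S.A) (hϖres : S.res ⟨ϖ, hϖ⟩ = 0) : S.A.valuation ϖ < 1 :=
  (an_val_lt_one_iff S.A hϖ0).mpr ⟨hϖ, inv_notMem_of_res_eq_zero S hϖ0 hϖ hϖres⟩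

/-- **the `u`-data of SLOPE** from the hypotheses of `seedOfU`. -/
theorem slopeData_of (C : NodalCore K F k Fk₁ Fk₂ ι) {u : F} {ϖ : K}
    (hϖ0 : ϖ ≠ 0) (hϖ : ϖ ∈ C.S₁.A) (hϖres : C.S₁.res ⟨ϖ, hϖ⟩ = 0)
    (hu₁ : u ∈ C.S₁.Ov) (hubar₁ : Transcendental k (C.S₁.red u))
    (hu₂ : algebraMap K F ϖ / u ∈ C.S₂.Ov)
    (hubar₂ : Transcendental k (C.S₂.red (algebraMap K F ϖ / u)))
    [FiniteDimensional K⟮u⟯ F] [FiniteDimensional k⟮C.S₁.red u⟯ Fk₁]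
    [FiniteDimensional k⟮C.S₂.red (algebraMap K F ϖ / u)⟯ Fk₂]
    (hdeg₁ : Module.finrank K⟮u⟯ F ≤ Module.finrank k⟮C.S₁.red u⟯ Fk₁)
    (hdeg₂ : Module.finrank K⟮u⟯ F ≤ Module.finrank k⟮C.S₂.red (algebraMap K F ϖ / u)⟯ Fk₂) :
    SlopeData C.S₁ C.S₂ u ϖ := by
  have htr : Transcendental K u := SeedNode.sn_transcendental_of_red C.S₁ hu₁ hubar₁
  refine ⟨C.A_eq, hϖ0, sd_val_lt_one C.S₁ hϖ0 hϖ hϖres, hu₁, hubar₁, hu₂, hubar₂,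
    le_antisymm hdeg₁ ?_, le_antisymm hdeg₂ ?_⟩
  · have h1 := degree_poleDiv_red_le C.S₁ hu₁ hubar₁
    rw [Fermat.Agent.RRHur.degree_poleDiv_eq_finrank C.S₁.hFk hubar₁,
      Fermat.Agent.RRHur.degree_poleDiv_eq_finrank C.S₁.hF htr] at h1
    exact_mod_cast h1
  · have h1 := degree_poleDiv_red_le C.S₂ hu₂ hubar₂
    rw [Fermat.Agent.RRHur.degree_poleDiv_eq_finrank C.S₂.hFk hubar₂,
      sd_degree_poleDiv_div C.S₂.hF hϖ0 htr] at h1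
    exact_mod_cast h1

/-- a function vanishing at `Q` has the value `0` at `Q`. -/
theorem sd_valAt_zero {Fk : Type*} [Field Fk] [Algebra k Fk] {Q : Place k Fk} {f : Fk}
    (h : 0 < Q.ord f) : ValAt Q f 0 := by
  right
  rw [map_zero, sub_zero]
  exact h

/-- **the `u`-data of ANNULUS** for a seed with `D₀ = (u + ϖ / u)_∞`. -/
theorem annulusData_of [Fintype ι] [Infinite k] (N : NodalSeed K F k Fk₁ Fk₂ ι) {u : F} {ϖ : K}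
    (hϖ0 : ϖ ≠ 0) (hϖ : ϖ ∈ N.S₁.A)
    (hu₁ : u ∈ N.S₁.Ov) (hubar₁ : Transcendental k (N.S₁.red u))
    (hu₂ : algebraMap K F ϖ / u ∈ N.S₂.Ov)
    (hubar₂ : Transcendental k (N.S₂.red (algebraMap K F ϖ / u)))
    [FiniteDimensional K⟮u⟯ F] [FiniteDimensional k⟮N.S₁.red u⟯ Fk₁]
    [FiniteDimensional k⟮N.S₂.red (algebraMap K F ϖ / u)⟯ Fk₂]
    (hdeg₁ : Module.finrank K⟮u⟯ F ≤ Module.finrank k⟮N.S₁.red u⟯ Fk₁)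
    (hdeg₂ : Module.finrank K⟮u⟯ F ≤ Module.finrank k⟮N.S₂.red (algebraMap K F ϖ / u)⟯ Fk₂)
    (hs₁ : ∀ i, 0 < (N.s₁ i).ord (N.S₁.red u))
    (hs₂ : ∀ i, 0 < (N.s₂ i).ord (N.S₂.red (algebraMap K F ϖ / u)))
    (hz₁ : ∀ Q : Place k Fk₁, 0 < Q.ord (N.S₁.red u) → ∃ i, Q = N.s₁ i)
    (hz₂ : ∀ Q : Place k Fk₂, 0 < Q.ord (N.S₂.red (algebraMap K F ϖ / u)) → ∃ i, Q = N.s₂ i)
    (hD₀ : N.D₀ = poleDiv N.S₁.hF (u + algebraMap K F ϖ / u)) :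
    AnnulusData N u ϖ := by
  have htr : Transcendental K u := SeedNode.sn_transcendental_of_red N.S₁ hu₁ hubar₁
  have hu0 : u ≠ 0 := fun h0 => htr (h0 ▸ isAlgebraic_zero)
  refine
    { varpi_ne := hϖ0
      varpi_mem := hϖ
      red₁_ne := fun h0 => hubar₁ (h0 ▸ isAlgebraic_zero)
      red₂_ne := fun h0 => hubar₂ (h0 ▸ isAlgebraic_zero)
      ord_N := ?_
      node₁ := fun i => sd_valAt_zero (hs₁ i)
      node₂ := fun i => sd_valAt_zero (hs₂ i)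
      zero₁ := ?_
      zero₂ := ?_
      deg₁ := ?_
      deg₂ := ?_ }
  · intro P hP
    have h0 := D₀_apply_of_rmap_eq_none (N := N) hP
    rw [hD₀, poleDiv_add_div N.S₁.hF hu0 hϖ0, Finsupp.add_apply, poleDiv_apply, poleDiv_apply,
      P.ord_inv] at h0
    rcases max_cases (-(P.ord u)) 0 with ⟨h1, _⟩ | ⟨h1, _⟩ <;>
      rcases max_cases (- -(P.ord u)) 0 with ⟨h2, _⟩ | ⟨h2, _⟩ <;> omega
  · intro Q hQ
    by_contra hlt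
    obtain ⟨i, hi⟩ := hz₁ Q (not_le.mp hlt)
    exact hQ i hi
  · intro Q hQ
    by_contra hlt
    obtain ⟨i, hi⟩ := hz₂ Q (not_le.mp hlt)
    exact hQ i hi
  · rw [Fermat.Agent.RRHur.degree_poleDiv_eq_finrank N.S₁.hFk hubar₁,
      Fermat.Agent.RRHur.degree_poleDiv_eq_finrank N.S₁.hF htr]
    exact_mod_cast hdeg₁
  · rw [Fermat.Agent.RRHur.degree_poleDiv_eq_finrank N.S₂.hFk hubar₂,
      sd_degree_poleDiv_div N.S₁.hF hϖ0 htr]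
    exact_mod_cast hdeg₂

section SeedOfU

variable [Fintype ι] [Infinite k] (C : NodalCore K F k Fk₁ Fk₂ ι)
    (u : F) (ϖ : K) (hϖ0 : ϖ ≠ 0) (hϖ : ϖ ∈ C.S₁.A) (hϖres : C.S₁.res ⟨ϖ, hϖ⟩ = 0)
    (hu₁ : u ∈ C.S₁.Ov) (hubar₁ : Transcendental k (C.S₁.red u))
    (hu₂ : algebraMap K F ϖ / u ∈ C.S₂.Ov)
    (hubar₂ : Transcendental k (C.S₂.red (algebraMap K F ϖ / u)))
    [FiniteDimensional K⟮u⟯ F] [FiniteDimensional k⟮C.S₁.red u⟯ Fk₁]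
    [FiniteDimensional k⟮C.S₂.red (algebraMap K F ϖ / u)⟯ Fk₂]
    (hdeg₁ : Module.finrank K⟮u⟯ F ≤ Module.finrank k⟮C.S₁.red u⟯ Fk₁)
    (hdeg₂ : Module.finrank K⟮u⟯ F ≤ Module.finrank k⟮C.S₂.red (algebraMap K F ϖ / u)⟯ Fk₂)
    (hs₁ : ∀ i, 0 < (C.s₁ i).ord (C.S₁.red u))
    (hs₂ : ∀ i, 0 < (C.s₂ i).ord (C.S₂.red (algebraMap K F ϖ / u)))
    (hz₁ : ∀ Q : Place k Fk₁, 0 < Q.ord (C.S₁.red u) → ∃ i, Q = C.s₁ i)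
    (hz₂ : ∀ Q : Place k Fk₂, 0 < Q.ord (C.S₂.red (algebraMap K F ϖ / u)) → ∃ i, Q = C.s₂ i)
    (hsep : ∀ i j, i ≠ j → ∃ (g : F) (c : ι → k), NodeVal C.S₁ C.S₂ u C.s₁ C.s₂ g c ∧ c i ≠ c j)
    (hgenus : genusFF K F + 1 ≤ genusFF k Fk₁ + genusFF k Fk₂ + Fintype.card ι)

/-- `SlopeData` for the seed `seedOfU`. -/
theorem slopeData_seedOfU :
    SlopeData
      (seedOfU C u ϖ hϖ0 hϖ hϖres hu₁ hubar₁ hu₂ hubar₂ hdeg₁ hdeg₂ hs₁ hs₂ hz₁ hz₂ hsep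
        hgenus).S₁
      (seedOfU C u ϖ hϖ0 hϖ hϖres hu₁ hubar₁ hu₂ hubar₂ hdeg₁ hdeg₂ hs₁ hs₂ hz₁ hz₂ hsep
        hgenus).S₂ u ϖ :=
  slopeData_of C hϖ0 hϖ hϖres hu₁ hubar₁ hu₂ hubar₂ hdeg₁ hdeg₂

/-- `AnnulusData` for the seed `seedOfU`. -/
theorem annulusData_seedOfU :
    AnnulusData
      (seedOfU C u ϖ hϖ0 hϖ hϖres hu₁ hubar₁ hu₂ hubar₂ hdeg₁ hdeg₂ hs₁ hs₂ hz₁ hz₂ hsep
        hgenus) u ϖ :=
  haveI i1 : FiniteDimensional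
      k⟮(seedOfU C u ϖ hϖ0 hϖ hϖres hu₁ hubar₁ hu₂ hubar₂ hdeg₁ hdeg₂ hs₁ hs₂ hz₁ hz₂ hsep
        hgenus).S₁.red u⟯ Fk₁ := ‹FiniteDimensional k⟮C.S₁.red u⟯ Fk₁›
  haveI i2 : FiniteDimensional
      k⟮(seedOfU C u ϖ hϖ0 hϖ hϖres hu₁ hubar₁ hu₂ hubar₂ hdeg₁ hdeg₂ hs₁ hs₂ hz₁ hz₂ hsep
        hgenus).S₂.red (algebraMap K F ϖ / u)⟯ Fk₂ :=
    ‹FiniteDimensional k⟮C.S₂.red (algebraMap K F ϖ / u)⟯ Fk₂›
  annulusData_of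
    (seedOfU C u ϖ hϖ0 hϖ hϖres hu₁ hubar₁ hu₂ hubar₂ hdeg₁ hdeg₂ hs₁ hs₂ hz₁ hz₂ hsep hgenus)
    hϖ0 hϖ hu₁ hubar₁ hu₂ hubar₂ hdeg₁ hdeg₂ hs₁ hs₂ hz₁ hz₂ rfl

/-- **ANN + FIX for `seedOfU`**: the input `AnnFix` of (FTT), from (VI) alone. -/
theorem annFix_seedOfU [IsAlgClosed K] [CharZero K] (Γ : Set (SemilinearAut K F))
    (hΓ : ∀ t ∈ Γ, (seedOfU C u ϖ hϖ0 hϖ hϖres hu₁ hubar₁ hu₂ hubar₂ hdeg₁ hdeg₂ hs₁ hs₂ hz₁ hz₂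
      hsep hgenus).nodalSetup.IsInertial t)
    (hΓu : ∀ t ∈ Γ, t • u = u) (hVI : VIStatement C.S₁.A Γ ϖ) :
    AnnFix (seedOfU C u ϖ hϖ0 hϖ hϖres hu₁ hubar₁ hu₂ hubar₂ hdeg₁ hdeg₂ hs₁ hs₂ hz₁ hz₂ hsep
      hgenus).nodalSetup Γ 12 :=
  annFix
    (annulusData_seedOfU C u ϖ hϖ0 hϖ hϖres hu₁ hubar₁ hu₂ hubar₂ hdeg₁ hdeg₂ hs₁ hs₂ hz₁ hz₂
      hsep hgenus)
    (slopeData_seedOfU C u ϖ hϖ0 hϖ hϖres hu₁ hubar₁ hu₂ hubar₂ hdeg₁ hdeg₂ hs₁ hs₂ hz₁ hz₂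
      hsep hgenus) Γ hΓ hΓu hVI

end SeedOfU

end Fermat.Agent.EKp
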