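/-
Cluster E' (Mazur's descent), DESC-Kp, leaf KP-VI (helper10): the value group of a place `A` of
`ℚ̄` over `p`.

* `valI`      (VI): `x ≠ 0` fixed by the inertia group of `A`  ⟹  `v_A(x) = v_A(p) ^ a`, `a : ℤ`
                    (the inertia field is unramified: Lib/FFL `unrProp`, `dvdProp`, FFL-BASE);
* `val_conj`       : `v_A(σ c) = v_A(c)` for `σ` in the decomposition group of `A`;
* `rankOne`   (R1): for every `c ≠ 0` there are `b ≥ 1` and `a : ℤ` with `v_A(c) ^ b = v_A(p) ^ a`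
                    (the product of the conjugates of `c` under the decomposition group is fixed by
                    inertia);
* unit forms `valI_unit`, `rankOne_unit` (`x / p ^ a` is a unit of `A`), and the form
  `valI_twelve` with `ϖ = p ^ 12` used by the nodal package.
-/
import Fermat.Agent.Lib.FFL.Base
import Fermat.Agent.Lib.FFL.Unr
import Fermat.Agent.Lib.FFL.Arith

set_option autoImplicit false

namespace Fermat.Agent.EKp

open Fermat.Agent.FFL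
open scoped Pointwise

local notation "Qb" => AlgebraicClosure ℚ
local notation "GQb" => (AlgebraicClosure ℚ ≃ₐ[ℚ] AlgebraicClosure ℚ)

variable {A : ValuationSubring Qb}

/-! ### units of `A` -/

theorem vi_val_eq_one_of_mem {u : Qb} (hu : u ∈ A) (hu' : u⁻¹ ∈ A) (hu0 : u ≠ 0) :
    A.valuation u = 1 := by
  have h1 : A.valuation u ≤ 1 := (A.valuation_le_one_iff u).2 hu
  have h2 : A.valuation u⁻¹ ≤ 1 := (A.valuation_le_one_iff _).2 hu'
  have h0 : A.valuation u ≠ 0 := (Valuation.ne_zero_iff _).2 hu0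
  rw [map_inv₀] at h2
  have h3 : 1 ≤ A.valuation u := by
    have := (inv_le_one₀ (zero_lt_iff.2 h0)).1 h2
    exact this
  exact le_antisymm h1 h3

theorem vi_mem_of_val_eq_one {u : Qb} (h : A.valuation u = 1) : u ∈ A ∧ u⁻¹ ∈ A := by
  refine ⟨(A.valuation_le_one_iff u).1 h.le, (A.valuation_le_one_iff _).1 ?_⟩
  rw [map_inv₀, h, inv_one]

/-! ### (VI) -/

/-- **(VI)**, valuation form: the valuation of an inertia-fixed element is an integral power of
the valuation of `p`. -/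
theorem valI (p : ℕ) (hp : p.Prime) (A : ValuationSubring Qb) (hA : A.LiesOverPrime p) (x : Qb)
    (hx : x ≠ 0) (hfix : ∀ σ ∈ A.inertiaSubgroupIn ℚ, σ x = x) :
    ∃ a : ℤ, A.valuation x = A.valuation (p : Qb) ^ a := by
  have hunr := unrProp p hp A hA
  have hdvd : DvdProp p A := dvdProp hp hA
  have hp0 : (p : Qb) ≠ 0 := Nat.cast_ne_zero.2 hp.ne_zero
  have key : ∀ y : Qb, y ≠ 0 → y ∈ A → (∀ σ ∈ A.inertiaSubgroupIn ℚ, σ y = y) →
      ∃ n : ℕ, A.valuation y = A.valuation (p : Qb) ^ n := by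
    intro y hy hyA hyfix
    obtain ⟨n, u, hu, hu', hyu⟩ := exists_eq_pow_mul_unit hp.ne_zero hA hunr hdvd
      (x := y) ⟨hyA, hyfix⟩ hy
    have hu0 : u ≠ 0 := by
      rintro rfl
      rw [mul_zero] at hyu
      exact hy hyu
    refine ⟨n, ?_⟩
    rw [hyu, map_mul, map_pow, vi_val_eq_one_of_mem hu.1 hu'.1 hu0, mul_one]
  rcases A.mem_or_inv_mem x with hxA | hxA
  · obtain ⟨n, hn⟩ := key x hx hxA hfix
    exact ⟨n, by rw [hn, zpow_natCast]⟩
  · obtain ⟨n, hn⟩ := key x⁻¹ (inv_ne_zero hx) hxA (fun σ hσ => by rw [map_inv₀, hfix σ hσ])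
    refine ⟨-(n : ℤ), ?_⟩
    rw [map_inv₀] at hn
    rw [zpow_neg, zpow_natCast, ← hn, inv_inv]

/-- **(VI)**, unit form: an inertia-fixed element is `p ^ a` times a unit of `A`. -/
theorem valI_unit (p : ℕ) (hp : p.Prime) (A : ValuationSubring Qb) (hA : A.LiesOverPrime p)
    (x : Qb) (hx : x ≠ 0) (hfix : ∀ σ ∈ A.inertiaSubgroupIn ℚ, σ x = x) :
    ∃ a : ℤ, x / (p : Qb) ^ a ∈ A ∧ (x / (p : Qb) ^ a)⁻¹ ∈ A := by
  obtain ⟨a, ha⟩ := valI p hp A hA x hx hfix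
  have hp0 : (p : Qb) ≠ 0 := Nat.cast_ne_zero.2 hp.ne_zero
  have hvp0 : A.valuation (p : Qb) ≠ 0 := (Valuation.ne_zero_iff _).2 hp0
  refine ⟨a, vi_mem_of_val_eq_one ?_⟩
  rw [map_div₀, map_zpow₀, ha]
  exact div_self (zpow_ne_zero a hvp0)

/-- **(VI)** in the form used by the nodal package (`ϖ = p ^ 12`). -/
theorem valI_twelve (p : ℕ) (hp : p.Prime) (A : ValuationSubring Qb) (hA : A.LiesOverPrime p)
    (x : Qb) (hx : x ≠ 0) (hfix : ∀ σ ∈ A.inertiaSubgroupIn ℚ, σ x = x) :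
    ∃ a : ℤ, A.valuation (x ^ 12) = A.valuation ((p : Qb) ^ 12) ^ a := by
  obtain ⟨a, ha⟩ := valI p hp A hA x hx hfix
  refine ⟨a, ?_⟩
  rw [map_pow, map_pow, ha, ← zpow_natCast, ← zpow_natCast, ← zpow_mul, ← zpow_mul, mul_comm]

/-! ### the decomposition group preserves the valuation -/

theorem vi_apply_mem {σ : GQb} (hσ : σ ∈ A.decompositionSubgroup ℚ) {x : Qb} (hx : x ∈ A) :
    σ x ∈ A := by
  have h1 : σ • A = A := MulAction.mem_stabilizer_iff.mp hσ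
  have h2 : σ • x ∈ σ • A := ValuationSubring.smul_mem_pointwise_smul σ x _ hx
  rw [h1] at h2
  exact h2

theorem vi_apply_val_lt {σ : GQb} (hσ : σ ∈ A.decompositionSubgroup ℚ) {x : Qb}
    (hx : A.valuation x < 1) : A.valuation (σ x) < 1 := by
  by_cases hx0 : x = 0
  · rw [hx0, map_zero, map_zero]
    exact zero_lt_one
  have hσx0 : σ x ≠ 0 := fun h => hx0 ((map_eq_zero σ).1 h)
  have h1 : σ x ∈ A := vi_apply_mem hσ ((A.valuation_le_one_iff x).1 hx.le)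
  have h2 : A.valuation (σ x) ≤ 1 := (A.valuation_le_one_iff _).2 h1
  refine lt_of_le_of_ne h2 fun h => ?_
  -- then `(σ x)⁻¹ ∈ A`, so `x⁻¹ = σ⁻¹ ((σ x)⁻¹) ∈ A`
  have h3 : (σ x)⁻¹ ∈ A := (vi_mem_of_val_eq_one h).2
  have h4 : σ⁻¹ ((σ x)⁻¹) ∈ A := vi_apply_mem (Subgroup.inv_mem _ hσ) h3
  have h5 : σ⁻¹ ((σ x)⁻¹) = x⁻¹ := by
    rw [map_inv₀]
    congr 1
    show (σ⁻¹ * σ) x = x
    rw [inv_mul_cancel]
    rfl
  rw [h5] at h4
  have h6 : A.valuation x⁻¹ ≤ 1 := (A.valuation_le_one_iff _).2 h4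
  rw [map_inv₀] at h6
  have h0 : A.valuation x ≠ 0 := (Valuation.ne_zero_iff _).2 hx0
  have h7 : 1 ≤ A.valuation x := (inv_le_one₀ (zero_lt_iff.2 h0)).1 h6
  exact absurd hx (not_lt.2 h7)

/-- Some positive power of `σ` fixes `c`. -/
theorem vi_exists_pow_fix (σ : GQb) (c : Qb) : ∃ n : ℕ, 0 < n ∧ (σ ^ n) c = c := by
  classical
  have halg : IsIntegral ℚ c := ((AlgebraicClosure.isAlgebraic ℚ).isAlgebraic c).isIntegral
  have hfin : ((minpoly ℚ c).rootSet Qb).Finite := Polynomial.rootSet_finite _ _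
  have hmem : ∀ k : ℕ, (σ ^ k) c ∈ (minpoly ℚ c).rootSet Qb := by
    intro k
    rw [Polynomial.mem_rootSet]
    refine ⟨minpoly.ne_zero halg, ?_⟩
    have := Polynomial.aeval_algHom_apply ((σ ^ k : GQb) : Qb →ₐ[ℚ] Qb) c (minpoly ℚ c)
    rw [minpoly.aeval, map_zero] at this
    exact this
  have : Finite ↥((minpoly ℚ c).rootSet Qb) := hfin.to_subtype
  obtain ⟨i, j, hij, h⟩ := Finite.exists_ne_map_eq_of_infinite
    (fun k : ℕ => (⟨(σ ^ k) c, hmem k⟩ : ↥((minpoly ℚ c).rootSet Qb)))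
  have h' : (σ ^ i) c = (σ ^ j) c := congrArg Subtype.val h
  have key : ∀ i j : ℕ, i < j → (σ ^ i) c = (σ ^ j) c → ∃ n : ℕ, 0 < n ∧ (σ ^ n) c = c := by
    intro i j hlt he
    refine ⟨j - i, by omega, ?_⟩
    have e1 : σ ^ j = σ ^ i * σ ^ (j - i) := by rw [← pow_add]; congr 1; omega
    rw [e1, AlgEquiv.mul_apply] at he
    exact ((σ ^ i).injective he).symm
  rcases Nat.lt_or_gt_of_ne hij with hlt | hlt
  · exact key i j hlt h'
  · exact key j i hlt h'.symm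

/-- One half of `val_conj`. -/
theorem vi_not_lt {σ : GQb} (hσ : σ ∈ A.decompositionSubgroup ℚ) {c : Qb} (hc : c ≠ 0)
    {n : ℕ} (hn : 0 < n) (hfix : (σ ^ n) c = c) : ¬ A.valuation (σ c / c) < 1 := by
  intro hlt
  have hσc : σ c ≠ 0 := fun h => hc ((map_eq_zero σ).1 h)
  have hrec : ∀ m : ℕ, (σ ^ (m + 1)) c / c = σ ((σ ^ m) c / c) * (σ c / c) := by
    intro m
    rw [map_div₀, pow_succ', AlgEquiv.mul_apply]
    field_simp
  have hall : ∀ m : ℕ, A.valuation ((σ ^ (m + 1)) c / c) < 1 := by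
    intro m
    induction m with
    | zero => simpa using hlt
    | succ m ih =>
      rw [hrec (m + 1), map_mul]
      exact mul_lt_one' (vi_apply_val_lt hσ ih) hlt
  obtain ⟨m, rfl⟩ : ∃ m, n = m + 1 := ⟨n - 1, by omega⟩
  have := hall m
  rw [hfix, div_self hc, map_one] at this
  exact lt_irrefl _ this

/-- **The decomposition group preserves the valuation.** -/
theorem val_conj {σ : GQb} (hσ : σ ∈ A.decompositionSubgroup ℚ) (c : Qb) :
    A.valuation (σ c) = A.valuation c := by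
  by_cases hc : c = 0
  · rw [hc, map_zero]
  have hσc : σ c ≠ 0 := fun h => hc ((map_eq_zero σ).1 h)
  obtain ⟨n, hn, hfix⟩ := vi_exists_pow_fix σ c
  have h1 := vi_not_lt hσ hc hn hfix
  -- the same for `σ⁻¹` and `σ c`
  have hfix' : (σ⁻¹ ^ n) (σ c) = σ c := by
    have e1 : (σ ^ n) (σ c) = σ c := by
      rw [← AlgEquiv.mul_apply, ← pow_succ, pow_succ', AlgEquiv.mul_apply, hfix]
    have e2 : (σ⁻¹ ^ n) ((σ ^ n) (σ c)) = σ c := by
      rw [← AlgEquiv.mul_apply, inv_pow, inv_mul_cancel]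
      rfl
    rw [e1] at e2
    exact e2
  have h2 := vi_not_lt (Subgroup.inv_mem _ hσ) hσc hn hfix'
  have e3 : σ⁻¹ (σ c) = c := by
    rw [← AlgEquiv.mul_apply, inv_mul_cancel]
    rfl
  rw [e3] at h2
  rw [map_div₀] at h1 h2
  have hv0 : A.valuation c ≠ 0 := (Valuation.ne_zero_iff _).2 hc
  have hv0' : A.valuation (σ c) ≠ 0 := (Valuation.ne_zero_iff _).2 hσc
  have h3 : A.valuation c ≤ A.valuation (σ c) := by
    rw [not_lt, one_le_div₀ (zero_lt_iff.2 hv0)] at h1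
    exact h1
  have h4 : A.valuation (σ c) ≤ A.valuation c := by
    rw [not_lt, one_le_div₀ (zero_lt_iff.2 hv0')] at h2
    exact h2
  exact le_antisymm h4 h3

/-! ### (R1) -/

/-- **(R1)**, valuation form: the value group of `A` is commensurable with `v_A(p) ^ ℤ`. -/
theorem rankOne (p : ℕ) (hp : p.Prime) (A : ValuationSubring Qb) (hA : A.LiesOverPrime p)
    (c : Qb) (hc : c ≠ 0) :
    ∃ b : ℕ, 0 < b ∧ ∃ a : ℤ, A.valuation c ^ b = A.valuation (p : Qb) ^ a := by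
  classical
  have halg : IsIntegral ℚ c := ((AlgebraicClosure.isAlgebraic ℚ).isAlgebraic c).isIntegral
  have hfin : ((minpoly ℚ c).rootSet Qb).Finite := Polynomial.rootSet_finite _ _
  -- the conjugates of `c` under the decomposition group
  let T : Finset Qb := hfin.toFinset.filter fun y => ∃ σ ∈ A.decompositionSubgroup ℚ, σ c = y
  have hroot : ∀ σ : GQb, σ c ∈ (minpoly ℚ c).rootSet Qb := by
    intro σ
    rw [Polynomial.mem_rootSet]
    refine ⟨minpoly.ne_zero halg, ?_⟩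
    have := Polynomial.aeval_algHom_apply ((σ : GQb) : Qb →ₐ[ℚ] Qb) c (minpoly ℚ c)
    rw [minpoly.aeval, map_zero] at this
    exact this
  have hT : ∀ y, y ∈ T ↔ ∃ σ ∈ A.decompositionSubgroup ℚ, σ c = y := by
    intro y
    constructor
    · intro hy
      exact (Finset.mem_filter.1 hy).2
    · rintro ⟨σ, hσ, rfl⟩
      exact Finset.mem_filter.2 ⟨hfin.mem_toFinset.2 (hroot σ), σ, hσ, rfl⟩
  have hcT : c ∈ T := (hT c).2 ⟨1, Subgroup.one_mem _, rfl⟩
  have hval : ∀ y ∈ T, A.valuation y = A.valuation c := by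
    intro y hy
    obtain ⟨σ, hσ, rfl⟩ := (hT y).1 hy
    exact val_conj hσ c
  -- the product of the conjugates is fixed by the decomposition group
  have hprod_fix : ∀ τ ∈ A.decompositionSubgroup ℚ, τ (∏ y ∈ T, y) = ∏ y ∈ T, y := by
    intro τ hτ
    rw [map_prod]
    refine Finset.prod_bij (fun y _ => τ y) ?_ ?_ ?_ ?_
    · intro y hy
      obtain ⟨σ, hσ, rfl⟩ := (hT y).1 hy
      exact (hT _).2 ⟨τ * σ, Subgroup.mul_mem _ hτ hσ, rfl⟩
    · intro y _ y' _ h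
      exact τ.injective h
    · intro y hy
      obtain ⟨σ, hσ, rfl⟩ := (hT y).1 hy
      refine ⟨(τ⁻¹ * σ) c, (hT _).2 ⟨τ⁻¹ * σ, Subgroup.mul_mem _ (Subgroup.inv_mem _ hτ) hσ, rfl⟩,
        ?_⟩
      show τ ((τ⁻¹ * σ) c) = σ c
      rw [← AlgEquiv.mul_apply, mul_inv_cancel_left]
    · intro y _
      rfl
  have hprod0 : (∏ y ∈ T, y) ≠ 0 := by
    rw [Finset.prod_ne_zero_iff]
    intro y hy
    obtain ⟨σ, -, rfl⟩ := (hT y).1 hy
    exact fun h => hc ((map_eq_zero σ).1 h)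
  have hI : ∀ σ ∈ A.inertiaSubgroupIn ℚ, σ (∏ y ∈ T, y) = ∏ y ∈ T, y := by
    intro σ hσ
    apply hprod_fix
    obtain ⟨d, -, rfl⟩ := hσ
    exact d.2
  obtain ⟨a, ha⟩ := valI p hp A hA _ hprod0 hI
  refine ⟨T.card, Finset.card_pos.2 ⟨c, hcT⟩, a, ?_⟩
  rw [← ha, map_prod, Finset.prod_congr rfl hval, Finset.prod_const]

/-- **(R1)**, unit form. -/
theorem rankOne_unit (p : ℕ) (hp : p.Prime) (A : ValuationSubring Qb) (hA : A.LiesOverPrime p)
    (c : Qb) (hc : c ≠ 0) :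
    ∃ b : ℕ, 0 < b ∧ ∃ a : ℤ, c ^ b / (p : Qb) ^ a ∈ A ∧ (c ^ b / (p : Qb) ^ a)⁻¹ ∈ A := by
  obtain ⟨b, hb, a, ha⟩ := rankOne p hp A hA c hc
  have hp0 : (p : Qb) ≠ 0 := Nat.cast_ne_zero.2 hp.ne_zero
  have hvp0 : A.valuation (p : Qb) ≠ 0 := (Valuation.ne_zero_iff _).2 hp0
  refine ⟨b, hb, a, vi_mem_of_val_eq_one ?_⟩
  rw [map_div₀, map_zpow₀, map_pow, ha]
  exact div_self (zpow_ne_zero a hvp0)

/-- **(R1)** in the form used by the nodal package (`ϖ = p ^ 12`). -/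
theorem rankOne_twelve (p : ℕ) (hp : p.Prime) (A : ValuationSubring Qb) (hA : A.LiesOverPrime p)
    (c : Qb) (hc : c ≠ 0) :
    ∃ b : ℕ, 0 < b ∧ ∃ a : ℤ, A.valuation (c ^ b) = A.valuation ((p : Qb) ^ 12) ^ a := by
  obtain ⟨b, hb, a, ha⟩ := rankOne p hp A hA c hc
  refine ⟨12 * b, by omega, a, ?_⟩
  rw [map_pow, map_pow, pow_mul', ha, ← zpow_natCast, ← zpow_natCast, ← zpow_mul, ← zpow_mul,
    mul_comm]

/-- **(R1)** in the exact shape of the hypothesis `hR1` of `isW0Div_of_ordinary`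
(E/Desc/Kp/OrdToric.lean), for any `ϖ = p ^ e`, `e ≥ 1` (modular case: `e = 12`). -/
theorem rankOne_form (p : ℕ) (hp : p.Prime) (A : ValuationSubring Qb) (hA : A.LiesOverPrime p)
    (e : ℕ) (he : 0 < e) (c : Qb) (hc : c ≠ 0) :
    ∃ (b : ℕ) (a : ℤ), 0 < b ∧ A.valuation (c ^ b) = A.valuation (((p : Qb) ^ e) ^ a) := by
  obtain ⟨b, hb, a, ha⟩ := rankOne p hp A hA c hc
  refine ⟨e * b, a, Nat.mul_pos he hb, ?_⟩
  rw [map_zpow₀, map_pow, map_pow, pow_mul', ha, ← zpow_natCast, ← zpow_natCast, ← zpow_mul,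
    ← zpow_mul, mul_comm]

/-- **(VI)** for `ϖ = p ^ e`: `v(x ^ e) = v(ϖ ^ a)` for inertia-fixed `x`. -/
theorem valI_form (p : ℕ) (hp : p.Prime) (A : ValuationSubring Qb) (hA : A.LiesOverPrime p)
    (e : ℕ) (x : Qb) (hx : x ≠ 0) (hfix : ∀ σ ∈ A.inertiaSubgroupIn ℚ, σ x = x) :
    ∃ a : ℤ, A.valuation (x ^ e) = A.valuation (((p : Qb) ^ e) ^ a) := by
  obtain ⟨a, ha⟩ := valI p hp A hA x hx hfix
  refine ⟨a, ?_⟩
  rw [map_zpow₀, map_pow, map_pow, ha, ← zpow_natCast, ← zpow_natCast, ← zpow_mul, ← zpow_mul,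
    mul_comm]

end Fermat.Agent.EKp
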