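/-
Cluster E' (Mazur's descent), seat DESC-Kp, leaf KP-MOD (helper19): **MOD-u** and the modular
instance of (FTT).

* `kp_modU`     : `ModG D A → ModU D A hq hA hqR haux` (the statement (ORDT) for the modular nodal
                  setup, `d = kpD`), from `ordToric_of_uData` (helper51) with `u = Δ(z)/Δ(qz)`,
                  `ϖ = q ^ 12`;
* `kpΓ_fix_oo`  : inertia fixes the cusp `∞`;
* `kp_mod_ftt`  : **(FTT) for `J₀(q R)`**: an inertia-fixed class killed by `n` becomes toric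
                  after multiplication by `12 * kpD`, given `AnnFix (kpN ..) (kpΓ D A) 12`.
-/
import Mathlib
import Fermat.Agent.E.Desc.Kp.ModDefs
import Fermat.Agent.E.Desc.Kp.OrdToricWire
import Fermat.Agent.E.Desc.Kp.SeedData
import Fermat.Agent.E.Desc.Kp.ValI
import Fermat.Agent.Lib.FF.GalAct

set_option autoImplicit false
set_option linter.style.haveILetI false
set_option linter.unusedSectionVars false
set_option synthInstance.maxHeartbeats 400000

noncomputable section

namespace Fermat.Agent.EKp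

open IntermediateField ModularCurve AlgebraicCurve Fermat.Agent.F3 Fermat.Agent.F3G
  Fermat.Agent.GaussInt Fermat.Agent.AtkinLehner Fermat.Agent.Deuring Fermat.Agent.RR
  Fermat.Agent.BadRed

local notation "Qb" => AlgebraicClosure ℚ
local notation "GQb" => (AlgebraicClosure ℚ ≃ₐ[ℚ] AlgebraicClosure ℚ)

attribute [local instance] Fermat.Agent.BadRed.fwFintype

/-- (R1) transported along an equality of valuation rings. -/
theorem kp_mod_R1 (p : ℕ) (hp : p.Prime) (A : ValuationSubring Qb) (hA : A.LiesOverPrime p)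
    (B : ValuationSubring Qb) (hB : B = A) (c : Qb) (hc : c ≠ 0) :
    ∃ (b : ℕ) (a : ℤ), 0 < b ∧ B.valuation (c ^ b) = B.valuation (((p : Qb) ^ 12) ^ a) := by
  subst hB
  exact rankOne_form p hp B hA 12 (by norm_num) c hc

variable (D : ALData) [NeZero D.Q] [NeZero D.R] [NeZero (D.Q * D.R)]
  (A : ValuationSubring Qb) (hq : D.Q.Prime) (hA : A.LiesOverPrime D.Q) (hqR : ¬ D.Q ∣ D.R)
  [Fact D.Q.Prime] [CharP (IsLocalRing.ResidueField A) D.Q]
  [PerfectRing (IsLocalRing.ResidueField A) D.Q]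

/-- the places of type (N) are neither zeros nor poles of `u`. -/
theorem kp_mod_ord_N (haux : AuxLevelOK D.Q D.R) (P : Place Qb (modularFunctionFieldBar (D.Q * D.R)))
    (hP : (kpN D A hq hA hqR haux).r P = none) : P.ord (fwU D) = 0 := by
  haveI := infinite_residue A
  haveI : FiniteDimensional Qb⟮fwU D⟯ (modularFunctionFieldBar (D.Q * D.R)) :=
    finiteDimensional_uF hq (Dvd.intro _ rfl)
  haveI : FiniteDimensional (IsLocalRing.ResidueField A)⟮(kpS D A hq hA hqR).red (fwU D)⟯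
      (modularFunctionFieldFullC (IsLocalRing.ResidueField A) D.R) :=
    fw_finiteDimensional_red D A hq hA _ (isGaussSetup_gaussSetupBad D hq hqR A hA)
  haveI : FiniteDimensional (IsLocalRing.ResidueField A)⟮(valSetupZero D (kpS D A hq hA hqR)).red
        (algebraMap Qb (modularFunctionFieldBar (D.Q * D.R)) (fwPi D) / fwU D)⟯
      (modularFunctionFieldFullC (IsLocalRing.ResidueField A) D.R) := by
    rw [fw_red_pi_div]
    exact fw_finiteDimensional_red D A hq hA _ (isGaussSetup_gaussSetupBad D hq hqR A hA)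
  have h : AnnulusData
      (fwSeed D A hq hA hqR (kpS D A hq hA hqR) (isGaussSetup_gaussSetupBad D hq hqR A hA)
        (hasLattice_gaussSetupBad D hq hqR A hA) haux
        (fw_sep D A hq hA hqR _ (isGaussSetup_gaussSetupBad D hq hqR A hA) haux))
      (fwU D) (fwPi D) := by
    unfold fwSeed
    exact annulusData_seedOfU _ _ _ _ _ _ _ _ _ _ _ _ _ _ _ _ _ _
  exact h.ord_N P hP

/-- **MOD-u.** -/
theorem kp_modU (haux : AuxLevelOK D.Q D.R) (hg : ModG D A) : ModU D A hq hA hqR haux := by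
  intro n
  have hS := isGaussSetup_gaussSetupBad D hq hqR A hA
  have htr := fw_transcendental_red D A hq hA (kpS D A hq hA hqR) hS
  have hne : (kpS D A hq hA hqR).red (fwU D) ≠ 0 := fun h0 => htr (h0 ▸ isAlgebraic_zero)
  have hu0 : fwU D ≠ 0 := (kpS D A hq hA hqR).ne_zero_of_red_ne_zero hne
  have hu₁ := fw_uF_mem D A (kpS D A hq hA hqR) hS
  have hu₁' := (kpS D A hq hA hqR).inv_mem_of_red_ne_zero hne
  have hmul : algebraMap Qb (modularFunctionFieldBar (D.Q * D.R)) (fwPi D) * (fwU D)⁻¹ =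
      algebraMap Qb (modularFunctionFieldBar (D.Q * D.R)) (fwPi D) / fwU D :=
    (div_eq_mul_inv _ _).symm
  have hred₂ : (valSetupZero D (kpS D A hq hA hqR)).red
      (algebraMap Qb (modularFunctionFieldBar (D.Q * D.R)) (fwPi D) * (fwU D)⁻¹) =
      (kpS D A hq hA hqR).red (fwU D) := by
    rw [hmul]
    exact fw_red_pi_div D A (kpS D A hq hA hqR)
  have hw₂ : algebraMap Qb (modularFunctionFieldBar (D.Q * D.R)) (fwPi D) * (fwU D)⁻¹ ∈
      (valSetupZero D (kpS D A hq hA hqR)).Ov := by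
    rw [hmul]
    exact fw_pi_div_mem D A (kpS D A hq hA hqR) hS
  have hw₂' : (algebraMap Qb (modularFunctionFieldBar (D.Q * D.R)) (fwPi D) * (fwU D)⁻¹)⁻¹ ∈
      (valSetupZero D (kpS D A hq hA hqR)).Ov :=
    (valSetupZero D (kpS D A hq hA hqR)).inv_mem_of_red_ne_zero (by rw [hred₂]; exact hne)
  refine ordToric_of_uData (kpN D A hq hA hqR haux) hg hg (kpEps D A hq hA hqR) hu0
    (fw_pi_ne_zero D hq) hu₁ hu₁' hw₂ hw₂' (fun i => (kpEps_cast D A hq hA hqR i).symm)
    (fun i => ?_) (kp_mod_ord_N D A hq hA hqR haux)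
    (fun c hc => kp_mod_R1 D.Q hq A hA _ hS.A_eq c hc) n
  show ((frobAut (IsLocalRing.ResidueField A) D.R D.Q)⁻¹ • i.1).ord
    ((valSetupZero D (kpS D A hq hA hqR)).red
      (algebraMap Qb (modularFunctionFieldBar (D.Q * D.R)) (fwPi D) * (fwU D)⁻¹)) = _
  rw [hred₂, ord_frobAut_inv_smul_of_coe_ssFun _ _ _ D.Q
    (fw_coe_red_uF D A hq hA (kpS D A hq hA hqR) hS)]
  exact (kpEps_cast D A hq hA hqR i).symm

/-- inertia fixes the cusp `∞`. -/
theorem kpΓ_fix_oo :
    ∀ t ∈ kpΓ D A, t • Fermat.Agent.S17.Setup.cuspPlace (D.Q * D.R) =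
      Fermat.Agent.S17.Setup.cuspPlace (D.Q * D.R) := by
  rintro _ ⟨τ, -, rfl⟩
  exact Fermat.Agent.FFGal.galQ_smul_cuspPlace (D.Q * D.R) τ

/-- **(FTT) for `J₀(q R)`** at the place `A | q`. -/
theorem kp_mod_ftt (haux : AuxLevelOK D.Q D.R) (hg : ModG D A)
    (hAF : AnnFix (kpN D A hq hA hqR haux) (kpΓ D A) 12) (n : ℕ) (x : JZero (D.Q * D.R))
    (hx : n • x = 0) (hfix : ∀ σ ∈ A.inertiaSubgroupIn ℚ, σ • x = x) :
    (12 * kpD D A hq hA hqR) • x ∈ (kpN D A hq hA hqR haux).W0 n := by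
  refine ftt (kpS D A hq hA hqR).hF (kpN D A hq hA hqR haux)
    (Fermat.Agent.S17.Setup.cuspPlace (D.Q * D.R)) (kpΓ D A) (kpΓ_fix_oo D A)
    (kpΓ_isInertial D A hq hA hqR haux) hAF (kp_modU D A hq hA hqR haux hg n) x hx ?_
  rintro _ ⟨τ, hτ, rfl⟩
  exact hfix τ hτ

end Fermat.Agent.EKp
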