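/-
Cluster E' (Mazur's descent), seat DESC-Kp, helper lemma for KP-MOD (helper45):
the inputs of (K-p) at ONE place `A₀ | p` suffice.

`G_ℚ` acts transitively on the places of `ℚ̄` over `p`, and the inputs `KpInputs M A n m₀ g`
are transported by conjugation: `KpInputs.conj`.  Consequently the constants `m₀`, `g` may be
produced from the nodal package at a single place (no uniformity in `A` has to be proved).
-/
import Fermat.Agent.E.Desc.Kp.Inputs
import Fermat.Agent.Lib.FF.PlacesQbar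
import Fermat.Agent.Lib.KFin.Inertia

set_option autoImplicit false
set_option linter.style.haveILetI false

noncomputable section

namespace Fermat.Agent.EKp

open ModularCurve AlgebraicCurve
open scoped Pointwise

local notation "Qb" => AlgebraicClosure ℚ
local notation "GQb" => (AlgebraicClosure ℚ ≃ₐ[ℚ] AlgebraicClosure ℚ)

/-- the inertia group of a conjugate place. -/
theorem onePlace_conj_mem (A : ValuationSubring Qb) (σ τ : GQb)
    (hτ : τ ∈ (σ • A).inertiaSubgroupIn ℚ) : σ⁻¹ * τ * σ ∈ A.inertiaSubgroupIn ℚ := by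
  have h := Fermat.Agent.KFin.kf_conj_mem_inertiaSubgroupIn (σ • A) σ⁻¹ τ hτ
  rwa [inv_inv, inv_smul_smul] at h

section

variable {M : ℕ}

theorem onePlace_smul_nsmul (σ : GQb) (m : ℕ) (y : JZero M) : σ • (m • y) = m • (σ • y) :=
  asm_smul_nsmul σ m y

theorem onePlace_smul_zero (σ : GQb) : σ • (0 : JZero M) = 0 :=
  map_zero (DistribSMul.toAddMonoidHom (JZero M) σ)

theorem onePlace_smul_sub (σ : GQb) (x y : JZero M) : σ • (x - y) = σ • x - σ • y :=
  asm_smul_sub σ x y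

/-- transport of the inputs of (K-p) to a conjugate place. -/
def KpInputs.conj {A : ValuationSubring Qb} {n m₀ g : ℕ} (inp : KpInputs M A n m₀ g)
    (σ : GQb) : KpInputs M (σ • A) n m₀ g where
  T := inp.T.map (DistribSMul.toAddMonoidHom (JZero M) σ)
  hTn := by
    rintro _ ⟨x, hx, rfl⟩
    show n • (σ • x) = 0
    rw [← onePlace_smul_nsmul, inp.hTn x hx, onePlace_smul_zero]
  hTfix := by
    rintro τ hτ _ ⟨x, hx, rfl⟩
    show τ • (σ • x) = σ • x
    have h1 := inp.hTfix _ (onePlace_conj_mem A σ τ hτ) x hx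
    have h2 : σ • ((σ⁻¹ * τ * σ) • x) = τ • (σ • x) := by
      rw [← mul_smul, ← mul_smul, ← mul_assoc, ← mul_assoc, mul_inv_cancel, one_mul]
    rw [← h2, h1]
  hE1 := by
    intro τ hτ y hy
    have hy' : ∀ ρ : GQb, ρ • (n • (σ⁻¹ • y)) = n • (σ⁻¹ • y) := by
      intro ρ
      rw [← onePlace_smul_nsmul, hy σ⁻¹, hy ρ]
    have h1 := inp.hE1 _ (onePlace_conj_mem A σ τ hτ) (σ⁻¹ • y) hy'
    refine ⟨_, h1, ?_⟩
    show σ • ((σ⁻¹ * τ * σ) • (σ⁻¹ • y) - σ⁻¹ • y) = τ • y - y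
    rw [onePlace_smul_sub, smul_inv_smul, ← mul_smul, ← mul_smul, ← mul_assoc, ← mul_assoc,
      mul_inv_cancel, one_mul, mul_assoc, mul_inv_cancel, mul_one]
  hFTT := by
    intro x hx hfix
    have h1 : n • (σ⁻¹ • x) = 0 := by
      rw [← onePlace_smul_nsmul, hx, onePlace_smul_zero]
    have h2 : ∀ ρ ∈ A.inertiaSubgroupIn ℚ, ρ • (σ⁻¹ • x) = σ⁻¹ • x := by
      intro ρ hρ
      have h3 := Fermat.Agent.KFin.kf_conj_mem_inertiaSubgroupIn A σ ρ hρ
      have h4 := hfix _ h3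
      rw [mul_smul, mul_smul] at h4
      have h5 := congrArg (fun z => σ⁻¹ • z) h4
      simpa only [inv_smul_smul] using h5
    have h6 := inp.hFTT (σ⁻¹ • x) h1 h2
    refine ⟨_, h6, ?_⟩
    show σ • (m₀ • (σ⁻¹ • x)) = m₀ • x
    rw [onePlace_smul_nsmul, smul_inv_smul]
  hTB := by
    refine le_trans (le_of_eq ?_) inp.hTB
    refine (Nat.card_congr (Equiv.ofBijective
      (fun x : inp.T => (⟨σ • (x : JZero M), ⟨x, x.2, rfl⟩⟩ :
        inp.T.map (DistribSMul.toAddMonoidHom (JZero M) σ))) ⟨?_, ?_⟩)).symm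
    · intro a b hab
      have h1 : σ • (a : JZero M) = σ • (b : JZero M) := congrArg Subtype.val hab
      have h2 := congrArg (fun z => σ⁻¹ • z) h1
      simp only [inv_smul_smul] at h2
      exact Subtype.ext h2
    · rintro ⟨_, x, hx, rfl⟩
      exact ⟨⟨x, hx⟩, rfl⟩

end

/-- **(K-p) from the inputs at ONE place over `p`.** -/
theorem kpAt_of_inputs_one (M p : ℕ) [NeZero M] (hp : p.Prime) {m₀ g : ℕ} (hm₀ : 0 < m₀)
    (hLB : ∀ n : ℕ, 0 < n → ¬ p ∣ n → n ^ (2 * g) ≤ Nat.card (torsN (JZero M) n))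
    (A₀ : ValuationSubring Qb) (hA₀ : A₀.LiesOverPrime p)
    (hin : ∀ n : ℕ, 0 < n → ¬ p ∣ n → Nonempty (KpInputs M A₀ n m₀ g)) :
    KpAt M p := by
  refine kpAt_of_inputs M p hp hm₀ hLB fun A hA n hn hpn => ?_
  haveI : Fact p.Prime := ⟨hp⟩
  obtain ⟨σ, rfl⟩ := Fermat.Agent.FF.exists_smul_eq_of_liesOverPrime A₀ A hA₀ hA
  obtain ⟨inp⟩ := hin n hn hpn
  exact ⟨inp.conj σ⟩

end Fermat.Agent.EKp
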