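/-
Cluster E' (Mazur's descent), seat DESC-Kp, leaf KP-LB (helper43; sub-architect helper60).

`torsLB` : `n ^ (2 g) ≤ # J₀(N)(ℚ̄)[n]` for every level `N` and every `n > 0`, where
`g = genusFF ℚ̄ F_N` is the genus of the function field of `X₀(N)` over `ℚ̄`.

Proof: the canonical Kummer map `κ_n : Hom_par(Γ₀(N), ℤ) → J₀(N)(ℚ̄)[n]` (`F3Deg.kappaC`) has
kernel `n · Hom_par` (`kappaC_ker`), so `(ℤ/n)^r ↪ J₀(N)[n]` with `r = rank Hom_par(Γ₀(N), ℤ)`;
`r = 2 dim S₂(Γ₀(N))` by Eichler–Shimura (`F3EP.periodEquiv`, S21) and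
`dim S₂(Γ₀(N)) = genusFormula N = g` (S20, S24 / `GenusEq.genusFF_modularFunctionFieldBar`).
-/
import Mathlib
import Fermat.Agent.F3.I2.Deg.Canon
import Fermat.Agent.F3.EigenPadic.Theta
import Fermat.Agent.F3.TorsFin.Final
import Fermat.Agent.S20
import Fermat.Agent.S23.FiniteDim
import Fermat.Agent.Lib.GenusEq.GenusFM

set_option autoImplicit false
set_option linter.unusedSectionVars false
set_option linter.style.haveILetI false

noncomputable section

namespace Fermat.Agent.EKp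

open ModularCurve AlgebraicCurve CongruenceSubgroup ModularCurve.Period
open Fermat.Agent.F3EC Fermat.Agent.F3Deg
open scoped TensorProduct

local notation "Qb" => AlgebraicClosure ℚ

/-! ### counting -/

/-- A homomorphism from a free `ℤ`-module of rank `r` to a finite group whose kernel lies in
`n M` has an image with at least `n ^ r` elements. -/
theorem lb_pow_finrank_le_card {M X : Type*} [AddCommGroup M] [AddCommGroup X]
    [Module.Free ℤ M] [Module.Finite ℤ M] [Finite X]
    (κ : M →+ X) {n : ℕ}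
    (hker : ∀ c : M, κ c = 0 → ∃ c' : M, c = (n : ℤ) • c') :
    n ^ Module.finrank ℤ M ≤ Nat.card X := by
  classical
  set r := Module.finrank ℤ M with hr
  let b : Module.Basis (Fin r) ℤ M := Module.finBasis ℤ M
  let f : (Fin r → Fin n) → X := fun a => κ (∑ i, ((a i : ℕ) : ℤ) • b i)
  have hf : Function.Injective f := by
    intro a a' h
    have h0 : κ (∑ i, (((a i : ℕ) : ℤ) - ((a' i : ℕ) : ℤ)) • b i) = 0 := by
      have e : ∑ i, (((a i : ℕ) : ℤ) - ((a' i : ℕ) : ℤ)) • b i =
          (∑ i, ((a i : ℕ) : ℤ) • b i) - ∑ i, ((a' i : ℕ) : ℤ) • b i := by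
        rw [← Finset.sum_sub_distrib]
        exact Finset.sum_congr rfl fun i _ => sub_smul _ _ _
      rw [e, map_sub, sub_eq_zero]
      exact h
    obtain ⟨c', hc'⟩ := hker _ h0
    funext i
    have h1 := congrArg (fun m => b.repr m i) hc'
    simp only [map_sum, map_smul, Module.Basis.repr_self, Finsupp.coe_finsetSum,
      Finsupp.coe_smul, Finset.sum_apply, Pi.smul_apply, smul_eq_mul] at h1
    rw [Finset.sum_eq_single i (fun j _ hji => by
      rw [Finsupp.single_apply, if_neg hji, mul_zero]) (fun hi => absurd (Finset.mem_univ i) hi),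
      Finsupp.single_apply, if_pos rfl, mul_one] at h1
    have h2 : (n : ℤ) ∣ ((a i : ℕ) : ℤ) - ((a' i : ℕ) : ℤ) := ⟨_, h1⟩
    have h3 : ((a i : ℕ) : ℤ) % n = ((a' i : ℕ) : ℤ) % n :=
      Int.emod_eq_emod_iff_emod_sub_eq_zero.mpr (Int.emod_eq_zero_of_dvd h2)
    rw [Int.emod_eq_of_lt (Int.natCast_nonneg _) (by exact_mod_cast (a i).2),
      Int.emod_eq_of_lt (Int.natCast_nonneg _) (by exact_mod_cast (a' i).2)] at h3
    exact Fin.ext (by exact_mod_cast h3)
  have hcard : Nat.card (Fin r → Fin n) = n ^ r := by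
    rw [Nat.card_eq_fintype_card, Fintype.card_fun, Fintype.card_fin, Fintype.card_fin]
  rw [← hcard]
  exact Nat.card_le_card_of_injective f hf

/-! ### the rank of `Hom_par(Γ₀(N), ℤ)` -/

variable (N : ℕ) [NeZero N]

/-- Eichler–Shimura: `rank Hom_par(Γ₀(N), ℤ) = 2 dim S₂(Γ₀(N))`. -/
theorem lb_finrank_homPar :
    Module.finrank ℤ (HomPar N) = 2 * Module.finrank ℂ (CuspForm (Gamma0 N) 2) := by
  haveI : FiniteDimensional ℂ (CuspForm (Gamma0 N) 2) :=
    Fermat.Agent.S23.finiteDimensional_cuspForm N 2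
  have h1 : Module.finrank ℂ (ℂ ⊗[ℤ] HomPar N) = Module.finrank ℤ (HomPar N) :=
    Module.finrank_baseChange
  have h2 := (Fermat.Agent.F3EP.periodEquiv N).finrank_eq
  rw [Module.finrank_prod] at h2
  rw [← h1, ← h2, two_mul]

/-- `dim S₂(Γ₀(N)) = g(X₀(N))`. -/
theorem lb_finrank_cuspForm :
    Module.finrank ℂ (CuspForm (Gamma0 N) 2) = genusFF Qb ↥(modularFunctionFieldBar N) := by
  have h1 := Fermat.Agent.S20.result N
  have h2 := Fermat.Agent.GenusEq.genusFF_modularFunctionFieldBar N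
  have h3 : (Module.finrank ℂ (CuspForm (Gamma0 N) 2) : ℚ) =
      (genusFF Qb ↥(modularFunctionFieldBar N) : ℚ) := by rw [h1, h2]
  exact_mod_cast h3

/-- `rank Hom_par(Γ₀(N), ℤ) = 2 g`. -/
theorem lb_finrank_homPar_eq_genus :
    Module.finrank ℤ (HomPar N) = 2 * genusFF Qb ↥(modularFunctionFieldBar N) := by
  rw [lb_finrank_homPar, lb_finrank_cuspForm]

/-! ### the lower bound -/

/-- **(LB)** `n ^ (2 g) ≤ # J₀(N)(ℚ̄)[n]`. -/
theorem torsLB {n : ℕ} (hn : 0 < n) :
    n ^ (2 * genusFF Qb ↥(modularFunctionFieldBar N)) ≤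
      Nat.card (Fermat.Agent.F3.Jtors N n) := by
  haveI : Finite (Fermat.Agent.F3.Jtors N n) := by
    have hfin := Fermat.Agent.F3TF.torsionFinite N n hn
    have e : (↑(Fermat.Agent.F3.Jtors N n) : Set (JZero N)) = {x : JZero N | n • x = 0} := by
      ext x
      simp only [SetLike.mem_coe, Submodule.mem_torsionBy_iff, Set.mem_ofPred_eq, natCast_zsmul]
    exact (e ▸ hfin).to_subtype
  rw [← lb_finrank_homPar_eq_genus]
  exact lb_pow_finrank_le_card (kappaC N n).toAddMonoidHom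
    (fun c hc => kappaC_ker hn hc)

/-- **(LB)**, set form. -/
theorem torsLB_ncard {n : ℕ} (hn : 0 < n) :
    n ^ (2 * genusFF Qb ↥(modularFunctionFieldBar N)) ≤ {x : JZero N | n • x = 0}.ncard := by
  have h := torsLB N hn
  have e : (↑(Fermat.Agent.F3.Jtors N n) : Set (JZero N)) = {x : JZero N | n • x = 0} := by
    ext x
    simp only [SetLike.mem_coe, Submodule.mem_torsionBy_iff, Set.mem_ofPred_eq, natCast_zsmul]
  rw [← e]
  exact h

end Fermat.Agent.EKp
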