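/-
Cluster E' (Mazur's descent), seat DESC-Kp, leaf KP-MOD / MOD-TOP (helper45).

From a nodal package `N` on the function field of `X₀(M)` over `ℚ̄` at ONE place `A | p` to
`KpAt M p`:

* `kpInputs_of_nodal` : `KpInputs M A n m₀ g` with `T = W₀[n]`, `g = genus`, from
  (inertia is inertial), (TK), (TB), `GenusRel` and (FTT);
* `kpAt_of_nodal`     : `KpAt M p` from the same data at one place `A₀ | p`, for all `n` prime
  to `p` (`kpAt_of_inputs_one`, `torsLB_ncard`).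
-/
import Fermat.Agent.E.Desc.Kp.OnePlace
import Fermat.Agent.E.Desc.Kp.E1Div
import Fermat.Agent.E.Desc.Kp.Rep
import Fermat.Agent.E.Desc.Kp.TorsLB
import Fermat.Agent.S17.H.Setup.Cusp
import Fermat.Agent.Lib.RR.OfModularBar

set_option autoImplicit false
set_option linter.style.haveILetI false

noncomputable section

namespace Fermat.Agent.EKp

open ModularCurve AlgebraicCurve Fermat.Agent.RR Fermat.Agent.BadRed

local notation "Qb" => AlgebraicClosure ℚ
local notation "GQb" => (AlgebraicClosure ℚ ≃ₐ[ℚ] AlgebraicClosure ℚ)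

variable {k Fk₁ Fk₂ ι : Type*} [Field k] [Field Fk₁] [Algebra k Fk₁] [Field Fk₂] [Algebra k Fk₂]
  [Fintype ι]

/-- the image of the inertia group at `A` in the semilinear automorphisms of the function
field of `X₀(M)`. -/
def modTopΓ (M : ℕ) (A : ValuationSubring Qb) :
    Set (SemilinearAut Qb (modularFunctionFieldBar M)) :=
  {t | ∃ τ ∈ A.inertiaSubgroupIn ℚ, t = arithmeticGalois (modularFunctionFieldFull M) τ}

theorem modTop_natCast_ne_zero {n : ℕ} (hn : 0 < n) : (n : Qb) ≠ 0 :=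
  Nat.cast_ne_zero.mpr hn.ne'

/-- `s - 1 ≤ g` from the genus relation. -/
theorem modTop_card_le {M : ℕ}
    (N : NodalSetup Qb (modularFunctionFieldBar M) k Fk₁ Fk₂ ι) (hrel : N.GenusRel) :
    Fintype.card ι - 1 ≤ genusFF Qb (modularFunctionFieldBar M) := by
  unfold NodalSetup.GenusRel at hrel
  omega

/-- **MOD-TOP, one exponent**: the inputs of (K-p) from a nodal package. -/
def kpInputs_of_nodal (M : ℕ) [NeZero M] (A : ValuationSubring Qb)
    (N : NodalSetup Qb (modularFunctionFieldBar M) k Fk₁ Fk₂ ι)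
    (hinert : ∀ τ ∈ A.inertiaSubgroupIn ℚ,
      N.IsInertial (arithmeticGalois (modularFunctionFieldFull M) τ))
    (hrel : N.GenusRel) {n m₀ : ℕ} (hn : 0 < n)
    (hTK : ∀ t : SemilinearAut Qb (modularFunctionFieldBar M), N.IsInertial t →
      ∀ x ∈ N.W0 n, t • x = x)
    (hTB : (N.W0 n).Finite ∧ (N.W0 n).ncard ≤ n ^ (Fintype.card ι - 1))
    (hFTT : ∀ x : JZero M, n • x = 0 → (∀ σ ∈ A.inertiaSubgroupIn ℚ, σ • x = x) →
      m₀ • x ∈ N.W0 n) :
    KpInputs M A n m₀ (genusFF Qb (modularFunctionFieldBar M)) where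
  T := w0Sub N n
  hTn := fun x hx => nsmul_eq_zero_of_mem_W0 N hx
  hTfix := fun σ hσ x hx => hTK _ (hinert σ hσ) x hx
  hE1 := by
    intro σ hσ y hy
    have hfix : ∀ t ∈ modTopΓ M A, t • (n • y) = n • y := by
      rintro t ⟨τ, -, rfl⟩
      exact hy τ
    have hoo : ∀ t ∈ modTopΓ M A, t • Fermat.Agent.S17.Setup.cuspPlace M =
        Fermat.Agent.S17.Setup.cuspPlace M := by
      rintro t ⟨τ, -, rfl⟩
      exact Fermat.Agent.S17.Setup.galPlace_cuspPlace M τ
    obtain ⟨D, hD, hDfix⟩ := rep_pic0 (Fermat.Agent.RRMod.isRRField_bar M)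
      (Fermat.Agent.S17.Setup.cuspPlace M) (modTopΓ M A) hoo (n • y) hfix
    exact smul_sub_mem_W0 N (hinert σ hσ) D (hDfix _ ⟨σ, hσ, rfl⟩) y hD.symm
  hFTT := hFTT
  hTB := by
    have h1 : Nat.card (w0Sub N n) = (N.W0 n).ncard := rfl
    rw [h1]
    exact hTB.2.trans (Nat.pow_le_pow_right hn (modTop_card_le N hrel))

/-- **MOD-TOP**: (K-p) at level `M` from a nodal package at ONE place `A₀ | p`. -/
theorem kpAt_of_nodal (M p : ℕ) [NeZero M] (hp : p.Prime) (A₀ : ValuationSubring Qb)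
    (hA₀ : A₀.LiesOverPrime p)
    (N : NodalSetup Qb (modularFunctionFieldBar M) k Fk₁ Fk₂ ι)
    (hinert : ∀ τ ∈ A₀.inertiaSubgroupIn ℚ,
      N.IsInertial (arithmeticGalois (modularFunctionFieldFull M) τ))
    (hrel : N.GenusRel) {m₀ : ℕ} (hm₀ : 0 < m₀)
    (hTK : ∀ n : ℕ, 0 < n → ¬ p ∣ n →
      ∀ t : SemilinearAut Qb (modularFunctionFieldBar M), N.IsInertial t →
        ∀ x ∈ N.W0 n, t • x = x)
    (hTB : ∀ n : ℕ, 0 < n → ¬ p ∣ n →
      (N.W0 n).Finite ∧ (N.W0 n).ncard ≤ n ^ (Fintype.card ι - 1))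
    (hFTT : ∀ n : ℕ, 0 < n → ¬ p ∣ n → ∀ x : JZero M, n • x = 0 →
      (∀ σ ∈ A₀.inertiaSubgroupIn ℚ, σ • x = x) → m₀ • x ∈ N.W0 n) :
    KpAt M p := by
  refine kpAt_of_inputs_one M p hp hm₀ (fun n hn _ => ?_) A₀ hA₀ fun n hn hpn =>
    ⟨kpInputs_of_nodal M A₀ N hinert hrel hn (hTK n hn hpn) (hTB n hn hpn) (hFTT n hn hpn)⟩
  have h1 := torsLB_ncard M hn
  have h2 : Nat.card (torsN (JZero M) n) = {x : JZero M | n • x = 0}.ncard := rfl
  rw [h2]
  exact h1

end Fermat.Agent.EKp
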