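/-
Cluster E' (Mazur's descent), seat DESC-Kp, leaf KP-MOD, FINAL ASSEMBLY (helper45).

`kpAt_of_mod`       : `KpAt (D.Q * D.R) D.Q` from the two modular leaves at ONE place `A | D.Q`:
                      `ModU` (ORDT for the modular nodal setup) and
                      `AnnFix (kpN ..) (kpΓ D A) c` (ANN + FIX);
`kpStatement_of_mod` : `KpStatement p` for a prime `p ≥ 5` (`D.Q = p`, `D.R = 1`).

Ingredients: `kpAt_of_nodal` (ModTop.lean), `ftt` (FTT.lean), the toric package of the seed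
(`NodalSeed.smul_eq_of_mem_W0`, `NodalSeed.finite_W0`, `NodalSeed.ncard_W0_le`), the cusp `∞`.
-/
import Mathlib
import Fermat.Agent.E.Desc.Kp.ModDefs
import Fermat.Agent.E.Desc.Kp.ModTop
import Fermat.Agent.Lib.BadRed.Nodal.ToricBoundSeed

set_option autoImplicit false
set_option linter.style.haveILetI false
set_option linter.unusedSectionVars false
set_option synthInstance.maxHeartbeats 400000

noncomputable section

namespace Fermat.Agent.EKp

open IntermediateField ModularCurve AlgebraicCurve Fermat.Agent.F3 Fermat.Agent.F3G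
  Fermat.Agent.GaussInt Fermat.Agent.AtkinLehner Fermat.Agent.Deuring Fermat.Agent.RR
  Fermat.Agent.BadRed

local notation "Qb" => AlgebraicClosure ℚ

attribute [local instance] Fermat.Agent.BadRed.fwFintype

section

variable (D : ALData) [NeZero D.Q] [NeZero D.R] [NeZero (D.Q * D.R)]
  (A : ValuationSubring Qb) (hq : D.Q.Prime) (hA : A.LiesOverPrime D.Q) (hqR : ¬ D.Q ∣ D.R)
  [Fact D.Q.Prime] [CharP (IsLocalRing.ResidueField A) D.Q]
  [PerfectRing (IsLocalRing.ResidueField A) D.Q]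

/-- the modular seed behind `kpN`. -/
def kpSeed (haux : AuxLevelOK D.Q D.R) :
    NodalSeed Qb (modularFunctionFieldBar (D.Q * D.R)) (IsLocalRing.ResidueField A)
      (modularFunctionFieldFullC (IsLocalRing.ResidueField A) D.R)
      (modularFunctionFieldFullC (IsLocalRing.ResidueField A) D.R) (kpIota D A hq hA hqR) :=
  fwSeed D A hq hA hqR (kpS D A hq hA hqR) (isGaussSetup_gaussSetupBad D hq hqR A hA)
    (hasLattice_gaussSetupBad D hq hqR A hA) haux
    (fw_sep D A hq hA hqR _ (isGaussSetup_gaussSetupBad D hq hqR A hA) haux)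

theorem kpSeed_nodalSetup (haux : AuxLevelOK D.Q D.R) :
    haveI := Fermat.Agent.GaussInt.infinite_residue A
    (kpSeed D A hq hA hqR haux).nodalSetup = kpN D A hq hA hqR haux := rfl

theorem kp_natCast_inv_mem {n : ℕ} (hpn : ¬ D.Q ∣ n) (haux : AuxLevelOK D.Q D.R) :
    ((n : Qb))⁻¹ ∈ (kpSeed D A hq hA hqR haux).S₁.A := by
  have h1 : (kpSeed D A hq hA hqR haux).S₁.A = A :=
    (isGaussSetup_gaussSetupBad D hq hqR A hA).A_eq
  rw [h1]
  exact Fermat.Agent.GaussInt.natCast_inv_mem_of_not_dvd A hq hA hpn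

/-- **(TK)** for the modular nodal setup. -/
theorem kp_mod_TK (haux : AuxLevelOK D.Q D.R) {n : ℕ} (hn : 0 < n) (hpn : ¬ D.Q ∣ n)
    (t : SemilinearAut Qb (modularFunctionFieldBar (D.Q * D.R)))
    (ht : (kpN D A hq hA hqR haux).IsInertial t)
    (x : Pic0 Qb (modularFunctionFieldBar (D.Q * D.R)))
    (hx : x ∈ (kpN D A hq hA hqR haux).W0 n) : t • x = x := by
  haveI := Fermat.Agent.GaussInt.isAlgClosed_residue A
  haveI := Fermat.Agent.GaussInt.infinite_residue A
  haveI := fw_nonempty D A hq hA (kpS D A hq hA hqR) (isGaussSetup_gaussSetupBad D hq hqR A hA)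
  exact NodalSeed.smul_eq_of_mem_W0 (kpSeed D A hq hA hqR haux) (modTop_natCast_ne_zero hn)
    (kp_natCast_inv_mem D A hq hA hqR hpn haux) ht hx

/-- **(TB)** for the modular nodal setup. -/
theorem kp_mod_TB (haux : AuxLevelOK D.Q D.R) {n : ℕ} (hn : 0 < n) (hpn : ¬ D.Q ∣ n) :
    ((kpN D A hq hA hqR haux).W0 n).Finite ∧
      ((kpN D A hq hA hqR haux).W0 n).ncard ≤ n ^ (Fintype.card (kpIota D A hq hA hqR) - 1) := by
  haveI := Fermat.Agent.GaussInt.isAlgClosed_residue A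
  haveI := Fermat.Agent.GaussInt.infinite_residue A
  haveI := fw_nonempty D A hq hA (kpS D A hq hA hqR) (isGaussSetup_gaussSetupBad D hq hqR A hA)
  exact ⟨NodalSeed.finite_W0 (kpSeed D A hq hA hqR haux) (modTop_natCast_ne_zero hn)
      (kp_natCast_inv_mem D A hq hA hqR hpn haux),
    NodalSeed.ncard_W0_le (kpSeed D A hq hA hqR haux) (modTop_natCast_ne_zero hn)
      (kp_natCast_inv_mem D A hq hA hqR hpn haux)⟩

/-- the inertia group fixes the cusp `∞`. -/
theorem kpΓ_cuspPlace :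
    ∀ t ∈ kpΓ D A, t • Fermat.Agent.S17.Setup.cuspPlace (D.Q * D.R) =
      Fermat.Agent.S17.Setup.cuspPlace (D.Q * D.R) := by
  rintro t ⟨τ, -, rfl⟩
  exact Fermat.Agent.S17.Setup.galPlace_cuspPlace (D.Q * D.R) τ

/-- **(FTT)** for the modular nodal setup, from ANN + FIX and ORDT. -/
theorem kp_mod_FTT (haux : AuxLevelOK D.Q D.R) {c n d : ℕ}
    (hAF : AnnFix (kpN D A hq hA hqR haux) (kpΓ D A) c)
    (hOT : OrdToric (kpN D A hq hA hqR haux) n d)
    (x : JZero (D.Q * D.R)) (hx : n • x = 0)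
    (hfix : ∀ σ ∈ A.inertiaSubgroupIn ℚ, σ • x = x) :
    (c * d) • x ∈ (kpN D A hq hA hqR haux).W0 n := by
  refine ftt (Fermat.Agent.RRMod.isRRField_bar (D.Q * D.R)) (kpN D A hq hA hqR haux)
    (Fermat.Agent.S17.Setup.cuspPlace (D.Q * D.R)) (kpΓ D A) (kpΓ_cuspPlace D A)
    (kpΓ_isInertial D A hq hA hqR haux) hAF hOT x hx ?_
  rintro t ⟨τ, hτ, rfl⟩
  exact hfix τ hτ

/-- **KP-MOD, level `q R`**: (K-p) from the modular leaves at ONE place `A | q`. -/
theorem kpAt_of_mod (haux : AuxLevelOK D.Q D.R) {c : ℕ} (hc : 0 < c)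
    (hAF : AnnFix (kpN D A hq hA hqR haux) (kpΓ D A) c)
    (hU : ModU D A hq hA hqR haux) :
    KpAt (D.Q * D.R) D.Q := by
  refine kpAt_of_nodal (D.Q * D.R) D.Q hq A hA (kpN D A hq hA hqR haux)
    (fun τ hτ => kpΓ_isInertial D A hq hA hqR haux _ ⟨τ, hτ, rfl⟩)
    (kpN_genusRel D A hq hA hqR haux) (m₀ := c * kpD D A hq hA hqR)
    (Nat.mul_pos hc (kpD_pos D A hq hA hqR))
    (fun n hn hpn => kp_mod_TK D A hq hA hqR haux hn hpn)
    (fun n hn hpn => kp_mod_TB D A hq hA hqR haux hn hpn)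
    (fun n _ _ x hx hfix => kp_mod_FTT D A hq hA hqR haux hAF (hU n) x hx hfix)

end

/-- the two modular leaves of (K-p) at the prime `p`: at SOME place over `p`, for SOME
Atkin-Lehner datum of level `p * 1`. -/
def KpModLeaves (p : ℕ) : Prop :=
  ∀ (D : ALData), D.Q = p → D.R = 1 → ∀ (hq : D.Q.Prime) (hqR : ¬ D.Q ∣ D.R)
    (haux : AuxLevelOK D.Q D.R),
    ∃ (A : ValuationSubring Qb) (hA : A.LiesOverPrime D.Q),
      haveI : NeZero D.Q := ⟨hq.ne_zero⟩
      haveI : NeZero D.R := ⟨D.hR.ne'⟩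
      haveI : NeZero (D.Q * D.R) := ⟨mul_ne_zero hq.ne_zero D.hR.ne'⟩
      haveI : Fact D.Q.Prime := ⟨hq⟩
      haveI : CharP (IsLocalRing.ResidueField A) D.Q :=
        Fermat.Agent.FrobTrace.charP_residueField A hA
      haveI : IsAlgClosed (IsLocalRing.ResidueField A) :=
        Fermat.Agent.GaussInt.isAlgClosed_residue A
      haveI : PerfectRing (IsLocalRing.ResidueField A) D.Q := inferInstance
      (∃ c : ℕ, 0 < c ∧ AnnFix (kpN D A hq hA hqR haux) (kpΓ D A) c) ∧ ModU D A hq hA hqR haux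

/-- **KP-MOD**: `KpStatement p` for a prime `p ≥ 5`, from the modular leaves. -/
theorem kpStatement_of_mod {p : ℕ} (hp : p.Prime) (h5 : 5 ≤ p) (h : KpModLeaves p) :
    KpStatement p := by
  obtain ⟨D, hDQ, hDR⟩ := ALData.exists_of_coprime hp.pos Nat.one_pos (Nat.coprime_one_right p)
  have hq : D.Q.Prime := hDQ ▸ hp
  have hqR : ¬ D.Q ∣ D.R := ALData_not_dvd D hq
  have haux : AuxLevelOK D.Q D.R := AuxLevelOK.of_five_le (hDQ ▸ h5)
  obtain ⟨A, hA, ⟨c, hc, hAF⟩, hU⟩ := h D hDQ hDR hq hqR haux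
  haveI : NeZero D.Q := ⟨hq.ne_zero⟩
  haveI : NeZero D.R := ⟨D.hR.ne'⟩
  haveI : NeZero (D.Q * D.R) := ⟨mul_ne_zero hq.ne_zero D.hR.ne'⟩
  haveI : Fact D.Q.Prime := ⟨hq⟩
  haveI : CharP (IsLocalRing.ResidueField A) D.Q :=
    Fermat.Agent.FrobTrace.charP_residueField A hA
  haveI : IsAlgClosed (IsLocalRing.ResidueField A) :=
    Fermat.Agent.GaussInt.isAlgClosed_residue A
  haveI : PerfectRing (IsLocalRing.ResidueField A) D.Q := inferInstance
  have h1 : KpAt (D.Q * D.R) D.Q := kpAt_of_mod D A hq hA hqR haux hc hAF hU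
  have h2 : D.Q * D.R = p := by rw [hDQ, hDR, mul_one]
  have h3 : KpAt p D.Q := kpAt_cast h2 h1
  rw [hDQ] at h3
  exact kpStatement_of_kpAt h3

end Fermat.Agent.EKp
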