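/-
Cluster E' (Mazur's descent), seat DESC-Kp, leaf MOD-g (helper60).

`modg_genusFF_fullC_one` : the function field of `X₀(1)` over the residue field `k` of a place
`A` of `ℚ̄` has genus `0` (Deuring's inequality `GenusEq.genusLe` at level `1` and the genus
formula over `ℚ̄`).  Needed by `ordToric_of_uData` (the components of the special fibre of
`X₀(p)` at `p` are two copies of `X₀(1)`).
-/
import Fermat.Agent.Lib.GenusEq.GenusFM
import Fermat.Agent.Lib.GenusEq.Inputs

set_option autoImplicit false
set_option synthInstance.maxHeartbeats 400000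
set_option maxHeartbeats 1000000

noncomputable section

namespace Fermat.Agent.EKp

open ModularCurve AlgebraicCurve

theorem modg_nuTwo_one : nuTwo 1 = 1 := by
  unfold nuTwo
  rw [Nat.card_eq_fintype_card]
  rfl

theorem modg_nuThree_one : nuThree 1 = 1 := by
  unfold nuThree
  rw [Nat.card_eq_fintype_card]
  rfl

theorem modg_genusFormula_one : genusFormula 1 = 0 := by
  rw [genusFormula, dedekindPsi_one, modg_nuTwo_one, modg_nuThree_one, cuspCount_one]
  norm_num

/-- the function field of `X₀(1)` over `ℚ̄` has genus `0`. -/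
theorem modg_genusFF_bar_one :
    genusFF (AlgebraicClosure ℚ) ↥(modularFunctionFieldBar 1) = 0 := by
  have h := Fermat.Agent.GenusEq.genusFF_modularFunctionFieldBar 1
  rw [modg_genusFormula_one] at h
  exact_mod_cast h

/-- **MOD-g**: the function field of `X₀(1)` over the residue field of a place of `ℚ̄` has
genus `0`. -/
theorem modg_genusFF_fullC_one {ℓ : ℕ} (hℓ : ℓ.Prime) (A : ValuationSubring (AlgebraicClosure ℚ))
    (hA : A.LiesOverPrime ℓ) :
    genusFF (IsLocalRing.ResidueField A)
      ↥(modularFunctionFieldFullC (IsLocalRing.ResidueField A) 1) = 0 := by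
  have h := Fermat.Agent.GenusEq.genusLe 1 ℓ hℓ
    (fun h1 => hℓ.one_lt.ne' (Nat.dvd_one.mp h1)) A hA
  rw [modg_genusFF_bar_one] at h
  exact Nat.le_zero.mp h

end Fermat.Agent.EKp
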