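/-
Cluster E' (Mazur's descent), DESC-Kp leaf SLOPE-MOD (helper64): the modular instance of
`SlopeData` (see `SlopeDefs.lean`).

`D : ALData` (`N = Q R`), `Q` prime, `Q ∤ R`, `A` a place of `ℚ̄` over `Q`, `S` a Gauss setup of
`F_N` at `A` (`v_∞`), `valSetupZero D S = v_∞ ∘ w_Q` (`v_0`), `u = Δ(z)/Δ(Qz)`, `ϖ = Q ^ 12`:

  `slopeData_modular : SlopeData S (valSetupZero D S) u ϖ`.

Inputs: `uHyp_package` (MA2), `finrank_uF` (MA4), `finrank_adjoin_ss` (MA5).
-/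
import Mathlib
import Fermat.Agent.E.Desc.Kp.SlopeDefs
import Fermat.Agent.Lib.BadRed.Mod.UHyp
import Fermat.Agent.Lib.BadRed.Mod.UCuspDegFinal
import Fermat.Agent.Lib.BadRed.Mod.SSDeg

set_option autoImplicit false
set_option linter.style.haveILetI false
set_option synthInstance.maxHeartbeats 400000
set_option maxHeartbeats 1000000

noncomputable section

namespace Fermat.Agent.EKp

open ModularCurve AlgebraicCurve Fermat.Agent.GaussInt Fermat.Agent.AtkinLehner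
  Fermat.Agent.Deuring Fermat.Agent.BadRed Fermat.Agent.F3 Fermat.Agent.F3G IntermediateField

local notation "Qb" => AlgebraicClosure ℚ

/-- a constant with residue `0` has valuation `< 1`. -/
theorem sm_val_lt_one {K F k Fk : Type*} [Field K] [Field F] [Algebra K F] [Field k] [Field Fk]
    [Algebra k Fk] (S : ValSetup K F k Fk) {c : K} (hc : c ∈ S.A) (h0 : S.res ⟨c, hc⟩ = 0) :
    S.A.valuation c < 1 := by
  have h1 : S.A.valuation c ≤ 1 := (S.A.valuation_le_one_iff c).mpr hc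
  refine lt_of_le_of_ne h1 fun h2 => ?_
  have h3 : S.A.valuation c⁻¹ ≤ 1 := by
    rw [map_inv₀, h2, inv_one]
  have hc' : c⁻¹ ∈ S.A := (S.A.valuation_le_one_iff c⁻¹).mp h3
  have hc0 : c ≠ 0 := by
    rintro rfl
    rw [map_zero] at h2
    exact zero_ne_one h2
  have h4 : S.res ⟨c, hc⟩ * S.res ⟨c⁻¹, hc'⟩ = 1 := by
    rw [← map_mul]
    have : (⟨c, hc⟩ : S.A) * ⟨c⁻¹, hc'⟩ = 1 := Subtype.ext (mul_inv_cancel₀ hc0)
    rw [this, map_one]
  rw [h0, zero_mul] at h4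
  exact zero_ne_one h4

variable (D : ALData) [NeZero D.Q] [NeZero D.R] [NeZero (D.Q * D.R)]
  {A : ValuationSubring Qb}
  {S : ValSetup Qb (FBar (D.Q * D.R)) (IsLocalRing.ResidueField A)
    (modularFunctionFieldFullC (IsLocalRing.ResidueField A) D.R)}

/-- **SLOPE-MOD**: the `u`-data of SLOPE for `X₀(Q R)` at a place over `Q`. -/
theorem slopeData_modular (hS : IsGaussSetup (D.Q * D.R) D.R A S) (hq : D.Q.Prime)
    (hqR : ¬ D.Q ∣ D.R) (hA : A.LiesOverPrime D.Q) :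
    SlopeData S (valSetupZero D S) (uF (D.Q * D.R) D.Q (Dvd.intro _ rfl)) ((D.Q : Qb) ^ 12) := by
  obtain ⟨hAeq, -, hϖ0, ⟨hϖmem, hϖres⟩, hu, hutr, hu₂, hutr₂, hred, hred₂⟩ :=
    uHyp_package D hS hq hA
  have hdeg := finrank_uF (q := D.Q) (N := D.Q * D.R) (N₀ := D.R) hq rfl hqR (Dvd.intro _ rfl)
  have hdegk := finrank_adjoin_ss D.R hq hqR hA _ hred
  refine ⟨hAeq, hϖ0, sm_val_lt_one S hϖmem hϖres, hu, hutr, hu₂, hutr₂, ?_, ?_⟩
  · rw [hdegk]
    exact hdeg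
  · rw [hred₂, hdegk]
    exact hdeg

end Fermat.Agent.EKp
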