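/-
Cluster E' (Mazur's descent), seat DESC-Kp (helper60): the adapter to DESC-MAIN.

`eisKp_of_kpStatement : KpStatement p → EisKp p l'` for primes `l' ≠ p`
(`EisKp` = the hypothesis `(K-p)` of `EDesc.desc_main`, E/Desc/MainDefs.lean).
-/
import Fermat.Agent.E.Desc.Kp.Defs
import Fermat.Agent.E.Desc.MainDefs

set_option autoImplicit false

namespace Fermat.Agent.EKp

open ModularCurve AlgebraicCurve

/-- `p ∤ l' ^ k` for distinct primes `l'`, `p`. -/
theorem toEis_not_dvd_pow {p l' : ℕ} (hp : p.Prime) (hl' : l'.Prime) (hne : l' ≠ p) (k : ℕ) :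
    ¬ p ∣ l' ^ k := fun h =>
  hne ((Nat.prime_dvd_prime_iff_eq hp hl').mp (hp.dvd_of_dvd_pow h)).symm

/-- **(K-p) in the form consumed by DESC-MAIN.** -/
theorem eisKp_of_kpStatement {p l' : ℕ} [NeZero p] (hp : p.Prime) (hl' : l'.Prime) (hne : l' ≠ p)
    (h : KpStatement p) : Fermat.Agent.EDesc.EisKp p l' := by
  obtain ⟨m, hm, hcob⟩ := h.exists_cob
  refine ⟨m, hm, fun k P R hP hR Ap hAp => ?_⟩
  exact hcob Ap hAp P hP (l' ^ k) (pow_pos hl'.pos k) (toEis_not_dvd_pow hp hl' hne k) R hR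

end Fermat.Agent.EKp
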